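import Fermat.Agent.TW.GroupLemma.Stabilizer
import Mathlib.GroupTheory.PGroup

/-!
# The unipotent part as a Sylow subgroup, and the Frattini argument
-/

set_option autoImplicit false

noncomputable section

open Matrix Matrix.GeneralLinearGroup

attribute [local instance] Classical.propDecidable

namespace FLTAgent.TW.GroupLemma

variable {k : Type} [Field k]

theorem upper_val (x : k) :
    ((upperRightHom x : GL (Fin 2) k) : Matrix (Fin 2) (Fin 2) k) = !![1, x; 0, 1] := rfl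

theorem upper_trace_det (x : k) :
    ((upperRightHom x : GL (Fin 2) k) : Matrix (Fin 2) (Fin 2) k).trace = 2 ∧
      ((upperRightHom x : GL (Fin 2) k) : Matrix (Fin 2) (Fin 2) k).det = 1 := by
  rw [upper_val]
  constructor
  · simp [Matrix.trace_fin_two, one_add_one_eq_two]
  · simp [Matrix.det_fin_two]

theorem upper_eq_one_iff {x : k} : (upperRightHom x : GL (Fin 2) k) = 1 ↔ x = 0 :=
  ⟨fun h => injective_upperRightHom (h.trans (AddChar.map_zero_eq_one _).symm),
    fun h => by rw [h, AddChar.map_zero_eq_one]⟩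

theorem eq_upper_of_trace_det {g : GL (Fin 2) k}
    (h10 : (g : Matrix (Fin 2) (Fin 2) k) 1 0 = 0)
    (ht : (g : Matrix (Fin 2) (Fin 2) k).trace = 2) (hd : (g : Matrix (Fin 2) (Fin 2) k).det = 1) :
    g = upperRightHom ((g : Matrix (Fin 2) (Fin 2) k) 0 1) := by
  rw [Matrix.trace_fin_two] at ht
  rw [Matrix.det_fin_two, h10, mul_zero, sub_zero] at hd
  have h0 : (g : Matrix (Fin 2) (Fin 2) k) 0 0 = 1 := by
    have : ((g : Matrix (Fin 2) (Fin 2) k) 0 0 - 1) ^ 2 = 0 := by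
      linear_combination (g : Matrix (Fin 2) (Fin 2) k) 0 0 * ht - hd
    linear_combination pow_eq_zero_iff two_ne_zero |>.1 this
  have h1 : (g : Matrix (Fin 2) (Fin 2) k) 1 1 = 1 := by linear_combination ht - h0
  refine Units.ext (ext_fin_two ?_ ?_ ?_ ?_) <;> simp [h0, h1, h10]

theorem of_commute_upper {g : GL (Fin 2) k} {x : k} (hx : x ≠ 0)
    (h : g * upperRightHom x = upperRightHom x * g) :
    (g : Matrix (Fin 2) (Fin 2) k) 1 0 = 0 ∧
      (g : Matrix (Fin 2) (Fin 2) k) 0 0 = (g : Matrix (Fin 2) (Fin 2) k) 1 1 := by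
  have e := congrArg (fun u : GL (Fin 2) k => (u : Matrix (Fin 2) (Fin 2) k)) h
  simp only [Units.val_mul, upper_val] at e
  have e00 := congrFun (congrFun e 0) 0
  have e01 := congrFun (congrFun e 0) 1
  simp [Matrix.mul_apply, Fin.sum_univ_two] at e00 e01
  have h10 : (g : Matrix (Fin 2) (Fin 2) k) 1 0 = 0 := e00.resolve_left hx
  exact ⟨h10, mul_right_cancel₀ hx (by linear_combination e01)⟩

theorem fixed_upper {x : k} (hx : x ≠ 0) {y : OnePoint k}
    (h : (upperRightHom x : GL (Fin 2) k) • y = y) : y = OnePoint.infty := by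
  cases y with
  | infty => rfl
  | coe t =>
    rw [OnePoint.smul_some_eq_ite, upper_val] at h
    simp [hx] at h

theorem upper_smul_infty (x : k) :
    (upperRightHom x : GL (Fin 2) k) • (OnePoint.infty : OnePoint k) = OnePoint.infty :=
  OnePoint.smul_infty_eq_self_iff.2 (by simp)

theorem mem_unipPart_iff {G : Subgroup (GL (Fin 2) k)} {g : GL (Fin 2) k} :
    g ∈ unipPart G ↔ g ∈ G ∧ ∃ x, g = upperRightHom x := by
  constructor
  · rintro ⟨h, h10, h00, h11⟩
    refine ⟨h, (g : Matrix (Fin 2) (Fin 2) k) 0 1, Units.ext (ext_fin_two ?_ ?_ ?_ ?_)⟩ <;>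
      simp [h10, h00, h11]
  · rintro ⟨h, x, rfl⟩
    exact ⟨h, by simp, by simp, by simp⟩

/-- The unipotent part as a subgroup. -/
def unipSub (G : Subgroup (GL (Fin 2) k)) : Subgroup (GL (Fin 2) k) where
  carrier := unipPart G
  mul_mem' := by
    intro a b ha hb
    rw [mem_unipPart_iff] at ha hb ⊢
    obtain ⟨h1, x, rfl⟩ := ha
    obtain ⟨h2, y, rfl⟩ := hb
    exact ⟨mul_mem h1 h2, x + y, (AddChar.map_add_eq_mul _ _ _).symm⟩
  one_mem' := mem_unipPart_iff.2 ⟨one_mem G, 0, (AddChar.map_zero_eq_one _).symm⟩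
  inv_mem' := by
    intro a ha
    rw [mem_unipPart_iff] at ha ⊢
    obtain ⟨h1, x, rfl⟩ := ha
    exact ⟨inv_mem h1, -x, (AddChar.map_neg_eq_inv _ _).symm⟩

theorem mem_unipSub {G : Subgroup (GL (Fin 2) k)} {g : GL (Fin 2) k} :
    g ∈ unipSub G ↔ g ∈ unipPart G := Iff.rfl

theorem unipSub_le (G : Subgroup (GL (Fin 2) k)) : unipSub G ≤ G := fun _ h => h.1

/-- The elements of determinant one. -/
def detOne (G : Subgroup (GL (Fin 2) k)) : Subgroup (GL (Fin 2) k) :=
  G ⊓ (Matrix.GeneralLinearGroup.det : GL (Fin 2) k →* kˣ).ker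

theorem mem_detOne {G : Subgroup (GL (Fin 2) k)} {g : GL (Fin 2) k} :
    g ∈ detOne G ↔ g ∈ G ∧ (g : Matrix (Fin 2) (Fin 2) k).det = 1 := by
  rw [detOne, Subgroup.mem_inf, MonoidHom.mem_ker, Units.ext_iff]
  rfl

theorem isNiceSL_detOne {G : Subgroup (GL (Fin 2) k)} (hs : IsSplitGroup G) :
    IsNiceSL (detOne G) :=
  ⟨fun _ h => (mem_detOne.1 h).2, fun g h => hs g (mem_detOne.1 h).1⟩

instance finite_detOne (G : Subgroup (GL (Fin 2) k)) [Finite G] : Finite (detOne G) :=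
  Finite.of_injective _ (Subgroup.inclusion_injective (inf_le_left :
    detOne G ≤ G))

theorem unipSub_le_detOne (G : Subgroup (GL (Fin 2) k)) : unipSub G ≤ detOne G := by
  intro g hg
  obtain ⟨h, x, rfl⟩ := mem_unipPart_iff.1 hg
  exact mem_detOne.2 ⟨h, (upper_trace_det x).2⟩

theorem conj_mem_detOne {G : Subgroup (GL (Fin 2) k)} {a h : GL (Fin 2) k} (ha : a ∈ G)
    (hh : h ∈ detOne G) : a * h * a⁻¹ ∈ detOne G := by
  refine Subgroup.mem_inf.2 ⟨mul_mem (mul_mem ha (Subgroup.mem_inf.1 hh).1) (inv_mem ha), ?_⟩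
  have h2 : Matrix.GeneralLinearGroup.det h = 1 := (Subgroup.mem_inf.1 hh).2
  rw [MonoidHom.mem_ker, map_mul, map_mul, h2, mul_one, ← map_mul, mul_inv_cancel, map_one]

variable (p : ℕ) [Fact p.Prime] [CharP k p] (G : Subgroup (GL (Fin 2) k)) [Finite G]

include p in
theorem exists_conj_unip (hdvd : p ∣ Nat.card G) :
    ∃ b : GL (Fin 2) k, ∃ u ∈ unipPart (G.map (MulAut.conj b).toMonoidHom), u ≠ 1 := by
  obtain ⟨g, hg⟩ := exists_prime_orderOf_dvd_card' p hdvd
  set M := ((g : GL (Fin 2) k) : Matrix (Fin 2) (Fin 2) k) with hM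
  have hpow : M ^ p ^ 1 = 1 := by
    have h : g ^ p = 1 := by
      have := pow_orderOf_eq_one g
      rwa [hg] at this
    have := congrArg (fun z : G => ((z : GL (Fin 2) k) : Matrix (Fin 2) (Fin 2) k)) h
    simpa [hM] using this
  obtain ⟨ht, hd⟩ := trace_det_of_pow_eq_one p hpow
  have hg1 : g ≠ 1 := fun h => by
    rw [h, orderOf_one] at hg
    exact (Fact.out : p.Prime).ne_one hg.symm
  have hns : ¬ IsScalarMat M := by
    rintro ⟨a, ha⟩
    rw [ha, Matrix.trace_smul, Matrix.trace_one] at ht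
    rw [ha, Matrix.det_smul, Matrix.det_one, mul_one, Fintype.card_fin] at hd
    simp at ht
    have ha1 : (a - 1) ^ 2 = 0 := by linear_combination hd - ht
    have : a = 1 := sub_eq_zero.1 (pow_eq_zero_iff two_ne_zero |>.1 ha1)
    exact hg1 (Subtype.ext (Units.ext (by rw [← hM, ha, this, one_smul]; rfl)))
  obtain ⟨F, hF, hcard⟩ := exists_fixed_finset hns (α := (1 : k)) (β := 1)
    (by rw [ht, one_add_one_eq_two]) (by rw [hd, one_mul])
  obtain ⟨x, hx⟩ := Finset.card_pos.1 (by rw [hcard]; split_ifs <;> norm_num : 0 < F.card)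
  obtain ⟨b, hb⟩ := exists_map_infty x
  refine ⟨b, b * (g : GL (Fin 2) k) * b⁻¹, mem_unipPart_iff.2 ⟨⟨g, g.2, rfl⟩, _,
    eq_upper_of_trace_det ?_ ?_ ?_⟩, fun h => hg1 (Subtype.ext ?_)⟩
  · rw [← OnePoint.smul_infty_eq_self_iff, mul_smul, mul_smul, ← hb, inv_smul_smul]
    exact congrArg (b • ·) ((hF x).1 hx)
  · rw [Units.val_mul, Units.val_mul, Matrix.trace_mul_cycle, ← Units.val_mul, inv_mul_cancel,
      Units.val_one, one_mul, ← hM, ht]
  · rw [Units.val_mul, Units.val_mul, Matrix.det_mul, Matrix.det_mul, mul_right_comm,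
      ← Matrix.det_mul, ← Units.val_mul, mul_inv_cancel, Units.val_one, Matrix.det_one, one_mul,
      ← hM, hd]
  · rwa [conj_eq_one_iff] at h

section

variable {G} (hu : ∃ u ∈ unipPart G, u ≠ 1)

include hu

omit [Finite G] in
theorem exists_upper_mem : ∃ x : k, x ≠ 0 ∧ upperRightHom x ∈ G := by
  obtain ⟨u, hu, hu1⟩ := hu
  obtain ⟨hG, x, rfl⟩ := mem_unipPart_iff.1 hu
  exact ⟨x, fun h => hu1 (upper_eq_one_iff.2 h), hG⟩

/-- The unipotent part is a Sylow subgroup. -/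
theorem exists_sylow : ∃ P : Sylow p G, (P : Subgroup G) = (unipSub G).subgroupOf G := by
  have hpg : IsPGroup p ((unipSub G).subgroupOf G) := by
    rintro ⟨⟨g, hgG⟩, hg⟩
    obtain ⟨-, x, rfl⟩ := mem_unipPart_iff.1 hg
    refine ⟨1, Subtype.ext (Subtype.ext ?_)⟩
    simp only [pow_one, SubgroupClass.coe_pow, Subgroup.coe_one]
    rw [← AddChar.map_nsmul_eq_pow, nsmul_eq_mul, CharP.cast_eq_zero k p, zero_mul,
      AddChar.map_zero_eq_one]
  obtain ⟨P, hP⟩ := hpg.exists_le_sylow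
  refine ⟨P, le_antisymm (fun g hg => ?_) hP⟩
  obtain ⟨x, hx0, hxG⟩ := exists_upper_mem hu
  have hxP : (⟨_, hxG⟩ : G) ∈ (P : Subgroup G) := hP (mem_unipPart_iff.2 ⟨hxG, x, rfl⟩)
  have hne : Nontrivial (P : Subgroup G) := ⟨⟨⟨_, hxP⟩, 1, fun h =>
    hx0 (upper_eq_one_iff.1 (congrArg (fun z : (P : Subgroup G) => ((z : G) : GL (Fin 2) k)) h))⟩⟩
  have := P.isPGroup'.center_nontrivial
  obtain ⟨z, hz⟩ := exists_ne (1 : Subgroup.center (P : Subgroup G))
  have hform : ∀ a : (P : Subgroup G), ∀ y : k, y ≠ 0 →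
      ((a : G) : GL (Fin 2) k) * upperRightHom y = upperRightHom y * ((a : G) : GL (Fin 2) k) →
      ∃ w, ((a : G) : GL (Fin 2) k) = upperRightHom w := by
    intro a y hy hc
    obtain ⟨h10, -⟩ := of_commute_upper hy hc
    obtain ⟨n, hn⟩ := P.isPGroup' a
    have := congrArg (fun u : (P : Subgroup G) =>
      (((u : G) : GL (Fin 2) k) : Matrix (Fin 2) (Fin 2) k)) hn
    simp only [SubgroupClass.coe_pow, Units.val_pow_eq_pow_val, Subgroup.coe_one,
      Units.val_one] at this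
    obtain ⟨ht, hd⟩ := trace_det_of_pow_eq_one p this
    exact ⟨_, eq_upper_of_trace_det h10 ht hd⟩
  have hzc : ∀ a : (P : Subgroup G), a * (z : (P : Subgroup G)) = (z : (P : Subgroup G)) * a :=
    fun a => Subgroup.mem_center_iff.1 z.2 a
  obtain ⟨w, hw⟩ := hform (z : (P : Subgroup G)) x hx0 (congrArg
    (fun u : (P : Subgroup G) => ((u : G) : GL (Fin 2) k)) (hzc ⟨_, hxP⟩)).symm
  have hw0 : w ≠ 0 := fun h => hz (Subtype.ext (Subtype.ext (Subtype.ext
    (hw.trans (upper_eq_one_iff.2 h)))))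
  obtain ⟨v, hv⟩ := hform ⟨g, hg⟩ w hw0 (by
    have h := congrArg (fun u : (P : Subgroup G) => ((u : G) : GL (Fin 2) k)) (hzc ⟨g, hg⟩)
    simp only [Subgroup.coe_mul, hw] at h
    exact h)
  exact mem_unipPart_iff.2 ⟨g.2, v, hv⟩

omit [Fact p.Prime] [CharP k p] [Finite G] hu in
theorem natCard_subgroupOf : Nat.card ((unipSub G).subgroupOf G) = Nat.card (unipPart G) :=
  Nat.card_congr (Subgroup.subgroupOfEquivOfLe (unipSub_le G)).toEquiv

include p in
theorem natCard_unip : ∃ f : ℕ, 0 < f ∧ Nat.card (unipPart G) = p ^ f ∧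
    ¬ p ∣ Nat.card G / p ^ f ∧ p ^ f ∣ Nat.card G := by
  obtain ⟨P, hP⟩ := exists_sylow p hu
  have hcard : Nat.card (unipPart G) = Nat.card (P : Subgroup G) := by
    rw [hP, natCard_subgroupOf]
  obtain ⟨f, hf⟩ := P.isPGroup'.exists_card_eq
  refine ⟨f, Nat.pos_of_ne_zero fun h0 => ?_, hcard.trans hf, ?_, hf ▸ Subgroup.card_subgroup_dvd_card _⟩
  · obtain ⟨x, hx0, hxG⟩ := exists_upper_mem hu
    rw [h0, pow_zero, ← hcard] at hf
    have := (Nat.card_eq_one_iff_unique.1 hf).1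
    exact hx0 (upper_eq_one_iff.1 (congrArg Subtype.val (Subsingleton.elim
      (⟨_, mem_unipPart_iff.2 ⟨hxG, x, rfl⟩⟩ : unipPart G) ⟨1, (unipSub G).one_mem⟩)))
  · rw [← hf, ← Subgroup.index_mul_card (P : Subgroup G), Nat.mul_div_cancel _ Nat.card_pos]
    exact P.not_dvd_index

include p in
/-- Unipotent elements of `G` are conjugate into the unipotent part. -/
theorem exists_conj_mem {g : GL (Fin 2) k} (hg : g ∈ G)
    (ht : (g : Matrix (Fin 2) (Fin 2) k).trace = 2) (hd : (g : Matrix (Fin 2) (Fin 2) k).det = 1) :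
    ∃ a ∈ G, a * g * a⁻¹ ∈ unipPart G := by
  obtain ⟨P, hP⟩ := exists_sylow p hu
  have hgp : (⟨g, hg⟩ : G) ^ p = 1 := by
    refine Subtype.ext (Units.ext ?_)
    rw [SubgroupClass.coe_pow, Units.val_pow_eq_pow_val]
    exact pow_eq_one_of_trace_det p ht hd
  have hz : IsPGroup p (Subgroup.zpowers (⟨g, hg⟩ : G)) := by
    rintro ⟨y, hy⟩
    obtain ⟨n, rfl⟩ := Subgroup.mem_zpowers_iff.1 hy
    refine ⟨1, Subtype.ext ?_⟩
    rw [pow_one, SubgroupClass.coe_pow, Subgroup.coe_one, ← zpow_natCast, ← zpow_mul, mul_comm,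
      zpow_mul, zpow_natCast, hgp, one_zpow]
  obtain ⟨Q, hQ⟩ := hz.exists_le_sylow
  obtain ⟨a, ha⟩ := MulAction.exists_smul_eq G Q P
  refine ⟨a, a.2, ?_⟩
  have hmem : a * ⟨g, hg⟩ * a⁻¹ ∈ ((a • Q : Sylow p G) : Subgroup G) := by
    rw [Sylow.coe_subgroup_smul]
    exact Subgroup.smul_mem_pointwise_smul _ (MulAut.conj a) _ (hQ (Subgroup.mem_zpowers _))
  rw [ha, hP] at hmem
  exact hmem

include p in
/-- Frattini: the determinant one part is transitive on the orbit of `∞`. -/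
theorem smul_infty_mem_orbit {a : GL (Fin 2) k} (ha : a ∈ G) :
    a • (OnePoint.infty : OnePoint k) ∈ MulAction.orbit (detOne G) (OnePoint.infty : OnePoint k) := by
  obtain ⟨x, hx0, hxG⟩ := exists_upper_mem hu
  let U := (unipSub G).subgroupOf (detOne G)
  have hU : IsPGroup p U := by
    rintro ⟨⟨g, hgH⟩, hg⟩
    obtain ⟨-, y, rfl⟩ := mem_unipPart_iff.1 hg
    refine ⟨1, Subtype.ext (Subtype.ext ?_)⟩
    simp only [pow_one, SubgroupClass.coe_pow, Subgroup.coe_one]
    rw [← AddChar.map_nsmul_eq_pow, nsmul_eq_mul, CharP.cast_eq_zero k p, zero_mul,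
      AddChar.map_zero_eq_one]
  let u₀ : U := ⟨⟨_, unipSub_le_detOne G (mem_unipPart_iff.2 ⟨hxG, x, rfl⟩)⟩,
    mem_unipPart_iff.2 ⟨hxG, x, rfl⟩⟩
  have hfin : ∀ y : OnePoint k, Finite (MulAction.orbit (detOne G) y) := fun y =>
    (Set.finite_range _).to_subtype
  have hfix : ∀ (y : OnePoint k) (w : MulAction.orbit (detOne G) y),
      w ∈ MulAction.fixedPoints U (MulAction.orbit (detOne G) y) ↔
        (w : OnePoint k) = OnePoint.infty := by
    intro y w
    constructor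
    · intro hw
      exact fixed_upper hx0 (congrArg Subtype.val (hw u₀))
    · intro hw u
      refine Subtype.ext ?_
      show ((u : detOne G) : GL (Fin 2) k) • (w : OnePoint k) = w
      obtain ⟨-, v, hv⟩ := mem_unipPart_iff.1 u.2
      simp only [Subgroup.coe_subtype] at hv
      rw [hw, hv, upper_smul_infty]
  set O := MulAction.orbit (detOne G) (OnePoint.infty : OnePoint k)
  set O' := MulAction.orbit (detOne G) (a • (OnePoint.infty : OnePoint k))
  have hO' : O' = (a • ·) '' O := by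
    ext y
    constructor
    · rintro ⟨h, rfl⟩
      refine ⟨_, ⟨⟨a⁻¹ * (h : GL (Fin 2) k) * a⁻¹⁻¹, conj_mem_detOne (inv_mem ha) h.2⟩, rfl⟩, ?_⟩
      show a • (a⁻¹ * (h : GL (Fin 2) k) * a⁻¹⁻¹) • (OnePoint.infty : OnePoint k)
        = (h : GL (Fin 2) k) • a • (OnePoint.infty : OnePoint k)
      rw [inv_inv, mul_smul, mul_smul, smul_inv_smul]
    · rintro ⟨_, ⟨h, rfl⟩, rfl⟩
      refine ⟨⟨a * (h : GL (Fin 2) k) * a⁻¹, conj_mem_detOne ha h.2⟩, ?_⟩
      show (a * (h : GL (Fin 2) k) * a⁻¹) • a • (OnePoint.infty : OnePoint k)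
        = a • (h : GL (Fin 2) k) • (OnePoint.infty : OnePoint k)
      rw [mul_smul, mul_smul, inv_smul_smul]
  by_contra hout
  have h1 := hU.card_modEq_card_fixedPoints O
  have h2 := hU.card_modEq_card_fixedPoints O'
  have hcard : Nat.card O' = Nat.card O := by
    rw [hO', Nat.card_image_of_injective (MulAction.injective a)]
  have hone : Nat.card (MulAction.fixedPoints U O) = 1 := by
    rw [Nat.card_eq_one_iff_exists]
    refine ⟨⟨⟨OnePoint.infty, MulAction.mem_orbit_self _⟩, (hfix _ _).2 rfl⟩, fun w => ?_⟩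
    exact Subtype.ext (Subtype.ext ((hfix _ _).1 w.2))
  have hzero : Nat.card (MulAction.fixedPoints U O') = 0 := by
    have : IsEmpty (MulAction.fixedPoints U O') := ⟨fun w => hout (MulAction.mem_orbit_symm.1 (by
      have h := (w.1 : O').2
      rw [(hfix _ _).1 w.2] at h
      exact h))⟩
    exact Nat.card_of_isEmpty
  rw [hone] at h1
  rw [hzero, hcard] at h2
  exact (Fact.out : p.Prime).ne_one (Nat.dvd_one.1 (Nat.modEq_zero_iff_dvd.1 (h1.symm.trans h2)))

end

end FLTAgent.TW.GroupLemma
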