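import Fermat.Agent.TW.GroupLemma.Counting
import Fermat.Agent.TW.GroupLemma.Unipotent
import Mathlib.RingTheory.IntegralDomain
import Mathlib.GroupTheory.SpecificGroups.Cyclic

/-!
# The case of order prime to `p`
-/

set_option autoImplicit false

noncomputable section

open Matrix Matrix.GeneralLinearGroup

attribute [local instance] Classical.propDecidable

namespace FLTAgent.TW.GroupLemma

variable {k : Type} [Field k] {G : Subgroup (GL (Fin 2) k)}

/-- No set of one or two points is stable. -/
theorem no_invariant (hi : IsIrredGroup G) (hh : NoHalfReducible G) (F : Finset (OnePoint k))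
    (hne : F.Nonempty) (hcard : F.card ≤ 2) (hinv : ∀ g ∈ G, ∀ x ∈ F, g • x ∈ F) : False := by
  obtain ⟨x, hx⟩ := hne
  obtain ⟨g, hg, hgx⟩ := exists_smul_ne hi x
  have horb : MulAction.orbit G x = {x, g • x} := by
    have hF : ({x, g • x} : Finset (OnePoint k)) = F := by
      refine Finset.eq_of_subset_of_card_le ?_ ?_
      · intro y hy
        rcases Finset.mem_insert.1 hy with rfl | hy
        · exact hx
        · rw [Finset.mem_singleton.1 hy]; exact hinv g hg x hx
      · rw [Finset.card_pair hgx.symm]
        exact hcard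
    refine Set.Subset.antisymm ?_ ?_
    · rintro y ⟨h, rfl⟩
      have := hinv h h.2 x hx
      rw [← hF] at this
      simpa using! this
    · rintro y (rfl | rfl)
      · exact MulAction.mem_orbit_self _
      · exact ⟨⟨g, hg⟩, rfl⟩
  let G' : Subgroup (GL (Fin 2) k) := G ⊓ MulAction.stabilizer (GL (Fin 2) k) x
  have hidx : (G'.subgroupOf G).index = 2 := by
    have he : G'.subgroupOf G = MulAction.stabilizer G x := by
      ext h
      rw [Subgroup.mem_subgroupOf, Subgroup.mem_inf, MulAction.mem_stabilizer_iff,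
        MulAction.mem_stabilizer_iff]
      exact ⟨fun h' => h'.2, fun h' => ⟨h.2, h'⟩⟩
    rw [he, MulAction.index_stabilizer, horb, Set.ncard_pair hgx.symm]
  obtain ⟨h, hh', hhx⟩ := exists_smul_ne (hh G' inf_le_left hidx) x
  exact hhx (Subgroup.mem_inf.1 hh').2

theorem orbit_smul_eq {a : GL (Fin 2) k} (ha : a ∈ G) (x : OnePoint k) :
    MulAction.orbit (detOne G) (a • x) = (a • ·) '' MulAction.orbit (detOne G) x := by
  ext y
  constructor
  · rintro ⟨h, rfl⟩
    refine ⟨_, ⟨⟨a⁻¹ * (h : GL (Fin 2) k) * a⁻¹⁻¹, conj_mem_detOne (inv_mem ha) h.2⟩, rfl⟩, ?_⟩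
    show a • (a⁻¹ * (h : GL (Fin 2) k) * a⁻¹⁻¹) • x = (h : GL (Fin 2) k) • a • x
    rw [inv_inv, mul_smul, mul_smul, smul_inv_smul]
  · rintro ⟨_, ⟨h, rfl⟩, rfl⟩
    refine ⟨⟨a * (h : GL (Fin 2) k) * a⁻¹, conj_mem_detOne ha h.2⟩, ?_⟩
    show (a * (h : GL (Fin 2) k) * a⁻¹) • a • x = a • (h : GL (Fin 2) k) • x
    rw [mul_smul, mul_smul, inv_smul_smul]

theorem card_orbit_smul {a : GL (Fin 2) k} (ha : a ∈ G) (x : OnePoint k) :
    Nat.card (MulAction.orbit (detOne G) (a • x)) = Nat.card (MulAction.orbit (detOne G) x) := by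
  rw [orbit_smul_eq ha, Nat.card_image_of_injective (MulAction.injective a)]

theorem smul_mem_omega_detOne {a : GL (Fin 2) k} (ha : a ∈ G) {x : OnePoint k}
    (hx : x ∈ omega (detOne G)) : a • x ∈ omega (detOne G) := by
  obtain ⟨h, hns, hfix⟩ := hx
  refine ⟨⟨a * (h : GL (Fin 2) k) * a⁻¹, conj_mem_detOne ha h.2⟩, ?_, ?_⟩
  · rintro ⟨c, hc⟩
    refine hns ⟨c, ?_⟩
    have e : (h : GL (Fin 2) k) = a⁻¹ * (a * (h : GL (Fin 2) k) * a⁻¹) * a := by group
    rw [e, Units.val_mul, Units.val_mul, hc, mul_smul_comm, mul_one, smul_mul_assoc, ← Units.val_mul,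
      inv_mul_cancel, Units.val_one]
  · show (a * (h : GL (Fin 2) k) * a⁻¹) • a • x = a • x
    rw [mul_smul, mul_smul, inv_smul_smul]
    exact congrArg (a • ·) hfix

variable (p : ℕ) [Fact p.Prime] [CharP k p] [Finite G]

variable (hp : p ≠ 2) (hs : IsSplitGroup G) (hi : IsIrredGroup G) (hh : NoHalfReducible G)
  (hndvd : ¬ p ∣ Nat.card G)

include hp hs hndvd

omit [Finite G] in
theorem isEmpty_parAt_of_not_dvd (x : OnePoint k) : IsEmpty (ParAt (detOne G) x) := by
  refine ⟨fun ⟨h, _, hpar⟩ => ?_⟩
  have h2 := two_ne_zero_of_ne_two (k := k) p hp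
  have hH := isNiceSL_detOne hs
  have hd : (((h * h : detOne G) : GL (Fin 2) k) : Matrix (Fin 2) (Fin 2) k).det = 1 :=
    hH.det_one _ (h * h).2
  have htr : (((h * h : detOne G) : GL (Fin 2) k) : Matrix (Fin 2) (Fin 2) k).trace = 2 := by
    rw [Subgroup.coe_mul, Units.val_mul, mul_self_eq, hH.det_one _ h.2, Matrix.trace_sub,
      Matrix.trace_smul, one_smul, Matrix.trace_one, Fintype.card_fin, smul_eq_mul]
    rcases (hH.isParabolic_iff_trace.1 hpar).2 with e | e <;> rw [e] <;> norm_num
  have hpow : (h * h) ^ p = 1 := by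
    refine Subtype.ext (Units.ext ?_)
    rw [SubgroupClass.coe_pow, Units.val_pow_eq_pow_val]
    exact pow_eq_one_of_trace_det p htr hd
  have hne : h * h ≠ 1 := fun e => (isParabolic_iff.1 hpar).1 (hH.isScalar_of_sq_eq_one h2 e)
  have hord := orderOf_eq_prime hpow hne
  exact hndvd (hord ▸ (orderOf_dvd_natCard _).trans
    (Subgroup.card_dvd_of_le (inf_le_left : detOne G ≤ G)))

theorem sum_orbit_eq (x : OnePoint k) :
    ∑ y ∈ orbitFinset (H := detOne G) x, wt (detOne G) y = (Nat.card (detOne G) : ℤ)
      - Nat.card (MulAction.orbit (detOne G) x) * zCard (detOne G) := by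
  have := isEmpty_parAt_of_not_dvd p hp hs hndvd x
  rw [sum_wt_orbit, wt, Nat.card_of_isEmpty (α := ParAt (detOne G) x),
    ← card_orbit_mul_stabCard (H := detOne G) x]
  push_cast
  ring

omit [Finite G] in
theorem stabilizer_eq_of_fix {s : detOne G} {x y : OnePoint k} (hxy : x ≠ y) (hsx : s • x = x)
    (hw : ∀ w, s • w = w → w = x ∨ w = y) (hsy : s • y = y) :
    ∀ h : detOne G, h • y = y → h • x = x := by
  intro h hh
  have hcomm := (isNiceSL_detOne hs).commute_of_fix (two_ne_zero_of_ne_two (k := k) p hp)
    (isEmpty_parAt_of_not_dvd p hp hs hndvd y) hh hsy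
  rcases hw (h • x) (by rw [← mul_smul, ← hcomm, mul_smul, hsx]) with e | e
  · exact e
  · exact absurd (MulAction.injective h (e.trans hh.symm)) hxy

include hi hh

omit [Fact p.Prime] [CharP k p] hp hndvd in
theorem exists_nonscalar : ∃ h : detOne G, h ∉ scalarSub (detOne G) := by
  by_contra! hall
  let f : G →* kˣ := (Matrix.GeneralLinearGroup.det).comp G.subtype
  have : Finite f.range := (Set.finite_range f).to_subtype
  have hcyc : IsCyclic f.range := inferInstance
  have hcomm : ∀ a b : G, a * b = b * a := by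
    refine (MonoidHom.isMulCommutative_of_isCyclic_of_ker_le_center f.rangeRestrict fun g hg => ?_).is_comm.comm
    rw [MonoidHom.mem_ker, ← Subtype.coe_inj] at hg
    have hgH : (g : GL (Fin 2) k) ∈ detOne G := Subgroup.mem_inf.2 ⟨g.2, hg⟩
    obtain ⟨c, hc⟩ := hall ⟨g, hgH⟩
    rw [Subgroup.mem_center_iff]
    intro a
    refine Subtype.ext (Units.ext ?_)
    change ((a : GL (Fin 2) k) : Matrix (Fin 2) (Fin 2) k) * _ = _ *
      ((a : GL (Fin 2) k) : Matrix (Fin 2) (Fin 2) k)
    rw [hc]
    simp
  by_cases hsc : ∀ g ∈ G, IsScalarMat ((g : GL (Fin 2) k) : Matrix (Fin 2) (Fin 2) k)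
  · exact no_invariant hi hh {OnePoint.infty} (Finset.singleton_nonempty _) (by simp)
      fun g hg x hx => by rw [smul_eq_self_of_isScalarMat (hsc g hg)]; exact hx
  · push Not at hsc
    obtain ⟨g, hg, hgns⟩ := hsc
    obtain ⟨α, β, ht, hd⟩ := exists_roots hs hg
    obtain ⟨F, hF, hcard⟩ := exists_fixed_finset hgns ht hd
    refine no_invariant hi hh F (Finset.card_pos.1 (by rw [hcard]; split_ifs <;> norm_num))
      (by rw [hcard]; split_ifs <;> norm_num) fun a ha x hx => ?_
    rw [hF] at hx ⊢
    have := congrArg Subtype.val (hcomm ⟨g, hg⟩ ⟨a, ha⟩)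
    simp only [Subgroup.coe_mul] at this
    rw [← mul_smul, this, mul_smul, hx]

theorem exists_anticomm_of_not_dvd :
    ∃ s ∈ detOne G, ∃ t ∈ detOne G,
      (s : Matrix (Fin 2) (Fin 2) k) * s = -1 ∧ (t : Matrix (Fin 2) (Fin 2) k) * t = -1 ∧
      (s : Matrix (Fin 2) (Fin 2) k) * t = -((t : Matrix (Fin 2) (Fin 2) k) * s) := by
  have h2 := two_ne_zero_of_ne_two (k := k) p hp
  have hH := isNiceSL_detOne hs
  have hemp := isEmpty_parAt_of_not_dvd p hp hs hndvd
  set H := detOne G with hHdef
  obtain ⟨h₀, hh₀⟩ : ∃ h : H, h ∉ scalarSub H := exists_nonscalar hs hi hh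
  set z := zCard H
  set N := Nat.card H
  have hz : 0 < z := zCard_pos H
  have hsum := hH.sum_wt
  -- a nonscalar element gives a proper containment of the scalars
  have hNz : 2 * z ≤ N := by
    obtain ⟨F, hF, hcard⟩ := hH.fixed_finset h₀ hh₀
    obtain ⟨x, hx⟩ := Finset.card_pos.1 (by rw [hcard]; split_ifs <;> norm_num : 0 < F.card)
    refine (two_zCard_le_stabCard ⟨h₀, hh₀, (hF x).1 hx⟩).trans ?_
    exact Nat.le_of_dvd Nat.card_pos (Subgroup.card_subgroup_dvd_card _)
  have hn2 : ∀ x ∈ omega H, 2 * (Nat.card (MulAction.orbit H x) * z) ≤ N := fun x hx => by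
    rw [show N = Nat.card H from rfl, ← card_orbit_mul_stabCard (H := H) x,
      mul_left_comm]
    exact Nat.mul_le_mul_left _ (two_zCard_le_stabCard hx)
  have hpos : ∀ x : OnePoint k, 0 < Nat.card (MulAction.orbit H x) := fun x => by
    rcases Nat.eq_zero_or_pos (Nat.card (MulAction.orbit H x)) with h | h
    · have := card_orbit_mul_stabCard (H := H) x
      rw [h, zero_mul] at this
      exact absurd this.symm (Nat.card_pos : 0 < N).ne'
    · exact h
  have hdisj : ∀ {x y : OnePoint k}, y ∉ MulAction.orbit H x →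
      Disjoint (orbitFinset (H := H) x) (orbitFinset (H := H) y) := fun {x y} hyx =>
    Finset.disjoint_left.2 fun w hw hw' => hyx (by
      rw [mem_orbitFinset] at hw hw'
      rw [← MulAction.orbit_eq_iff.2 hw, MulAction.orbit_eq_iff.2 hw']
      exact MulAction.mem_orbit_self y)
  by_cases hev : ∃ x ∈ omega H, 2 * z ∣ Nat.card (MulAction.stabilizer H x)
  · obtain ⟨x₀, -, hx₀⟩ := hev
    obtain ⟨s, hsmem, hss⟩ := hH.exists_sq_neg_one h2 _ hx₀
    have hns : s ∉ scalarSub H := by
      intro h
      rcases hH.eq_one_or_neg_one h with e | e <;> rw [e] at hss <;>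
        · have h00 := congrArg (fun A : Matrix (Fin 2) (Fin 2) k => A 0 0) hss
          simp at h00
          exact h2 (by linear_combination h00)
    obtain ⟨F, hF, hFcard⟩ := hH.fixed_finset s hns
    have hnp : ¬ (s : GL (Fin 2) k).IsParabolic := fun hpar =>
      (hemp x₀).elim ⟨s, hsmem, hpar⟩
    rw [if_neg hnp] at hFcard
    obtain ⟨x, y, hxy, rfl⟩ := Finset.card_eq_two.1 hFcard
    have hsx : s • x = x := (hF x).1 (by simp)
    have hsy : s • y = y := (hF y).1 (by simp)
    have hfix2 : ∀ w, s • w = w → w = x ∨ w = y := fun w hw => by simpa using (hF w).2 hw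
    by_cases horb : y ∈ MulAction.orbit H x
    · obtain ⟨g, hg⟩ := horb
      obtain ⟨t, ht, hst⟩ := hH.exists_anticomm h2 hp hss hxy hsx hsy g hg
      exact ⟨_, s.2, _, t.2, hss, ht, hst⟩
    -- the two fixed points are not conjugate
    have hxΩ : x ∈ omega H := ⟨s, hns, hsx⟩
    have hyΩ : y ∈ omega H := ⟨s, hns, hsy⟩
    have hstab : MulAction.stabilizer H x = MulAction.stabilizer H y := le_antisymm
      (fun h hh' => stabilizer_eq_of_fix p hp hs hndvd hxy.symm hsy
        (fun w hw => (hfix2 w hw).symm) hsx h hh')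
      (fun h hh' => stabilizer_eq_of_fix p hp hs hndvd hxy hsx hfix2 hsy h hh')
    set n := Nat.card (MulAction.orbit H x) with hn
    have hny : Nat.card (MulAction.orbit H y) = n := by
      rw [hn, Nat.card_coe_set_eq, Nat.card_coe_set_eq, ← MulAction.index_stabilizer,
        ← MulAction.index_stabilizer, hstab]
    set A := orbitFinset (H := H) x ∪ orbitFinset (H := H) y with hA
    have hAsub : A ⊆ hH.omegaFinset :=
      Finset.union_subset (hH.orbitFinset_subset hxΩ) (hH.orbitFinset_subset hyΩ)
    have hrest : ∑ v ∈ hH.omegaFinset \ A, wt H v = 2 * ((n : ℤ) - 1) * z := by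
      rw [← Finset.sum_sdiff hAsub, hA, Finset.sum_union (hdisj horb),
        sum_orbit_eq p hp hs hndvd x, sum_orbit_eq p hp hs hndvd y, hny, ← hA, ← hn] at hsum
      linarith
    have hRorb : ∀ v ∈ hH.omegaFinset \ A,
        orbitFinset (H := H) v ⊆ hH.omegaFinset \ A := by
      intro v hv w hw
      rw [Finset.mem_sdiff, hH.mem_omegaFinset] at hv
      refine Finset.mem_sdiff.2 ⟨hH.orbitFinset_subset hv.1 hw, fun hwA => hv.2 ?_⟩
      rw [hA, Finset.mem_union, mem_orbitFinset, mem_orbitFinset] at hwA ⊢
      rw [mem_orbitFinset] at hw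
      rcases hwA with h | h
      · left
        rw [← MulAction.orbit_eq_iff.2 h, MulAction.orbit_eq_iff.2 hw]
        exact MulAction.mem_orbit_self v
      · right
        rw [← MulAction.orbit_eq_iff.2 h, MulAction.orbit_eq_iff.2 hw]
        exact MulAction.mem_orbit_self v
    rcases (hH.omegaFinset \ A).eq_empty_or_nonempty with hR | ⟨w, hw⟩
    · -- only two special points
      exfalso
      rw [hR, Finset.sum_empty, eq_comm, mul_eq_zero, mul_eq_zero] at hrest
      have hn1 : n = 1 := by
        rcases hrest with (h | h) | h <;> omega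
      have hcard : hH.omegaFinset.card ≤ 2 := by
        refine (Finset.card_le_card (Finset.sdiff_eq_empty_iff_subset.1 hR)).trans ?_
        refine (Finset.card_union_le _ _).trans ?_
        rw [card_orbitFinset, card_orbitFinset, hny, ← hn, hn1]
      exact no_invariant hi hh hH.omegaFinset ⟨x, hH.mem_omegaFinset.2 hxΩ⟩ hcard fun g hg v hv =>
        hH.mem_omegaFinset.2 (smul_mem_omega_detOne hg (hH.mem_omegaFinset.1 hv))
    -- exactly one further orbit
    have hwΩ : w ∈ omega H := hH.mem_omegaFinset.1 (Finset.mem_sdiff.1 hw).1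
    set n' := Nat.card (MulAction.orbit H w) with hn'
    have hnN := hn2 x hxΩ
    have hn'N := hn2 w hwΩ
    rw [← hn] at hnN
    rw [← hn'] at hn'N
    have hall : ∀ v ∈ hH.omegaFinset \ A, v ∈ MulAction.orbit H w := by
      intro v hv
      by_contra hvw
      have hle := Finset.sum_le_sum_of_subset_of_nonneg (f := wt H)
        (Finset.union_subset (hRorb w hw) (hRorb v hv)) fun u _ _ => wt_nonneg u
      rw [Finset.sum_union (hdisj hvw), sum_orbit_eq p hp hs hndvd w,
        sum_orbit_eq p hp hs hndvd v, hrest, ← hn'] at hle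
      have hnv := hn2 v (hH.mem_omegaFinset.1 (Finset.mem_sdiff.1 hv).1)
      zify at hnN hn'N hnv
      have : (0 : ℤ) < z := by exact_mod_cast hz
      nlinarith
    have hReq : hH.omegaFinset \ A = orbitFinset (H := H) w := Finset.Subset.antisymm
      (fun v hv => mem_orbitFinset.2 (hall v hv)) (hRorb w hw)
    rw [hReq, sum_orbit_eq p hp hs hndvd w, ← hn'] at hrest
    -- the stabilizer of `x` has order twice the scalars
    have heven2 : 2 ∣ N := (dvd_mul_right 2 z).trans (hx₀.trans (Subgroup.card_subgroup_dvd_card _))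
    have hz2 : z = 2 := hH.zCard_eq_two h2 heven2
    have h4 : 4 ∣ stabCard H x := by
      have hord : orderOf (⟨s, hsx⟩ : MulAction.stabilizer H x) = 2 ^ (1 + 1) := by
        have := Fact.mk Nat.prime_two
        have hval : ∀ u : MulAction.stabilizer H x, u = 1 →
            (((u : H) : GL (Fin 2) k) : Matrix (Fin 2) (Fin 2) k) = 1 := fun u hu => by
          rw [hu]; rfl
        refine orderOf_eq_prime_pow (fun e => ?_) ?_
        · have e' := hval _ e
          simp only [pow_one, SubgroupClass.coe_pow, Units.val_pow_eq_pow_val] at e'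
          rw [sq, hss] at e'
          have h00 := congrArg (fun A : Matrix (Fin 2) (Fin 2) k => A 0 0) e'
          simp at h00
          exact h2 (by linear_combination -h00)
        · refine Subtype.ext (Subtype.ext (Units.ext ?_))
          simp only [SubgroupClass.coe_pow, Units.val_pow_eq_pow_val]
          rw [show (2 : ℕ) ^ (1 + 1) = 2 * 2 from rfl, pow_mul, pow_two, pow_two, hss]
          simp
      have := orderOf_dvd_natCard (⟨s, hsx⟩ : MulAction.stabilizer H x)
      rwa [hord] at this
    obtain ⟨d, hd⟩ := h4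
    have hNd : n * (4 * d) = N := by rw [← hd, hn]; exact card_orbit_mul_stabCard x
    have hz' : (z : ℤ) = 2 := by exact_mod_cast hz2
    rw [hz'] at hrest
    have hN' : (n : ℤ) * (4 * d) = N := by exact_mod_cast hNd
    have hn'pos : 0 < n' := hpos w
    have hn2' : n' * (2 * 2) ≤ N := by rw [hz2] at hn'N; linarith
    have hnpos : 0 < n := hpos x
    have hd1 : d = 1 := by
      have h1 : 0 < d := by
        rcases Nat.eq_zero_or_pos d with h | h
        · exfalso
          rw [h, mul_zero] at hd
          exact (Nat.card_pos : 0 < stabCard H x).ne' hd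
        · exact h
      by_contra hne
      have : 2 ≤ d := by omega
      zify at this hn2' hnpos
      nlinarith
    subst hd1
    rw [mul_one] at hNd
    have hn'2 : n' = 2 := by
      have : (n' : ℤ) = 2 := by linarith
      exact_mod_cast this
    by_cases hne2 : n = 2
    · -- all three orbits have two points
      have hall2 : ∀ v ∈ omega H, stabCard H v = 4 := by
        intro v hv
        have hcard := card_orbit_mul_stabCard (H := H) v
        have hsize : Nat.card (MulAction.orbit H v) = 2 := by
          by_cases hvA : v ∈ A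
          · rw [hA, Finset.mem_union, mem_orbitFinset, mem_orbitFinset] at hvA
            rcases hvA with h | h <;> rw [MulAction.orbit_eq_iff.2 h]
            · rw [← hn, hne2]
            · rw [hny, hne2]
          · rw [MulAction.orbit_eq_iff.2
              (hall v (Finset.mem_sdiff.2 ⟨hH.mem_omegaFinset.2 hv, hvA⟩)), ← hn', hn'2]
        rw [hsize] at hcard
        omega
      have hsq : ∀ h : H, h ∉ scalarSub H → ((h : GL (Fin 2) k) : Matrix (Fin 2) (Fin 2) k) *
          ((h : GL (Fin 2) k) : Matrix (Fin 2) (Fin 2) k) = -1 := by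
        intro h hns'
        obtain ⟨F', hF', hcard'⟩ := hH.fixed_finset h hns'
        obtain ⟨v, hv⟩ := Finset.card_pos.1 (by rw [hcard']; split_ifs <;> norm_num : 0 < F'.card)
        have hvfix := (hF' v).1 hv
        have hpow : (⟨h, hvfix⟩ : MulAction.stabilizer H v) ^ 4 = 1 := by
          rw [← hall2 v ⟨h, hns', hvfix⟩]
          exact pow_card_eq_one'
        have hsc : h * h ∈ scalarSub H := by
          refine hH.isScalar_of_sq_eq_one h2 ?_
          have := congrArg Subtype.val hpow
          simpa [pow_succ, pow_zero, mul_assoc] using this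
        rcases hH.eq_one_or_neg_one hsc with e | e
        · exact absurd (hH.isScalar_of_sq_eq_one h2 (Subtype.ext (Units.ext e))) hns'
        · simpa using e
      obtain ⟨t, ht⟩ : ∃ t : H, t ∉ MulAction.stabilizer H x := by
        by_contra! hall'
        have htop : MulAction.stabilizer H x = ⊤ := eq_top_iff.2 fun h _ => hall' h
        rw [stabCard, htop, Subgroup.card_top] at hd
        have : N = 4 := hd
        omega
      have htns : t ∉ scalarSub H := fun h => ht (scalarSub_le_stabilizer H x h)
      have hstns : s * t ∉ scalarSub H := fun h => ht (by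
        rw [show t = s⁻¹ * (s * t) by group]
        exact (MulAction.stabilizer H x).mul_mem ((MulAction.stabilizer H x).inv_mem hsx)
          (scalarSub_le_stabilizer H x h))
      refine ⟨_, s.2, _, t.2, hss, hsq t htns, ?_⟩
      have hst := hsq _ hstns
      rw [Subgroup.coe_mul, Units.val_mul] at hst
      have htt := hsq t htns
      set S := ((s : GL (Fin 2) k) : Matrix (Fin 2) (Fin 2) k)
      set T := ((t : GL (Fin 2) k) : Matrix (Fin 2) (Fin 2) k)
      calc S * T = -(S * (S * T * (S * T)) * T) := by rw [hst]; simp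
        _ = -((S * S) * (T * S) * (T * T)) := by simp only [mul_assoc]
        _ = -(T * S) := by rw [hss, htt]; simp
    · -- the orbit with two points is canonical
      exfalso
      refine no_invariant hi hh (orbitFinset (H := H) w) ⟨w, mem_orbitFinset.2
        (MulAction.mem_orbit_self w)⟩ (by rw [card_orbitFinset, ← hn', hn'2]) fun g hg v hv => ?_
      rw [← hReq, Finset.mem_sdiff] at hv ⊢
      refine ⟨hH.mem_omegaFinset.2 (smul_mem_omega_detOne hg (hH.mem_omegaFinset.1 hv.1)),
        fun hgA => hne2 ?_⟩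
      have hsize := card_orbit_smul hg v
      rw [MulAction.orbit_eq_iff.2 (hall v (Finset.mem_sdiff.2 hv))] at hsize
      rw [hA, Finset.mem_union, mem_orbitFinset, mem_orbitFinset] at hgA
      rcases hgA with h | h <;> rw [MulAction.orbit_eq_iff.2 h] at hsize
      · rw [← hn, ← hn', hn'2] at hsize
        exact hsize
      · rw [hny, ← hn', hn'2] at hsize
        exact hsize
  · -- every stabilizer has odd order over the scalars
    exfalso
    push Not at hev
    have hn3 : ∀ x ∈ omega H, 3 * (Nat.card (MulAction.orbit H x) * z) ≤ N := by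
      intro x hx
      obtain ⟨d, hd⟩ := zCard_dvd_stabCard H x
      have h2z := two_zCard_le_stabCard hx
      have hd3 : 3 ≤ d := by
        rw [hd, mul_comm 2] at h2z
        have hd2 : 2 ≤ d := Nat.le_of_mul_le_mul_left h2z hz
        rcases Nat.lt_or_ge d 3 with h | h
        · refine absurd ?_ (hev x hx)
          have : d = 2 := by omega
          subst this
          exact ⟨1, by rw [show Nat.card (MulAction.stabilizer H x) = z * 2 from hd]; ring⟩
        · exact h
      rw [show N = Nat.card H from rfl, ← card_orbit_mul_stabCard (H := H) x, hd, mul_left_comm]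
      refine Nat.mul_le_mul_left _ ?_
      rw [mul_comm 3]
      exact Nat.mul_le_mul_left _ hd3
    obtain ⟨F, hF, hcard⟩ := hH.fixed_finset h₀ hh₀
    obtain ⟨x, hx⟩ := Finset.card_pos.1 (by rw [hcard]; split_ifs <;> norm_num : 0 < F.card)
    have hxΩ : x ∈ omega H := ⟨h₀, hh₀, (hF x).1 hx⟩
    by_cases hy : ∃ y ∈ omega H, y ∉ MulAction.orbit H x
    · obtain ⟨y, hyΩ, hyx⟩ := hy
      set A := orbitFinset (H := H) x ∪ orbitFinset (H := H) y with hA
      have hAsub : A ⊆ hH.omegaFinset :=
        Finset.union_subset (hH.orbitFinset_subset hxΩ) (hH.orbitFinset_subset hyΩ)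
      rw [← Finset.sum_sdiff hAsub, hA, Finset.sum_union (hdisj hyx),
        sum_orbit_eq p hp hs hndvd x, sum_orbit_eq p hp hs hndvd y] at hsum
      rcases (hH.omegaFinset \ A).eq_empty_or_nonempty with hR | ⟨w, hw⟩
      · rw [← hA, hR, Finset.sum_empty, zero_add] at hsum
        have hz' : (0 : ℤ) < z := by exact_mod_cast hz
        have h12 : Nat.card (MulAction.orbit H x) + Nat.card (MulAction.orbit H y) = 2 := by
          have h : ((Nat.card (MulAction.orbit H x) : ℤ) + Nat.card (MulAction.orbit H y)) * z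
              = 2 * z := by linarith
          exact_mod_cast mul_right_cancel₀ hz'.ne' h
        refine no_invariant hi hh hH.omegaFinset ⟨x, hH.mem_omegaFinset.2 hxΩ⟩ ?_ fun g hg v hv =>
          hH.mem_omegaFinset.2 (smul_mem_omega_detOne hg (hH.mem_omegaFinset.1 hv))
        refine (Finset.card_le_card (Finset.sdiff_eq_empty_iff_subset.1 hR)).trans ?_
        refine (Finset.card_union_le _ _).trans ?_
        rw [card_orbitFinset, card_orbitFinset, h12]
      · have hwΩ : w ∈ omega H := hH.mem_omegaFinset.1 (Finset.mem_sdiff.1 hw).1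
        have hsub : orbitFinset (H := H) w ⊆ hH.omegaFinset \ A := by
          intro v hv
          refine Finset.mem_sdiff.2 ⟨hH.orbitFinset_subset hwΩ hv, fun hvA =>
            (Finset.mem_sdiff.1 hw).2 ?_⟩
          rw [hA, Finset.mem_union, mem_orbitFinset, mem_orbitFinset] at hvA ⊢
          rw [mem_orbitFinset] at hv
          rcases hvA with h | h
          · left
            rw [← MulAction.orbit_eq_iff.2 h, MulAction.orbit_eq_iff.2 hv]
            exact MulAction.mem_orbit_self w
          · right
            rw [← MulAction.orbit_eq_iff.2 h, MulAction.orbit_eq_iff.2 hv]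
            exact MulAction.mem_orbit_self w
        have hle := Finset.sum_le_sum_of_subset_of_nonneg (f := wt H) hsub fun u _ _ => wt_nonneg u
        rw [sum_orbit_eq p hp hs hndvd w] at hle
        rw [← hA] at hsum
        have h3x := hn3 x hxΩ
        have h3y := hn3 y hyΩ
        have h3w := hn3 w hwΩ
        zify at h3x h3y h3w
        have hz' : (0 : ℤ) < z := by exact_mod_cast hz
        linarith
    · push Not at hy
      have heq : hH.omegaFinset = orbitFinset (H := H) x := Finset.Subset.antisymm
        (fun v hv => mem_orbitFinset.2 (hy v (hH.mem_omegaFinset.1 hv)))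
        (hH.orbitFinset_subset hxΩ)
      rw [heq, sum_orbit_eq p hp hs hndvd x] at hsum
      zify at hNz
      have h1 : (1 : ℤ) ≤ Nat.card (MulAction.orbit H x) := by exact_mod_cast hpos x
      have hz' : (0 : ℤ) < z := by exact_mod_cast hz
      nlinarith

end FLTAgent.TW.GroupLemma
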