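import Fermat.Agent.TW.GroupLemma.Equivariant
import Fermat.Agent.TW.GroupLemma.Semisimple

/-!
# The group theoretic lemma on finite subgroups of `GL₂`
-/

set_option autoImplicit false

noncomputable section

open Matrix Polynomial

attribute [local instance] Classical.propDecidable

namespace FLTAgent.TW

variable {k : Type} [Field k]

variable (p : ℕ) [Fact p.Prime] [CharP k p] (G : Subgroup (GL (Fin 2) k)) [Finite G]

include p in
/-- If `p` divides the order, some conjugate of `G` contains an upper unitriangular element. -/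
theorem exists_conj_unipPart_ne_one (hdvd : p ∣ Nat.card G) :
    ∃ b : GL (Fin 2) k, ∃ u ∈ unipPart (G.map (MulAut.conj b).toMonoidHom), u ≠ 1 :=
  GroupLemma.exists_conj_unip p G hdvd

section Unipotent

variable (hp : p ≠ 2) (hs : IsSplitGroup G) (hi : IsIrredGroup G) (hd : HasCyclotomicDet p G)
  (hu : ∃ u ∈ unipPart G, u ≠ 1)

include hp hs hi hd hu

set_option linter.unusedSectionVars false in
theorem natCard_unipPart : ∃ f : ℕ, 0 < f ∧ Nat.card (unipPart G) = p ^ f ∧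
    ¬ p ∣ Nat.card G / p ^ f ∧ p ^ f ∣ Nat.card G :=
  GroupLemma.natCard_unip p hu

set_option linter.unusedSectionVars false in
theorem exists_det_one_not_borel :
    ∃ g ∈ G, (g : Matrix (Fin 2) (Fin 2) k).det = 1 ∧ (g : Matrix (Fin 2) (Fin 2) k) 1 0 ≠ 0 := by
  obtain ⟨g, hg, hne⟩ := GroupLemma.exists_smul_ne hi (OnePoint.infty : OnePoint k)
  obtain ⟨a, ha⟩ := MulAction.mem_orbit_iff.1 (GroupLemma.smul_infty_mem_orbit p hu hg)
  refine ⟨a, (GroupLemma.mem_detOne.1 a.2).1, (GroupLemma.mem_detOne.1 a.2).2, fun h => hne ?_⟩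
  rw [← ha]
  exact OnePoint.smul_infty_eq_self_iff.2 h

set_option linter.unusedSectionVars false in
theorem exists_borel_det_eq {g : GL (Fin 2) k} (hg : g ∈ G) :
    ∃ h ∈ borelPart G,
      (h : Matrix (Fin 2) (Fin 2) k).det = (g : Matrix (Fin 2) (Fin 2) k).det := by
  obtain ⟨a, ha⟩ := MulAction.mem_orbit_iff.1 (GroupLemma.smul_infty_mem_orbit p hu hg)
  refine ⟨(a : GL (Fin 2) k)⁻¹ * g, ⟨mul_mem (inv_mem (GroupLemma.mem_detOne.1 a.2).1) hg,
    OnePoint.smul_infty_eq_self_iff.1 ?_⟩, ?_⟩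
  · rw [mul_smul, inv_smul_eq_iff, ← ha]
    rfl
  · rw [Units.val_mul, Matrix.det_mul, Matrix.coe_units_inv, Matrix.det_nonsing_inv,
      (GroupLemma.mem_detOne.1 a.2).2, Ring.inverse_one, one_mul]

set_option linter.unusedSectionVars false in
/-- The torus acts nontrivially on the unipotent part as soon as `q > 3`. -/
theorem exists_borel_det_one_chi_ne_one (hq : 3 < Nat.card (unipPart G)) :
    ∃ h ∈ borelPart G, (h : Matrix (Fin 2) (Fin 2) k).det = 1 ∧
      (h : Matrix (Fin 2) (Fin 2) k) 0 0 ≠ (h : Matrix (Fin 2) (Fin 2) k) 1 1 := by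
  obtain ⟨h, hH, h10, hne⟩ := GroupLemma.exists_chi_ne_one p hp hs hi hu hq
  exact ⟨h, ⟨(GroupLemma.mem_detOne.1 hH).1, h10⟩, (GroupLemma.mem_detOne.1 hH).2, hne⟩

set_option linter.unusedSectionVars false in
/-- No additive function on the unipotent part is `det`-equivariant. -/
theorem eq_zero_of_equivariant_det (hq : 3 < Nat.card (unipPart G)) (f : GL (Fin 2) k → k)
    (hadd : ∀ u ∈ unipPart G, ∀ v ∈ unipPart G, f (u * v) = f u + f v)
    (heq : ∀ h ∈ borelPart G, ∀ u ∈ unipPart G,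
      f (h * u * h⁻¹) = (h : Matrix (Fin 2) (Fin 2) k).det * f u) :
    ∀ u ∈ unipPart G, f u = 0 :=
  GroupLemma.eq_zero_det p hp hs hi hu hq f hadd heq

set_option linter.unusedSectionVars false in
set_option linter.unusedVariables false in
/-- No additive function on the unipotent part is equivariant for `det * (h₀₀/h₁₁)`. -/
theorem eq_zero_of_equivariant_det_mul (hq : 3 < Nat.card (unipPart G)) (f : GL (Fin 2) k → k)
    (hadd : ∀ u ∈ unipPart G, ∀ v ∈ unipPart G, f (u * v) = f u + f v)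
    (heq : ∀ h ∈ borelPart G, ∀ u ∈ unipPart G,
      f (h * u * h⁻¹) = (h : Matrix (Fin 2) (Fin 2) k).det *
        ((h : Matrix (Fin 2) (Fin 2) k) 0 0 / (h : Matrix (Fin 2) (Fin 2) k) 1 1) * f u) :
    ∀ u ∈ unipPart G, f u = 0 :=
  GroupLemma.eq_zero_det_mul p hp hs hi hu hd f hadd heq

/-- For `p ≥ 5` no additive function on the unipotent part is equivariant for
`det / (h₀₀/h₁₁)`. -/
theorem eq_zero_of_equivariant_det_div (hp5 : 5 ≤ p) (hq : 3 < Nat.card (unipPart G))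
    (f : GL (Fin 2) k → k)
    (hadd : ∀ u ∈ unipPart G, ∀ v ∈ unipPart G, f (u * v) = f u + f v)
    (heq : ∀ h ∈ borelPart G, ∀ u ∈ unipPart G,
      f (h * u * h⁻¹) = (h : Matrix (Fin 2) (Fin 2) k).det /
        ((h : Matrix (Fin 2) (Fin 2) k) 0 0 / (h : Matrix (Fin 2) (Fin 2) k) 1 1) * f u) :
    ∀ u ∈ unipPart G, f u = 0 :=
  GroupLemma.eq_zero_det_div p hp hs hi hu hq hd hp5 f hadd heq

end Unipotent

set_option linter.unusedVariables false in
/-- A Klein four group in the projective image of `G ∩ SL₂`. -/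
theorem exists_klein (hp : p ≠ 2) (hs : IsSplitGroup G) (hi : IsIrredGroup G)
    (hh : NoHalfReducible G) (hd : HasCyclotomicDet p G) :
    ∃ s ∈ G, ∃ t ∈ G, (s : Matrix (Fin 2) (Fin 2) k).det = 1 ∧
      (t : Matrix (Fin 2) (Fin 2) k).det = 1 ∧
      (s : Matrix (Fin 2) (Fin 2) k) * s = -1 ∧ (t : Matrix (Fin 2) (Fin 2) k) * t = -1 ∧
      (s : Matrix (Fin 2) (Fin 2) k) * t = -((t : Matrix (Fin 2) (Fin 2) k) * s) := by
  by_cases hdvd : p ∣ Nat.card G
  · obtain ⟨b, hu⟩ := exists_conj_unipPart_ne_one p G hdvd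
    set G' := G.map (MulAut.conj b).toMonoidHom with hG'
    have hs' : IsSplitGroup G' := by
      rintro _ ⟨g, hg, rfl⟩
      obtain ⟨α, β, h⟩ := hs g hg
      refine ⟨α, β, ?_⟩
      show (((b * g * b⁻¹ : GL (Fin 2) k) : Matrix (Fin 2) (Fin 2) k)).charpoly = _
      rw [Units.val_mul, Units.val_mul, Matrix.coe_units_inv, Matrix.charpoly_units_conj, h]
    have hi' : IsIrredGroup G' := by
      intro v hv
      set w : Fin 2 → k := ((b⁻¹ : GL (Fin 2) k) : Matrix (Fin 2) (Fin 2) k) *ᵥ v with hw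
      have hbw : (b : Matrix (Fin 2) (Fin 2) k) *ᵥ w = v := by
        rw [hw, Matrix.mulVec_mulVec, ← Units.val_mul, mul_inv_cancel, Units.val_one,
          Matrix.one_mulVec]
      have hw0 : w ≠ 0 := fun h => hv (by rw [← hbw, h, Matrix.mulVec_zero])
      obtain ⟨g, hg, hgw⟩ := hi w hw0
      refine ⟨b * g * b⁻¹, ⟨g, hg, rfl⟩, fun a ha => hgw a ?_⟩
      rw [Units.val_mul, Units.val_mul, ← Matrix.mulVec_mulVec, ← Matrix.mulVec_mulVec, ← hw] at ha
      have := congrArg (fun z => ((b⁻¹ : GL (Fin 2) k) : Matrix (Fin 2) (Fin 2) k) *ᵥ z) ha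
      simp only [Matrix.mulVec_mulVec, ← Units.val_mul, Matrix.mulVec_smul] at this
      rw [inv_mul_cancel_left] at this
      exact this
    have hfin : Finite G' := by
      rw [hG']
      exact Finite.of_surjective (fun g : G => (⟨_, Subgroup.mem_map_of_mem _ g.2⟩ :
        G.map (MulAut.conj b).toMonoidHom)) fun ⟨_, g, hg, h⟩ => ⟨⟨g, hg⟩, Subtype.ext h⟩
    obtain ⟨s', hs1, t', ht1, hss, htt, hst⟩ :=
      GroupLemma.exists_anticomm_of_unip p hp hs' hi' hu
    obtain ⟨hsG, hsd⟩ := GroupLemma.mem_detOne.1 hs1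
    obtain ⟨htG, htd⟩ := GroupLemma.mem_detOne.1 ht1
    obtain ⟨s, hsm, rfl⟩ := hsG
    obtain ⟨t, htm, rfl⟩ := htG
    have hval : ∀ g : GL (Fin 2) k,
        (((MulAut.conj b).toMonoidHom g : GL (Fin 2) k) : Matrix (Fin 2) (Fin 2) k)
          = (b : Matrix (Fin 2) (Fin 2) k) * g
            * ((b⁻¹ : GL (Fin 2) k) : Matrix (Fin 2) (Fin 2) k) := fun g => rfl
    have hback : ∀ g : GL (Fin 2) k, ∀ X : Matrix (Fin 2) (Fin 2) k,
        ((b⁻¹ : GL (Fin 2) k) : Matrix (Fin 2) (Fin 2) k) * ((b : Matrix (Fin 2) (Fin 2) k) * X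
          * ((b⁻¹ : GL (Fin 2) k) : Matrix (Fin 2) (Fin 2) k)) * (b : Matrix (Fin 2) (Fin 2) k) = X := by
      intro g X
      simp [mul_assoc]
    have hmul : ∀ g h : GL (Fin 2) k,
        (((MulAut.conj b).toMonoidHom g : GL (Fin 2) k) : Matrix (Fin 2) (Fin 2) k) *
          (((MulAut.conj b).toMonoidHom h : GL (Fin 2) k) : Matrix (Fin 2) (Fin 2) k)
        = (b : Matrix (Fin 2) (Fin 2) k) * ((g : Matrix (Fin 2) (Fin 2) k) * h)
            * ((b⁻¹ : GL (Fin 2) k) : Matrix (Fin 2) (Fin 2) k) := fun g h => by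
      rw [← Units.val_mul, ← map_mul, hval, Units.val_mul]
    have hdet : ∀ g : GL (Fin 2) k,
        (((MulAut.conj b).toMonoidHom g : GL (Fin 2) k) : Matrix (Fin 2) (Fin 2) k).det
          = (g : Matrix (Fin 2) (Fin 2) k).det := fun g => by
      rw [hval, Matrix.det_mul, Matrix.det_mul, mul_right_comm, ← Matrix.det_mul, ← Units.val_mul,
        mul_inv_cancel, Units.val_one, Matrix.det_one, one_mul]
    have hneg : ∀ X Y : Matrix (Fin 2) (Fin 2) k,
        (b : Matrix (Fin 2) (Fin 2) k) * X * ((b⁻¹ : GL (Fin 2) k) : Matrix (Fin 2) (Fin 2) k)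
          = (b : Matrix (Fin 2) (Fin 2) k) * Y * ((b⁻¹ : GL (Fin 2) k) : Matrix (Fin 2) (Fin 2) k)
        → X = Y := fun X Y h => by rw [← hback b X, h, hback b Y]
    rw [hdet] at hsd htd
    rw [hmul] at hss htt hst
    rw [hmul] at hst
    refine ⟨s, hsm, t, htm, hsd, htd, hneg _ _ (hss.trans ?_), hneg _ _ (htt.trans ?_),
      hneg _ _ (hst.trans ?_)⟩ <;> simp
  · obtain ⟨s, hs1, t, ht1, hss, htt, hst⟩ :=
      GroupLemma.exists_anticomm_of_not_dvd p hp hs hi hh hdvd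
    exact ⟨s, (GroupLemma.mem_detOne.1 hs1).1, t, (GroupLemma.mem_detOne.1 ht1).1,
      (GroupLemma.mem_detOne.1 hs1).2, (GroupLemma.mem_detOne.1 ht1).2, hss, htt, hst⟩

end FLTAgent.TW
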