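import Fermat.Agent.TW.GroupLemma.Defs
import Mathlib.Topology.Compactification.OnePoint.ProjectiveLine
import Mathlib.LinearAlgebra.Matrix.Charpoly.Coeff
import Mathlib.Algebra.CharP.Lemmas
import Mathlib.LinearAlgebra.Matrix.CharP
import Mathlib.RingTheory.Nilpotent.Lemmas

/-!
# Elementary facts on `2 × 2` matrices and their fixed points on the projective line
-/

set_option autoImplicit false

noncomputable section

open Matrix

attribute [local instance] Classical.propDecidable

namespace FLTAgent.TW.GroupLemma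

variable {k : Type} [Field k]

omit [Field k] in
theorem ext_fin_two {A B : Matrix (Fin 2) (Fin 2) k} (h00 : A 0 0 = B 0 0) (h01 : A 0 1 = B 0 1)
    (h10 : A 1 0 = B 1 0) (h11 : A 1 1 = B 1 1) : A = B := by
  ext i j
  fin_cases i <;> fin_cases j <;> assumption

theorem isScalarMat_iff {A : Matrix (Fin 2) (Fin 2) k} :
    IsScalarMat A ↔ A 0 1 = 0 ∧ A 1 0 = 0 ∧ A 0 0 = A 1 1 := by
  constructor
  · rintro ⟨a, rfl⟩
    simp
  · rintro ⟨h1, h2, h3⟩
    exact ⟨A 0 0, ext_fin_two (by simp) (by simp [h1]) (by simp [h2]) (by simp [h3])⟩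

theorem isScalarMat_iff_mem_range {A : Matrix (Fin 2) (Fin 2) k} :
    IsScalarMat A ↔ A ∈ Set.range (Matrix.scalar (Fin 2)) := by
  simp only [IsScalarMat, Set.mem_range, Matrix.scalar_apply, Matrix.smul_one_eq_diagonal]
  exact ⟨fun ⟨a, h⟩ => ⟨a, h.symm⟩, fun ⟨a, h⟩ => ⟨a, h.symm⟩⟩

theorem isParabolic_iff {g : GL (Fin 2) k} :
    g.IsParabolic ↔ ¬ IsScalarMat (g : Matrix (Fin 2) (Fin 2) k) ∧
      (g : Matrix (Fin 2) (Fin 2) k).discr = 0 := by
  rw [isScalarMat_iff_mem_range]
  rfl

/-- Cayley-Hamilton. -/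
theorem mul_self_eq (A : Matrix (Fin 2) (Fin 2) k) :
    A * A = A.trace • A - A.det • 1 := by
  refine ext_fin_two ?_ ?_ ?_ ?_ <;>
    simp [Matrix.mul_apply, Fin.sum_univ_two, Matrix.trace_fin_two, Matrix.det_fin_two] <;> ring

theorem mul_self_eq_neg_one {A : Matrix (Fin 2) (Fin 2) k} (hd : A.det = 1) (ht : A.trace = 0) :
    A * A = -1 := by
  rw [mul_self_eq, hd, ht]
  simp

theorem trace_eq_zero_of_mul_self {A : Matrix (Fin 2) (Fin 2) k} (hd : A.det = 1)
    (h : A * A = -1) : A.trace = 0 := by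
  by_contra ht
  have h' := mul_self_eq A
  rw [h, hd, one_smul, eq_sub_iff_add_eq, neg_add_cancel, eq_comm, smul_eq_zero] at h'
  rcases h' with h' | h'
  · exact ht h'
  · rw [h', Matrix.det_zero] at hd
    exact zero_ne_one hd

theorem split_roots {A : Matrix (Fin 2) (Fin 2) k} {α β : k}
    (h : A.charpoly = (Polynomial.X - Polynomial.C α) * (Polynomial.X - Polynomial.C β)) :
    α + β = A.trace ∧ α * β = A.det := by
  rw [Matrix.charpoly_fin_two] at h
  have h0 := congrArg (fun P : Polynomial k => P.coeff 0) h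
  have h1 := congrArg (fun P : Polynomial k => P.eval 1) h
  simp [Polynomial.mul_coeff_zero] at h0
  simp at h1
  exact ⟨by linear_combination h1 - h0, h0.symm⟩

theorem exists_roots {G : Subgroup (GL (Fin 2) k)} (hs : IsSplitGroup G) {g : GL (Fin 2) k}
    (hg : g ∈ G) : ∃ α β : k, α + β = (g : Matrix (Fin 2) (Fin 2) k).trace ∧
      α * β = (g : Matrix (Fin 2) (Fin 2) k).det := by
  obtain ⟨α, β, h⟩ := hs g hg
  exact ⟨α, β, split_roots h⟩

section CharP

variable (p : ℕ) [Fact p.Prime] [CharP k p]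

omit [Fact p.Prime] in
include p in
theorem two_ne_zero_of_ne_two (hp : p ≠ 2) : (2 : k) ≠ 0 :=
  Ring.two_ne_zero (by rwa [ringChar.eq k p])

/-- An element of `p`-power order is unipotent. -/
theorem trace_det_of_pow_eq_one {A : Matrix (Fin 2) (Fin 2) k} {a : ℕ} (h : A ^ p ^ a = 1) :
    A.trace = 2 ∧ A.det = 1 := by
  have hN : IsNilpotent (A - 1) :=
    ⟨p ^ a, by rw [sub_pow_char_pow_of_commute p a (Commute.one_right A), h, one_pow, sub_self]⟩
  have ht : A.trace = 2 := by
    have := (Matrix.isNilpotent_trace_of_isNilpotent hN).eq_zero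
    rw [Matrix.trace_sub, Matrix.trace_one, sub_eq_zero] at this
    simpa using this
  refine ⟨ht, ?_⟩
  have hd : (A - 1).det = 0 := by
    obtain ⟨n, hn⟩ := hN
    exact IsNilpotent.eq_zero ⟨n, by rw [← Matrix.det_pow, hn, Matrix.det_zero]⟩
  rw [Matrix.trace_fin_two] at ht
  simp [Matrix.det_fin_two] at hd ⊢
  linear_combination hd + ht

theorem pow_eq_one_of_trace_det {A : Matrix (Fin 2) (Fin 2) k} (ht : A.trace = 2)
    (hd : A.det = 1) : A ^ p = 1 := by
  have h2 : (A - 1) ^ 2 = 0 := by
    rw [sq, sub_mul, mul_sub, mul_sub, mul_self_eq, ht, hd, one_smul, mul_one, one_mul, mul_one,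
      two_smul]
    abel
  rw [← sub_eq_zero, ← one_pow (M := Matrix (Fin 2) (Fin 2) k) p,
    ← sub_pow_char_of_commute p (Commute.one_right A),
    ← Nat.add_sub_cancel' (Fact.out : p.Prime).two_le, pow_add, h2, zero_mul]

end CharP

theorem exists_map_infty (x : OnePoint k) : ∃ b : GL (Fin 2) k, b • x = (OnePoint.infty : OnePoint k) := by
  cases x with
  | infty => exact ⟨1, one_smul _ _⟩
  | coe t =>
    refine ⟨Matrix.GeneralLinearGroup.mkOfDetNeZero !![0, 1; 1, -t] (by simp [Matrix.det_fin_two]), ?_⟩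
    rw [OnePoint.smul_some_eq_ite, if_pos]
    simp [Matrix.GeneralLinearGroup.mkOfDetNeZero]

theorem exists_smul_ne {G : Subgroup (GL (Fin 2) k)} (hi : IsIrredGroup G) (x : OnePoint k) :
    ∃ g ∈ G, g • x ≠ x := by
  cases x with
  | infty =>
    obtain ⟨g, hg, h⟩ := hi ![1, 0] (by simp)
    refine ⟨g, hg, fun hfix => h ((g : Matrix (Fin 2) (Fin 2) k) 0 0) ?_⟩
    rw [OnePoint.smul_infty_eq_self_iff] at hfix
    simp [hfix]
  | coe t =>
    obtain ⟨g, hg, h⟩ := hi ![t, 1] (by simp)
    refine ⟨g, hg, fun hfix =>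
      h ((g : Matrix (Fin 2) (Fin 2) k) 1 0 * t + (g : Matrix (Fin 2) (Fin 2) k) 1 1) ?_⟩
    rw [OnePoint.smul_some_eq_ite] at hfix
    split_ifs at hfix with h0
    · exact absurd hfix (OnePoint.infty_ne_coe t)
    · rw [OnePoint.coe_eq_coe, div_eq_iff h0] at hfix
      ext i
      fin_cases i
      · simp
        linear_combination hfix
      · simp

/-- A nonscalar element with eigenvalues in the field fixes one or two points. -/
theorem exists_fixed_finset {g : GL (Fin 2) k}
    (hg : ¬ IsScalarMat (g : Matrix (Fin 2) (Fin 2) k)) {α β : k}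
    (ht : α + β = (g : Matrix (Fin 2) (Fin 2) k).trace)
    (hd : α * β = (g : Matrix (Fin 2) (Fin 2) k).det) :
    ∃ F : Finset (OnePoint k), (∀ x, x ∈ F ↔ g • x = x) ∧
      F.card = if (g : Matrix (Fin 2) (Fin 2) k).discr = 0 then 1 else 2 := by
  rw [Matrix.trace_fin_two] at ht
  rw [Matrix.det_fin_two] at hd
  set a := (g : Matrix (Fin 2) (Fin 2) k) 0 0
  set b := (g : Matrix (Fin 2) (Fin 2) k) 0 1
  set c := (g : Matrix (Fin 2) (Fin 2) k) 1 0 with hcdef
  set d := (g : Matrix (Fin 2) (Fin 2) k) 1 1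
  have hdisc : (g : Matrix (Fin 2) (Fin 2) k).discr = (α - β) ^ 2 := by
    rw [Matrix.discr_fin_two, Matrix.trace_fin_two, Matrix.det_fin_two]
    linear_combination -(α + β + a + d) * ht + 4 * hd
  have hfix : ∀ z : k, g • (z : OnePoint k) = z ↔ c * z ^ 2 + (d - a) * z - b = 0 := fun z => by
    rw [← Matrix.GeneralLinearGroup.fixpointPolynomial_aeval_eq_zero_iff]
    simp [Matrix.GeneralLinearGroup.fixpointPolynomial, a, b, c, d]
  have hinf : g • (OnePoint.infty : OnePoint k) = OnePoint.infty ↔ c = 0 :=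
    OnePoint.smul_infty_eq_self_iff
  rw [hdisc]
  by_cases hc : c = 0
  · have hdisc' : (α - β) ^ 2 = (a - d) ^ 2 := by
      rw [hc] at hd
      linear_combination (α + β + a + d) * ht - 4 * hd
    by_cases had : a = d
    · refine ⟨{OnePoint.infty}, fun x => ?_, by rw [Finset.card_singleton, if_pos]; simp [hdisc', had]⟩
      cases x with
      | infty => simp [hinf, hc]
      | coe z =>
        simp only [Finset.mem_singleton, OnePoint.coe_ne_infty, false_iff, hfix, hc, had]
        intro h
        refine hg (isScalarMat_iff.2 ⟨?_, hc, had⟩)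
        linear_combination -h
    · refine ⟨{OnePoint.infty, ((b / (d - a) : k) : OnePoint k)}, fun x => ?_, ?_⟩
      · cases x with
        | infty => simp [hinf, hc]
        | coe z =>
          simp only [Finset.mem_insert, OnePoint.coe_ne_infty, false_or, Finset.mem_singleton,
            OnePoint.coe_eq_coe, hfix, hc]
          rw [eq_div_iff (sub_ne_zero.2 (Ne.symm had))]
          exact ⟨fun h => by linear_combination h, fun h => by linear_combination h⟩
      · rw [Finset.card_pair (OnePoint.infty_ne_coe _), if_neg]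
        simp [hdisc', sub_eq_zero, had]
  · refine ⟨{(((α - d) / c : k) : OnePoint k), (((β - d) / c : k) : OnePoint k)}, fun x => ?_, ?_⟩
    · cases x with
      | infty => simp [hinf, hc]
      | coe z =>
        simp only [Finset.mem_insert, Finset.mem_singleton, OnePoint.coe_eq_coe, hfix]
        rw [eq_div_iff hc, eq_div_iff hc]
        have key : c * (c * z ^ 2 + (d - a) * z - b) = (z * c - (α - d)) * (z * c - (β - d)) := by
          linear_combination (z * c + d) * ht - hd
        rw [show c * z ^ 2 + (d - a) * z - b = 0 ↔ (z * c - (α - d)) * (z * c - (β - d)) = 0 by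
          rw [← key]; simp [hc], mul_eq_zero, sub_eq_zero, sub_eq_zero]
    · by_cases hab : α = β
      · rw [hab, if_pos (by simp), Finset.pair_eq_singleton, Finset.card_singleton]
      · rw [if_neg (by simp [sub_eq_zero, hab]), Finset.card_pair]
        simp [div_left_inj' hc, hab]

/-- A matrix fixing two distinct points with discriminant zero is scalar. -/
theorem isScalarMat_of_fix_two {g : GL (Fin 2) k} {α β : k}
    (ht : α + β = (g : Matrix (Fin 2) (Fin 2) k).trace)
    (hd : α * β = (g : Matrix (Fin 2) (Fin 2) k).det)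
    (hdisc : (g : Matrix (Fin 2) (Fin 2) k).discr = 0) {x y : OnePoint k} (hxy : x ≠ y)
    (hx : g • x = x) (hy : g • y = y) : IsScalarMat (g : Matrix (Fin 2) (Fin 2) k) := by
  by_contra hg
  obtain ⟨F, hF, hcard⟩ := exists_fixed_finset hg ht hd
  rw [if_pos hdisc] at hcard
  exact hxy (Finset.card_le_one.1 hcard.le x ((hF x).2 hx) y ((hF y).2 hy))

theorem smul_eq_self_of_isScalarMat {g : GL (Fin 2) k}
    (hg : IsScalarMat (g : Matrix (Fin 2) (Fin 2) k)) (x : OnePoint k) : g • x = x := by
  obtain ⟨h1, h2, h3⟩ := isScalarMat_iff.1 hg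
  cases x with
  | infty => exact OnePoint.smul_infty_eq_self_iff.2 h2
  | coe t =>
    have hd : (g : Matrix (Fin 2) (Fin 2) k) 1 1 ≠ 0 := fun h => g.det_ne_zero (by
      simp [Matrix.det_fin_two, h2, h])
    rw [OnePoint.smul_some_eq_ite, if_neg (by simp [h2, hd]), h1, h2, h3]
    simp [mul_div_cancel_left₀ _ hd]

end FLTAgent.TW.GroupLemma
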