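import Fermat.Agent.TW.GroupLemma.Stabilizer

/-!
# Counting fixed points on the projective line

Every nonscalar element fixes two points, or one if it is parabolic.  Summing over the points gives
the identity behind the classification of finite subgroups of `PGL₂`.
-/

set_option autoImplicit false

noncomputable section

open Matrix

attribute [local instance] Classical.propDecidable

namespace FLTAgent.TW.GroupLemma

variable {k : Type} [Field k] (H : Subgroup (GL (Fin 2) k))

/-- The weight of a point. -/
def wt (x : OnePoint k) : ℤ :=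
  (stabCard H x : ℤ) + Nat.card (ParAt H x) - zCard H

variable {H}

theorem wt_smul (h : H) (x : OnePoint k) : wt H (h • x) = wt H x := by
  rw [wt, wt, stabCard_smul, card_parAt_smul]

theorem wt_nonneg [Finite H] (x : OnePoint k) : 0 ≤ wt H x := by
  have h : zCard H ≤ stabCard H x := Nat.le_of_dvd Nat.card_pos (zCard_dvd_stabCard H x)
  rw [wt]
  omega

theorem orbit_subset_omega {x : OnePoint k} (hx : x ∈ omega H) : MulAction.orbit H x ⊆ omega H := by
  rintro y ⟨h, rfl⟩
  exact smul_mem_omega hx

/-- The orbit as a finite set. -/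
def orbitFinset [Finite H] (x : OnePoint k) : Finset (OnePoint k) :=
  (Set.finite_range fun h : H => h • x).toFinset

theorem mem_orbitFinset [Finite H] {x y : OnePoint k} :
    y ∈ orbitFinset (H := H) x ↔ y ∈ MulAction.orbit H x := Set.Finite.mem_toFinset _

theorem card_orbitFinset [Finite H] (x : OnePoint k) :
    (orbitFinset (H := H) x).card = Nat.card (MulAction.orbit H x) :=
  (Nat.card_eq_card_finite_toFinset (Set.finite_range fun h : H => h • x)).symm

theorem sum_wt_orbit [Finite H] (x : OnePoint k) :
    ∑ y ∈ orbitFinset (H := H) x, wt H y = Nat.card (MulAction.orbit H x) * wt H x := by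
  rw [← card_orbitFinset, Finset.sum_congr rfl fun y hy => ?_, Finset.sum_const, nsmul_eq_mul]
  obtain ⟨h, rfl⟩ := mem_orbitFinset.1 hy
  exact wt_smul h x

namespace IsNiceSL

variable (hH : IsNiceSL H)

include hH

/-- The finite set of points fixed by a nonscalar element. -/
def omegaFinset [Finite H] : Finset (OnePoint k) := hH.omega_finite.toFinset

theorem mem_omegaFinset [Finite H] {x : OnePoint k} : x ∈ hH.omegaFinset ↔ x ∈ omega H :=
  Set.Finite.mem_toFinset _

theorem orbitFinset_subset [Finite H] {x : OnePoint k} (hx : x ∈ omega H) :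
    orbitFinset (H := H) x ⊆ hH.omegaFinset :=
  fun _ hy => hH.mem_omegaFinset.2 (orbit_subset_omega hx (mem_orbitFinset.1 hy))

/-- The fixed point count. -/
theorem sum_wt [Finite H] :
    ∑ x ∈ hH.omegaFinset, wt H x = 2 * ((Nat.card H : ℤ) - zCard H) := by
  have := Fintype.ofFinite H
  set N : Finset H := Finset.univ.filter fun h => h ∉ scalarSub H with hN
  let φ : H → ℤ := fun h => if (h : GL (Fin 2) k).IsParabolic then 2 else 1
  have hpoint : ∀ x, wt H x = ∑ h ∈ N, if h • x = x then φ h else 0 := by
    intro x
    have hz : Nat.card (scalarSub H) = (Finset.univ.filter fun h : H => h ∈ scalarSub H).card :=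
      (Nat.card_eq_fintype_card).trans (Fintype.card_subtype _)
    have hS : stabCard H x = (Finset.univ.filter fun h : H => h • x = x).card :=
      (Nat.card_eq_fintype_card).trans (Fintype.card_subtype _)
    have hP : Nat.card (ParAt H x)
        = (Finset.univ.filter fun h : H => h • x = x ∧ (h : GL (Fin 2) k).IsParabolic).card :=
      (Nat.card_eq_fintype_card).trans (Fintype.card_subtype _)
    rw [wt, zCard, hS, hP, hz, hN, Finset.sum_filter, Finset.card_filter, Finset.card_filter,
      Finset.card_filter]
    push_cast
    rw [← Finset.sum_add_distrib, ← Finset.sum_sub_distrib]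
    refine Finset.sum_congr rfl fun h _ => ?_
    by_cases hs : h ∈ scalarSub H
    · have hfix : h • x = x := scalarSub_le_stabilizer H x hs
      have hnp : ¬ (h : GL (Fin 2) k).IsParabolic := fun hp => (isParabolic_iff.1 hp).1 hs
      simp [hs, hfix, hnp]
    · by_cases hfix : h • x = x <;> by_cases hp : (h : GL (Fin 2) k).IsParabolic <;>
        simp [hs, hfix, hp, φ]
  rw [Finset.sum_congr rfl fun x _ => hpoint x, Finset.sum_comm]
  have hh : ∀ h ∈ N, (∑ x ∈ hH.omegaFinset, if h • x = x then φ h else 0) = 2 := by
    intro h hh
    have hs : h ∉ scalarSub H := (Finset.mem_filter.1 hh).2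
    obtain ⟨F, hF, hcard⟩ := hH.fixed_finset h hs
    have hFeq : (hH.omegaFinset.filter fun x => h • x = x) = F := Finset.ext fun x => by
      rw [Finset.mem_filter, hF, hH.mem_omegaFinset]
      exact ⟨And.right, fun hfix => ⟨⟨h, hs, hfix⟩, hfix⟩⟩
    rw [← Finset.sum_filter, hFeq, Finset.sum_const, hcard]
    by_cases hp : (h : GL (Fin 2) k).IsParabolic <;> simp [φ, hp]
  rw [Finset.sum_congr rfl hh, Finset.sum_const, nsmul_eq_mul, mul_comm]
  have h := Finset.card_filter_add_card_filter_not (s := (Finset.univ : Finset H))
    fun h => h ∈ scalarSub H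
  have hz : zCard H = (Finset.univ.filter fun h : H => h ∈ scalarSub H).card :=
    (Nat.card_eq_fintype_card).trans (Fintype.card_subtype _)
  rw [hN, hz, Nat.card_eq_fintype_card, ← Finset.card_univ, ← h]
  push_cast
  ring

end IsNiceSL

end FLTAgent.TW.GroupLemma
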