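import Mathlib.LinearAlgebra.Matrix.Charpoly.Basic
import Mathlib.LinearAlgebra.Matrix.GeneralLinearGroup.Defs
import Mathlib.LinearAlgebra.Matrix.NonsingularInverse
import Mathlib.GroupTheory.Index

/-!
# Hypotheses on a finite subgroup of `GL₂`
-/

set_option autoImplicit false

open Matrix Polynomial

namespace FLTAgent.TW

variable {k : Type} [Field k]

/-- A subgroup has all eigenvalues in `k`. -/
def IsSplitGroup (G : Subgroup (GL (Fin 2) k)) : Prop :=
  ∀ g ∈ G, ∃ α β : k, (g : Matrix (Fin 2) (Fin 2) k).charpoly = (X - C α) * (X - C β)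

/-- No common eigenline. -/
def IsIrredGroup (G : Subgroup (GL (Fin 2) k)) : Prop :=
  ∀ v : Fin 2 → k, v ≠ 0 → ∃ g ∈ G, ∀ a : k, (g : Matrix (Fin 2) (Fin 2) k) *ᵥ v ≠ a • v

/-- Every subgroup of index two is irreducible. -/
def NoHalfReducible (G : Subgroup (GL (Fin 2) k)) : Prop :=
  ∀ G' : Subgroup (GL (Fin 2) k), G' ≤ G → (G'.subgroupOf G).index = 2 → IsIrredGroup G'

/-- Determinant with values exactly the nonzero elements of the prime field. -/
def HasCyclotomicDet (p : ℕ) (G : Subgroup (GL (Fin 2) k)) : Prop :=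
  (∀ g ∈ G, ((g : Matrix (Fin 2) (Fin 2) k).det) ^ (p - 1) = 1) ∧
    ∀ a : ℕ, ¬ p ∣ a → ∃ g ∈ G, (g : Matrix (Fin 2) (Fin 2) k).det = (a : k)

/-- Scalar matrices. -/
def IsScalarMat (A : Matrix (Fin 2) (Fin 2) k) : Prop := ∃ a : k, A = a • 1

/-- Upper triangular elements of `G`. -/
def borelPart (G : Subgroup (GL (Fin 2) k)) : Set (GL (Fin 2) k) :=
  {g | g ∈ G ∧ (g : Matrix (Fin 2) (Fin 2) k) 1 0 = 0}

/-- Upper unitriangular elements of `G`. -/
def unipPart (G : Subgroup (GL (Fin 2) k)) : Set (GL (Fin 2) k) :=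
  {g | g ∈ G ∧ (g : Matrix (Fin 2) (Fin 2) k) 1 0 = 0 ∧
    (g : Matrix (Fin 2) (Fin 2) k) 0 0 = 1 ∧ (g : Matrix (Fin 2) (Fin 2) k) 1 1 = 1}

end FLTAgent.TW
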