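import Fermat.Agent.TW.GroupLemma.UnipOrbits
import Mathlib.Algebra.Ring.Subring.Basic
import Mathlib.FieldTheory.Finite.Basic

/-!
# Additive functions on the unipotent part equivariant for a character of the Borel part

Since `q ≤ 2 c + 1`, the unipotent part is a line over the ring generated by the torus image, so
equivariance under the torus determines such a function up to an automorphism of that finite field.
-/

set_option autoImplicit false

noncomputable section

open Matrix Matrix.GeneralLinearGroup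

attribute [local instance] Classical.propDecidable

namespace FLTAgent.TW.GroupLemma

variable {k : Type} [Field k]

/-- The additive group of the unipotent part. -/
def unipSet (G : Subgroup (GL (Fin 2) k)) : AddSubgroup k where
  carrier := {x | upperRightHom x ∈ G}
  add_mem' {a b} ha hb := by
    show upperRightHom (a + b) ∈ G
    rw [AddChar.map_add_eq_mul]
    exact mul_mem ha hb
  zero_mem' := by
    show upperRightHom (0 : k) ∈ G
    rw [AddChar.map_zero_eq_one]
    exact one_mem G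
  neg_mem' {a} ha := by
    show upperRightHom (-a) ∈ G
    rw [AddChar.map_neg_eq_inv]
    exact inv_mem ha

/-- The multipliers of a subgroup of the field. -/
def stabRing (X : AddSubgroup k) : Subring k where
  carrier := {r | ∀ x ∈ X, r * x ∈ X}
  mul_mem' {a b} ha hb x hx := by rw [mul_assoc]; exact ha _ (hb x hx)
  one_mem' x hx := by rwa [one_mul]
  add_mem' {a b} ha hb x hx := by rw [add_mul]; exact X.add_mem (ha x hx) (hb x hx)
  zero_mem' x _ := by rw [zero_mul]; exact X.zero_mem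
  neg_mem' {a} ha x hx := by rw [neg_mul]; exact X.neg_mem (ha x hx)

theorem inv_mem_of_finite (R : Subring k) [Finite R] {r : k} (hr : r ∈ R) : r⁻¹ ∈ R := by
  rcases eq_or_ne r 0 with rfl | h
  · simp
  · obtain ⟨y, hy⟩ := (Finite.injective_iff_surjective.1
      (mul_right_injective₀ (a := (⟨r, hr⟩ : R)) (fun e => h (congrArg Subtype.val e)))) 1
    have hy' : r * (y : k) = 1 := congrArg Subtype.val hy
    rw [← eq_inv_of_mul_eq_one_right hy']
    exact y.2

/-- A finite additive group stable under a field with at least `c + 1` elements and having at most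
`2c+1` elements is a line. -/
theorem exists_eq_mul (X : AddSubgroup k) [Finite X] (R : Subring k) (hR : ∀ r ∈ R, ∀ x ∈ X, r * x ∈ X)
    {c : ℕ} (hc : c + 1 ≤ Nat.card R) (hX : Nat.card X ≤ 2 * c + 1) {x₀ : k} (hx₀ : x₀ ∈ X)
    (hne : x₀ ≠ 0) {y : k} (hy : y ∈ X) : ∃ r ∈ R, y = r * x₀ := by
  by_contra! hcon
  have hfin : Finite R := Finite.of_injective (fun r : R => (⟨(r : k) * x₀, hR r r.2 x₀ hx₀⟩ : X))
    fun a b h => Subtype.ext (mul_right_cancel₀ hne (congrArg Subtype.val h))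
  have hinj : Function.Injective fun rs : R × R =>
      (⟨(rs.1 : k) * x₀ + (rs.2 : k) * y, X.add_mem (hR _ rs.1.2 _ hx₀) (hR _ rs.2.2 _ hy)⟩ : X) := by
    rintro ⟨r, s⟩ ⟨r', s'⟩ h
    have h' : (r : k) * x₀ + (s : k) * y = r' * x₀ + s' * y := congrArg Subtype.val h
    by_cases hs : s = s'
    · subst hs
      exact Prod.ext (Subtype.ext (mul_right_cancel₀ hne (add_right_cancel h'))) rfl
    · exfalso
      have hs' : ((s : k) - s') ≠ 0 := sub_ne_zero.2 fun e => hs (Subtype.ext e)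
      refine hcon (((r' : k) - r) * ((s : k) - s')⁻¹)
        (R.mul_mem (R.sub_mem r'.2 r.2) (inv_mem_of_finite R (R.sub_mem s.2 s'.2))) ?_
      field_simp
      linear_combination h'
  have hle := Nat.card_le_card_of_injective _ hinj
  rw [Nat.card_prod] at hle
  obtain ⟨d, hd⟩ : ∃ d, Nat.card R = c + 1 + d := ⟨Nat.card R - (c + 1), by omega⟩
  rw [hd] at hle
  have hc0 : 0 < c ∨ c = 0 := by omega
  rcases hc0 with h | h
  · nlinarith
  · subst h
    have h2 : Nontrivial R := inferInstance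
    have := Finite.one_lt_card (α := R)
    nlinarith

variable (p : ℕ) [Fact p.Prime] [CharP k p] {G : Subgroup (GL (Fin 2) k)} [Finite G]

/-- The scalar `δ` at an element of the Borel part. -/
abbrev ratio (h : GL (Fin 2) k) : k :=
  (h : Matrix (Fin 2) (Fin 2) k) 0 0 / (h : Matrix (Fin 2) (Fin 2) k) 1 1

variable (hp : p ≠ 2) (hs : IsSplitGroup G) (hi : IsIrredGroup G) (hu : ∃ u ∈ unipPart G, u ≠ 1)
  (hq : 3 < Nat.card (unipPart G))

include hp hs hi hu hq

omit hq in
theorem two_le_card_torusImage (hq' : 3 < Nat.card (unipPart G)) :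
    2 ≤ Nat.card (torusImage G) := by
  have := card_le_two_mul_add_one p hp hs hi hu
  omega

theorem exists_chi_ne_one : ∃ h ∈ detOne G, (h : Matrix (Fin 2) (Fin 2) k) 1 0 = 0 ∧
    (h : Matrix (Fin 2) (Fin 2) k) 0 0 ≠ (h : Matrix (Fin 2) (Fin 2) k) 1 1 := by
  have hc := two_le_card_torusImage p hp hs hi hu hq
  have : Finite (torusImage G) := (Set.finite_range (chiHom G).toHomUnits).to_subtype
  have : Nontrivial (torusImage G) := Finite.one_lt_card_iff_nontrivial.1 hc
  obtain ⟨c, hc1⟩ := exists_ne (1 : torusImage G)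
  obtain ⟨h, hH, h10, hval⟩ := mem_torusImage.1 c.2
  refine ⟨h, hH, h10, fun e => hc1 (Subtype.ext (Units.ext ?_))⟩
  rw [hval, e, div_self (diag_ne_zero h10).2]
  rfl

omit [Fact p.Prime] [CharP k p] [Finite G] hp hs hi hu hq in
theorem ratio_mul_mem {h : GL (Fin 2) k} (hh : h ∈ borelPart G) {x : k} (hx : x ∈ unipSet G) :
    ratio h * x ∈ unipSet G := by
  show upperRightHom _ ∈ G
  rw [← upper_conj hh.2]
  exact mul_mem (mul_mem hh.1 hx) (inv_mem hh.1)

omit [Fact p.Prime] [CharP k p] [Finite G] hp hs hi hu hq in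
theorem natCard_unipSet : Nat.card (unipSet G) = Nat.card (unipPart G) :=
  Nat.card_congr (Equiv.ofBijective
    (fun x : unipSet G => (⟨upperRightHom (x : k), mem_unipPart_iff.2 ⟨x.2, x, rfl⟩⟩ : unipPart G))
    ⟨fun a b h => Subtype.ext (injective_upperRightHom (congrArg Subtype.val h)), fun u => by
      obtain ⟨hG, x, hx⟩ := mem_unipPart_iff.1 u.2
      exact ⟨⟨x, by show upperRightHom x ∈ G; rw [← hx]; exact hG⟩, Subtype.ext hx.symm⟩⟩)

omit [Fact p.Prime] [CharP k p] hp hs hi hu hq in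
theorem finite_unipSet : Finite (unipSet G) :=
  Finite.of_injective (fun x : unipSet G => (⟨upperRightHom (x : k), x.2⟩ : G))
    fun _ _ h => Subtype.ext (injective_upperRightHom (congrArg Subtype.val h))

omit [Fact p.Prime] [CharP k p] hp hs hi hu hq in
theorem card_subring_ge (R : Subring k) [Finite R] (hR : ∀ c ∈ torusImage G, (c : k) ∈ R) :
    Nat.card (torusImage G) + 1 ≤ Nat.card R := by
  have : Finite (torusImage G) := (Set.finite_range (chiHom G).toHomUnits).to_subtype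
  rw [← Nat.card_unique (α := Unit), ← Nat.card_sum]
  refine Nat.card_le_card_of_injective (Sum.elim (fun c => (⟨(c.1 : k), hR c.1 c.2⟩ : R)) fun _ => 0) ?_
  rintro (a | a) (b | b) h
  · exact congrArg Sum.inl (Subtype.ext (Units.ext (congrArg Subtype.val h)))
  · exact absurd (congrArg Subtype.val h) a.1.ne_zero
  · exact absurd (congrArg Subtype.val h).symm b.1.ne_zero
  · rfl

omit hq in
/-- Structure of an equivariant additive function: the unipotent part is a line over a finite field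
`R` containing all ratios and generated by the torus image. -/
theorem exists_line : ∃ (x₀ : k) (R : Subring k), x₀ ∈ unipSet G ∧ x₀ ≠ 0 ∧ Finite R ∧
    Nat.card R = Nat.card (unipPart G) ∧ (∀ x, x ∈ unipSet G ↔ ∃ r ∈ R, x = r * x₀) ∧
    (∀ h ∈ borelPart G, ratio h ∈ R) ∧
    (∀ S : Subring k, S ≤ R → (∀ c ∈ torusImage G, (c : k) ∈ S) → R ≤ S) := by
  obtain ⟨x₀, hx0, hx₀⟩ := exists_upper_mem hu
  have := finite_unipSet (G := G)
  set X := unipSet G
  set R := stabRing X
  have hfin : Finite R := Finite.of_injective (fun r : R => (⟨(r : k) * x₀, r.2 x₀ hx₀⟩ : X))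
    fun a b h => Subtype.ext (mul_right_cancel₀ hx0 (congrArg Subtype.val h))
  have hratio : ∀ h ∈ borelPart G, ratio h ∈ R := fun h hh x hx => ratio_mul_mem hh hx
  have htor : ∀ c ∈ torusImage G, (c : k) ∈ R := fun c hc => by
    obtain ⟨h, hH, h10, hval⟩ := mem_torusImage.1 hc
    rw [hval]
    exact hratio h ⟨(mem_detOne.1 hH).1, h10⟩
  have hX : Nat.card X ≤ 2 * Nat.card (torusImage G) + 1 := by
    rw [natCard_unipSet]
    exact card_le_two_mul_add_one p hp hs hi hu
  have hspan : ∀ x, x ∈ X ↔ ∃ r ∈ R, x = r * x₀ := fun x =>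
    ⟨fun hx => exists_eq_mul X R (fun r hr => hr) (card_subring_ge R htor) hX hx₀ hx0 hx,
      fun ⟨r, hr, e⟩ => e ▸ hr x₀ hx₀⟩
  have hcard : Nat.card R = Nat.card (unipPart G) := by
    rw [← natCard_unipSet]
    exact Nat.card_congr (Equiv.ofBijective (fun r : R => (⟨(r : k) * x₀, r.2 x₀ hx₀⟩ : X))
      ⟨fun a b h => Subtype.ext (mul_right_cancel₀ hx0 (congrArg Subtype.val h)), fun x => by
        obtain ⟨r, hr, e⟩ := (hspan x).1 x.2
        exact ⟨⟨r, hr⟩, Subtype.ext e.symm⟩⟩)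
  refine ⟨x₀, R, hx₀, hx0, hfin, hcard, hspan, hratio, fun S hSR hS r hr => ?_⟩
  have : Finite R.toAddSubgroup := hfin
  have : Finite S := Finite.of_injective (fun s : S => (⟨s, hSR s.2⟩ : R))
    fun a b h => Subtype.ext (congrArg Subtype.val h :)
  obtain ⟨s, hs', e⟩ := exists_eq_mul R.toAddSubgroup S (fun s hs x hx => R.mul_mem (hSR hs) hx)
    (card_subring_ge S hS)
    (show Nat.card R ≤ _ by rw [hcard, ← natCard_unipSet]; exact hX)
    R.one_mem one_ne_zero hr
  rw [e, mul_one]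
  exact hs'

omit [Fact p.Prime] [CharP k p] [Finite G] hp hs hi hu hq in
theorem equiv_rule {δ : GL (Fin 2) k → k} {f : GL (Fin 2) k → k}
    (heq : ∀ h ∈ borelPart G, ∀ u ∈ unipPart G, f (h * u * h⁻¹) = δ h * f u)
    {h : GL (Fin 2) k} (hh : h ∈ borelPart G) {x : k} (hx : x ∈ unipSet G) :
    f (upperRightHom (ratio h * x)) = δ h * f (upperRightHom x) := by
  rw [← upper_conj hh.2]
  exact heq h hh _ (mem_unipPart_iff.2 ⟨hx, x, rfl⟩)

omit [Fact p.Prime] [CharP k p] [Finite G] hp hs hi hu hq in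
theorem add_rule {f : GL (Fin 2) k → k}
    (hadd : ∀ u ∈ unipPart G, ∀ v ∈ unipPart G, f (u * v) = f u + f v)
    {x y : k} (hx : x ∈ unipSet G) (hy : y ∈ unipSet G) :
    f (upperRightHom (x + y)) = f (upperRightHom x) + f (upperRightHom y) := by
  rw [AddChar.map_add_eq_mul]
  exact hadd _ (mem_unipPart_iff.2 ⟨hx, x, rfl⟩) _ (mem_unipPart_iff.2 ⟨hy, y, rfl⟩)

omit [Fact p.Prime] [CharP k p] [Finite G] hp hs hi hu hq in
theorem zero_rule {f : GL (Fin 2) k → k}
    (hadd : ∀ u ∈ unipPart G, ∀ v ∈ unipPart G, f (u * v) = f u + f v) :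
    f (upperRightHom (0 : k)) = 0 := by
  have h := add_rule hadd (unipSet G).zero_mem (unipSet G).zero_mem
  rw [add_zero] at h
  linear_combination -h

omit [Fact p.Prime] [CharP k p] [Finite G] hp hs hi hu hq in
theorem neg_rule {f : GL (Fin 2) k → k}
    (hadd : ∀ u ∈ unipPart G, ∀ v ∈ unipPart G, f (u * v) = f u + f v)
    {x : k} (hx : x ∈ unipSet G) : f (upperRightHom (-x)) = -f (upperRightHom x) := by
  have h := add_rule hadd hx ((unipSet G).neg_mem hx)
  rw [add_neg_cancel, zero_rule hadd] at h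
  linear_combination -h

theorem eq_zero_det (f : GL (Fin 2) k → k)
    (hadd : ∀ u ∈ unipPart G, ∀ v ∈ unipPart G, f (u * v) = f u + f v)
    (heq : ∀ h ∈ borelPart G, ∀ u ∈ unipPart G,
      f (h * u * h⁻¹) = (h : Matrix (Fin 2) (Fin 2) k).det * f u) :
    ∀ u ∈ unipPart G, f u = 0 := by
  obtain ⟨h, hH, h10, hne⟩ := exists_chi_ne_one p hp hs hi hu hq
  have hh : h ∈ borelPart G := ⟨(mem_detOne.1 hH).1, h10⟩
  have hc : ratio h - 1 ≠ 0 := sub_ne_zero.2 fun e => hne (by
    rwa [ratio, div_eq_one_iff_eq (diag_ne_zero h10).2] at e)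
  have := finite_unipSet (G := G)
  let φ : unipSet G → unipSet G := fun x =>
    ⟨ratio h * (x : k) + -(x : k), (unipSet G).add_mem (ratio_mul_mem hh x.2) ((unipSet G).neg_mem x.2)⟩
  have hφ : Function.Injective φ := fun a b e => Subtype.ext (by
    have e' : ratio h * (a : k) + -(a : k) = ratio h * b + -b := congrArg Subtype.val e
    exact mul_left_cancel₀ hc (by linear_combination e'))
  intro u hu'
  obtain ⟨hG, x, rfl⟩ := mem_unipPart_iff.1 hu'
  obtain ⟨y, hy⟩ := Finite.injective_iff_surjective.1 hφ ⟨x, hG⟩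
  have hy' : ratio h * (y : k) + -(y : k) = x := congrArg Subtype.val hy
  rw [← hy', add_rule hadd (ratio_mul_mem hh y.2) ((unipSet G).neg_mem y.2), neg_rule hadd y.2,
    equiv_rule heq hh y.2, (mem_detOne.1 hH).2, one_mul, add_neg_cancel]

omit hq in
theorem eq_zero_det_mul (hd : HasCyclotomicDet p G) (f : GL (Fin 2) k → k)
    (hadd : ∀ u ∈ unipPart G, ∀ v ∈ unipPart G, f (u * v) = f u + f v)
    (heq : ∀ h ∈ borelPart G, ∀ u ∈ unipPart G,
      f (h * u * h⁻¹) = (h : Matrix (Fin 2) (Fin 2) k).det * ratio h * f u) :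
    ∀ u ∈ unipPart G, f u = 0 := by
  obtain ⟨x₀, R, hx₀, -, -, -, hspan, hratio, hgen⟩ := exists_line p hp hs hi hu
  have hRX : ∀ r ∈ R, ∀ x ∈ unipSet G, r * x ∈ unipSet G := by
    intro r hr x hx
    obtain ⟨r', hr', rfl⟩ := (hspan x).1 hx
    exact (hspan _).2 ⟨r * r', R.mul_mem hr hr', (mul_assoc _ _ _).symm⟩
  let S : Subring k :=
    { carrier := {r | r ∈ R ∧ ∀ x ∈ unipSet G, f (upperRightHom (r * x)) = r * f (upperRightHom x)}
      mul_mem' := fun {a b} ha hb => ⟨R.mul_mem ha.1 hb.1, fun x hx => by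
        rw [mul_assoc, ha.2 _ (hRX b hb.1 x hx), hb.2 x hx, mul_assoc]⟩
      one_mem' := ⟨R.one_mem, fun x _ => by rw [one_mul, one_mul]⟩
      add_mem' := fun {a b} ha hb => ⟨R.add_mem ha.1 hb.1, fun x hx => by
        rw [add_mul, add_rule hadd (hRX a ha.1 x hx) (hRX b hb.1 x hx), ha.2 x hx, hb.2 x hx,
          add_mul]⟩
      zero_mem' := ⟨R.zero_mem, fun x _ => by rw [zero_mul, zero_rule hadd, zero_mul]⟩
      neg_mem' := fun {a} ha => ⟨R.neg_mem ha.1, fun x hx => by
        rw [neg_mul, neg_rule hadd (hRX a ha.1 x hx), ha.2 x hx, neg_mul]⟩ }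
  have hall : R ≤ S := hgen S (fun r hr => hr.1) fun c hc => by
    obtain ⟨h, hH, h10, hval⟩ := mem_torusImage.1 hc
    have hh : h ∈ borelPart G := ⟨(mem_detOne.1 hH).1, h10⟩
    refine ⟨hval ▸ hratio h hh, fun x hx => ?_⟩
    rw [hval, equiv_rule heq hh hx, (mem_detOne.1 hH).2, one_mul]
  obtain ⟨g, hg, hgd⟩ := hd.2 2 fun h => hp ((Nat.prime_dvd_prime_iff_eq Fact.out Nat.prime_two).1 h)
  obtain ⟨a, ha⟩ := MulAction.mem_orbit_iff.1 (smul_infty_mem_orbit p hu hg)
  have hb : (a : GL (Fin 2) k)⁻¹ * g ∈ borelPart G := by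
    refine ⟨mul_mem (inv_mem (mem_detOne.1 a.2).1) hg, OnePoint.smul_infty_eq_self_iff.1 ?_⟩
    rw [mul_smul, inv_smul_eq_iff, ← ha]
    rfl
  intro u hu'
  obtain ⟨hG, x, rfl⟩ := mem_unipPart_iff.1 hu'
  have h1 := (hall (hratio _ hb)).2 x hG
  rw [equiv_rule heq hb hG] at h1
  have hdet : (((a : GL (Fin 2) k)⁻¹ * g : GL (Fin 2) k) : Matrix (Fin 2) (Fin 2) k).det = 2 := by
    rw [Units.val_mul, Matrix.det_mul, Matrix.coe_units_inv, Matrix.det_nonsing_inv,
      (mem_detOne.1 a.2).2, Ring.inverse_one, one_mul, hgd, Nat.cast_two]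
  rw [hdet] at h1
  have hr : ratio ((a : GL (Fin 2) k)⁻¹ * g) ≠ 0 :=
    div_ne_zero (diag_ne_zero hb.2).1 (diag_ne_zero hb.2).2
  have : ratio ((a : GL (Fin 2) k)⁻¹ * g) * f (upperRightHom x) = 0 := by linear_combination h1
  exact (mul_eq_zero.1 this).resolve_left hr

theorem eq_zero_det_div (hd : HasCyclotomicDet p G) (hp5 : 5 ≤ p) (f : GL (Fin 2) k → k)
    (hadd : ∀ u ∈ unipPart G, ∀ v ∈ unipPart G, f (u * v) = f u + f v)
    (heq : ∀ h ∈ borelPart G, ∀ u ∈ unipPart G,
      f (h * u * h⁻¹) = (h : Matrix (Fin 2) (Fin 2) k).det / ratio h * f u) :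
    ∀ u ∈ unipPart G, f u = 0 := by
  have h2 := two_ne_zero_of_ne_two (k := k) p hp
  obtain ⟨x₀, R, hx₀, hx0, hRfin, hRcard, hspan, hratio, hgen⟩ := exists_line p hp hs hi hu
  intro u hu'
  obtain ⟨hG, x, rfl⟩ := mem_unipPart_iff.1 hu'
  obtain ⟨r, hr, rfl⟩ := (hspan x).1 hG
  have hmem : ∀ r ∈ R, r * x₀ ∈ unipSet G := fun r hr => (hspan _).2 ⟨r, hr, rfl⟩
  by_cases hf : f (upperRightHom x₀) = 0
  · -- then `f` vanishes on `C · x₀`, hence everywhere
    let A : Subring k :=
      { carrier := {r | r ∈ R ∧ ∀ r' ∈ R, f (upperRightHom (r' * x₀)) = 0 →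
          f (upperRightHom (r * r' * x₀)) = 0}
        mul_mem' := fun {a b} ha hb => ⟨R.mul_mem ha.1 hb.1, fun r' hr' h0 => by
          rw [mul_assoc a b r']
          exact ha.2 _ (R.mul_mem hb.1 hr') (hb.2 r' hr' h0)⟩
        one_mem' := ⟨R.one_mem, fun r' _ h0 => by rwa [one_mul]⟩
        add_mem' := fun {a b} ha hb => ⟨R.add_mem ha.1 hb.1, fun r' hr' h0 => by
          rw [add_mul, add_mul, add_rule hadd (hmem _ (R.mul_mem ha.1 hr'))
            (hmem _ (R.mul_mem hb.1 hr')), ha.2 r' hr' h0, hb.2 r' hr' h0, add_zero]⟩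
        zero_mem' := ⟨R.zero_mem, fun r' _ _ => by rw [zero_mul, zero_mul, zero_rule hadd]⟩
        neg_mem' := fun {a} ha => ⟨R.neg_mem ha.1, fun r' hr' h0 => by
          rw [neg_mul, neg_mul, neg_rule hadd (hmem _ (R.mul_mem ha.1 hr')), ha.2 r' hr' h0,
            neg_zero]⟩ }
    have hall : R ≤ A := hgen A (fun r hr => hr.1) fun c hc => by
      obtain ⟨h, hH, h10, hval⟩ := mem_torusImage.1 hc
      have hh : h ∈ borelPart G := ⟨(mem_detOne.1 hH).1, h10⟩
      refine ⟨hval ▸ hratio h hh, fun r' hr' h0 => ?_⟩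
      rw [hval, mul_assoc, equiv_rule heq hh (hmem r' hr'), h0, mul_zero]
    have := (hall hr).2 1 R.one_mem (by rwa [one_mul])
    rwa [mul_one] at this
  exfalso
  -- `σ r` is defined by `f (r x₀) = σ r * f x₀`
  let σ : k → k := fun r => f (upperRightHom (r * x₀)) / f (upperRightHom x₀)
  have σadd : ∀ a ∈ R, ∀ b ∈ R, σ (a + b) = σ a + σ b := fun a ha b hb => by
    simp only [σ]
    rw [add_mul, add_rule hadd (hmem a ha) (hmem b hb), add_div]
  have σone : σ 1 = 1 := by simp only [σ, one_mul]; exact div_self hf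
  have σzero : σ 0 = 0 := by simp only [σ, zero_mul, zero_rule hadd, zero_div]
  have σneg : ∀ a ∈ R, σ (-a) = -σ a := fun a ha => by
    simp only [σ]
    rw [neg_mul, neg_rule hadd (hmem a ha), neg_div]
  let M : Subring k :=
    { carrier := {a | a ∈ R ∧ ∀ b ∈ R, σ (a * b) = σ a * σ b}
      mul_mem' := fun {a b} ha hb => ⟨R.mul_mem ha.1 hb.1, fun c hc => by
        rw [mul_assoc, ha.2 _ (R.mul_mem hb.1 hc), hb.2 c hc, ha.2 b hb.1, mul_assoc]⟩
      one_mem' := ⟨R.one_mem, fun b _ => by rw [one_mul, σone, one_mul]⟩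
      add_mem' := fun {a b} ha hb => ⟨R.add_mem ha.1 hb.1, fun c hc => by
        rw [add_mul, σadd _ (R.mul_mem ha.1 hc) _ (R.mul_mem hb.1 hc), ha.2 c hc, hb.2 c hc,
          σadd a ha.1 b hb.1, add_mul]⟩
      zero_mem' := ⟨R.zero_mem, fun b _ => by rw [zero_mul, σzero, zero_mul]⟩
      neg_mem' := fun {a} ha => ⟨R.neg_mem ha.1, fun c hc => by
        rw [neg_mul, σneg _ (R.mul_mem ha.1 hc), ha.2 c hc, σneg a ha.1, neg_mul]⟩ }
  have hB : ∀ h ∈ borelPart G, ∀ b ∈ R, σ (ratio h * b)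
      = (h : Matrix (Fin 2) (Fin 2) k).det / ratio h * σ b := fun h hh b hb => by
    simp only [σ]
    rw [mul_assoc, equiv_rule heq hh (hmem b hb), mul_div_assoc]
  have hCσ : ∀ c ∈ torusImage G, ∀ b ∈ R, σ ((c : k) * b) = (c : k)⁻¹ * σ b := fun c hc b hb => by
    obtain ⟨h, hH, h10, hval⟩ := mem_torusImage.1 hc
    have hh : h ∈ borelPart G := ⟨(mem_detOne.1 hH).1, h10⟩
    rw [hval]
    show σ (ratio h * b) = _
    rw [hB h hh b hb, (mem_detOne.1 hH).2, one_div]
  have hCR : ∀ c ∈ torusImage G, (c : k) ∈ R := fun c hc => by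
    obtain ⟨h, hH, h10, hval⟩ := mem_torusImage.1 hc
    rw [hval]
    exact hratio h ⟨(mem_detOne.1 hH).1, h10⟩
  have σC : ∀ c ∈ torusImage G, σ (c : k) = (c : k)⁻¹ := fun c hc => by
    have := hCσ c hc 1 R.one_mem
    rwa [mul_one, σone, mul_one] at this
  have σmul : ∀ a ∈ R, ∀ b ∈ R, σ (a * b) = σ a * σ b := fun a ha =>
    ((hgen M (fun a ha => ha.1) fun c hc => ⟨hCR c hc, fun b hb => by
      rw [hCσ c hc b hb, σC c hc]⟩) ha).2
  let T : Subring k :=
    { carrier := {a | a ∈ R ∧ σ a ∈ R ∧ σ (σ a) = a}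
      mul_mem' := fun {a b} ha hb => ⟨R.mul_mem ha.1 hb.1, by
        rw [σmul a ha.1 b hb.1]; exact R.mul_mem ha.2.1 hb.2.1, by
        rw [σmul a ha.1 b hb.1, σmul _ ha.2.1 _ hb.2.1, ha.2.2, hb.2.2]⟩
      one_mem' := ⟨R.one_mem, by rw [σone]; exact R.one_mem, by rw [σone, σone]⟩
      add_mem' := fun {a b} ha hb => ⟨R.add_mem ha.1 hb.1, by
        rw [σadd a ha.1 b hb.1]; exact R.add_mem ha.2.1 hb.2.1, by
        rw [σadd a ha.1 b hb.1, σadd _ ha.2.1 _ hb.2.1, ha.2.2, hb.2.2]⟩
      zero_mem' := ⟨R.zero_mem, by rw [σzero]; exact R.zero_mem, by rw [σzero, σzero]⟩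
      neg_mem' := fun {a} ha => ⟨R.neg_mem ha.1, by
        rw [σneg a ha.1]; exact R.neg_mem ha.2.1, by
        rw [σneg a ha.1, σneg _ ha.2.1, ha.2.2]⟩ }
  have σinv : ∀ a ∈ R, σ a ∈ R ∧ σ (σ a) = a := fun a ha =>
    ((hgen T (fun a ha => ha.1) fun c hc => by
      refine ⟨hCR c hc, ?_, ?_⟩
      · rw [σC c hc]; exact inv_mem_of_finite R (hCR c hc)
      · rw [σC c hc]
        have := σC c⁻¹ (inv_mem hc)
        rwa [Units.val_inv_eq_inv_val, inv_inv] at this) ha).2
  have hcq := card_le_two_mul_add_one p hp hs hi hu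
  have : Finite (torusImage G) := (Set.finite_range (chiHom G).toHomUnits).to_subtype
  -- the anti-fixed part
  let E : AddSubgroup k :=
    { carrier := {a | a ∈ R ∧ σ a = -a}
      add_mem' := fun {a b} ha hb => ⟨R.add_mem ha.1 hb.1, by
        rw [σadd a ha.1 b hb.1, ha.2, hb.2]; ring⟩
      zero_mem' := ⟨R.zero_mem, by rw [σzero, neg_zero]⟩
      neg_mem' := fun {a} ha => ⟨R.neg_mem ha.1, by rw [σneg a ha.1, ha.2]⟩ }
  by_cases hE : ∃ r₁ ∈ E, r₁ ≠ 0
  · -- `σ` is an involution and `c ≤ y + 1`, `y² ≤ q`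
    obtain ⟨r₁, hr₁, hr₁0⟩ := hE
    have : Finite E := Finite.of_injective (fun a : E => (⟨a, a.2.1⟩ : R))
      fun a b h => Subtype.ext (congrArg Subtype.val h :)
    set y := Nat.card E with hy
    have hfix : ∀ a ∈ E, σ (a * r₁) = a * r₁ := fun a ha => by
      rw [σmul a ha.1 r₁ hr₁.1, ha.2, hr₁.2, neg_mul_neg]
    have hsq : y * y ≤ Nat.card (unipPart G) := by
      rw [← hRcard, hy, ← Nat.card_prod]
      refine Nat.card_le_card_of_injective (fun ab : E × E =>
        (⟨(ab.1 : k) * r₁ + ab.2, R.add_mem (R.mul_mem ab.1.2.1 hr₁.1) ab.2.2.1⟩ : R)) ?_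
      rintro ⟨a, b⟩ ⟨a', b'⟩ h
      have h' : (a : k) * r₁ + b = a' * r₁ + b' := congrArg Subtype.val h
      have h'' := congrArg σ h'
      rw [σadd _ (R.mul_mem a.2.1 hr₁.1) _ b.2.1, σadd _ (R.mul_mem a'.2.1 hr₁.1) _ b'.2.1,
        hfix a a.2, hfix a' a'.2, b.2.2, b'.2.2] at h''
      have hb : (b : k) = b' := mul_left_cancel₀ h2 (by linear_combination h' - h'')
      rw [hb] at h'
      exact Prod.ext (Subtype.ext (mul_right_cancel₀ hr₁0 (add_right_cancel h'))) (Subtype.ext hb)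
    have hcy : Nat.card (torusImage G) ≤ y + 1 := by
      rw [hy, ← Nat.card_unique (α := Unit), ← Nat.card_sum]
      have hmemE : ∀ c : torusImage G, (c.1 : k) + 1 ≠ 0 → (1 - (c.1 : k)) / (1 + c.1) ∈ E := by
        intro c hc
        have hc' : (1 + (c.1 : k)) ≠ 0 := by rwa [add_comm]
        have hnum : 1 - (c.1 : k) ∈ R := R.sub_mem R.one_mem (hCR _ c.2)
        have hden : 1 + (c.1 : k) ∈ R := R.add_mem R.one_mem (hCR _ c.2)
        have hq' : (1 - (c.1 : k)) / (1 + c.1) ∈ R := by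
          rw [div_eq_mul_inv]
          exact R.mul_mem hnum (inv_mem_of_finite R hden)
        refine ⟨hq', ?_⟩
        have hσ := σmul _ hden _ hq'
        rw [mul_div_cancel₀ _ hc', σadd 1 R.one_mem _ (hCR _ c.2), σone, σC _ c.2,
          show (1 : k) - c.1 = 1 + -(c.1 : k) from sub_eq_add_neg _ _,
          σadd 1 R.one_mem _ (R.neg_mem (hCR _ c.2)), σone, σneg _ (hCR _ c.2), σC _ c.2] at hσ
        have hcne : (c.1 : k) ≠ 0 := c.1.ne_zero
        rw [sub_eq_add_neg]
        field_simp at hσ ⊢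
        linear_combination -hσ
      refine Nat.card_le_card_of_injective (fun c : torusImage G =>
        if hc : (c.1 : k) + 1 = 0 then (Sum.inr () : E ⊕ Unit) else Sum.inl ⟨_, hmemE c hc⟩) ?_
      intro c d h
      by_cases hc : (c.1 : k) + 1 = 0 <;> by_cases hd' : (d.1 : k) + 1 = 0 <;>
        simp only [hc, hd', dite_true, dite_false, reduceCtorEq, Sum.inl.injEq, Subtype.mk.injEq] at h
      · exact Subtype.ext (Units.ext (by linear_combination hc - hd'))
      · have hc' : (1 + (c.1 : k)) ≠ 0 := by rwa [add_comm]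
        have hd'' : (1 + (d.1 : k)) ≠ 0 := by rwa [add_comm]
        rw [div_eq_div_iff hc' hd''] at h
        exact Subtype.ext (Units.ext (mul_left_cancel₀ h2 (by linear_combination -h)))
    -- `p ≤ y`
    have hpy : p ≤ y := by
      rw [← Nat.card_zmod p, hy]
      refine Nat.card_le_card_of_injective (fun i : ZMod p =>
        (⟨(i.val : k) * r₁, by
          rw [← nsmul_eq_mul]
          exact E.nsmul_mem hr₁ _⟩ : E)) fun i j h => ?_
      have hij : (i.val : k) = (j.val : k) :=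
        mul_right_cancel₀ hr₁0 (congrArg Subtype.val h)
      rw [CharP.natCast_eq_natCast k p] at hij
      exact ZMod.val_injective p (Nat.ModEq.eq_of_lt_of_lt hij (ZMod.val_lt i) (ZMod.val_lt j))
    nlinarith
  · -- `σ` is the identity
    push Not at hE
    have σid : ∀ a ∈ R, σ a = a := fun a ha => by
      obtain ⟨h1, h1'⟩ := σinv a ha
      have hmemE : a - σ a ∈ E := ⟨R.sub_mem ha h1, by
        rw [sub_eq_add_neg, σadd a ha _ (R.neg_mem h1), σneg _ h1, h1']; ring⟩
      exact (sub_eq_zero.1 (hE _ hmemE)).symm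
    have hc2 : Nat.card (torusImage G) ≤ 2 := by
      rw [← Fintype.card_bool, ← Nat.card_eq_fintype_card]
      refine Nat.card_le_card_of_injective (fun c : torusImage G => decide ((c.1 : k) = 1)) ?_
      have key : ∀ c : torusImage G, (c.1 : k) = 1 ∨ (c.1 : k) = -1 := fun c => by
        have h := σC _ c.2
        rw [σid _ (hCR _ c.2)] at h
        rw [← mul_self_eq_one_iff]
        nth_rewrite 2 [h]
        exact mul_inv_cancel₀ c.1.ne_zero
      intro c d h
      refine Subtype.ext (Units.ext ?_)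
      have hne : ((-1 : k) = 1) = False := eq_false fun e => h2 (by linear_combination -e)
      rcases key c with hc | hc <;> rcases key d with hd' | hd'
      · exact hc.trans hd'.symm
      · simp [hc, hd', hne] at h
      · simp [hc, hd', hne] at h
      · exact hc.trans hd'.symm
    obtain ⟨fp, hfp0, hfp, -⟩ := natCard_unip p hu
    have hfp1 : p ≤ Nat.card (unipPart G) := hfp ▸ Nat.le_self_pow hfp0.ne' p
    have hp5' : p = 5 ∧ Nat.card (unipPart G) = 5 := by omega
    obtain ⟨g, hg, hgd⟩ := hd.2 2 fun h => hp ((Nat.prime_dvd_prime_iff_eq Fact.out Nat.prime_two).1 h)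
    obtain ⟨a, ha⟩ := MulAction.mem_orbit_iff.1 (smul_infty_mem_orbit p hu hg)
    have hb : (a : GL (Fin 2) k)⁻¹ * g ∈ borelPart G := by
      refine ⟨mul_mem (inv_mem (mem_detOne.1 a.2).1) hg, OnePoint.smul_infty_eq_self_iff.1 ?_⟩
      rw [mul_smul, inv_smul_eq_iff, ← ha]
      rfl
    set h := (a : GL (Fin 2) k)⁻¹ * g
    have hdet : (h : Matrix (Fin 2) (Fin 2) k).det = 2 := by
      simp only [h]
      rw [Units.val_mul, Matrix.det_mul, Matrix.coe_units_inv, Matrix.det_nonsing_inv,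
        (mem_detOne.1 a.2).2, Ring.inverse_one, one_mul, hgd, Nat.cast_two]
    have hr0 : ratio h ≠ 0 := div_ne_zero (diag_ne_zero hb.2).1 (diag_ne_zero hb.2).2
    have hχ := hB h hb 1 R.one_mem
    rw [mul_one, σid _ (hratio h hb), σone, mul_one, hdet] at hχ
    have hsq : ratio h ^ 2 = 2 := by
      rw [eq_div_iff hr0] at hχ
      linear_combination hχ
    -- `ratio h ^ 4 = 1`
    have h4 : ratio h ^ 4 = 1 := by
      have : IsDomain R := inferInstance
      let := Fintype.ofFinite R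
      let : Field R := Fintype.fieldOfDomain R
      have hne : (⟨ratio h, hratio h hb⟩ : R) ≠ 0 := fun e => hr0 (congrArg Subtype.val e)
      have := FiniteField.pow_card_sub_one_eq_one (⟨ratio h, hratio h hb⟩ : R) hne
      rw [← Nat.card_eq_fintype_card, hRcard, hp5'.2] at this
      exact congrArg Subtype.val this
    rw [show (4 : ℕ) = 2 * 2 from rfl, pow_mul, hsq] at h4
    have h3 : ((3 : ℕ) : k) = 0 := by push_cast; linear_combination h4
    rw [CharP.cast_eq_zero_iff k p] at h3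
    have := Nat.le_of_dvd (by norm_num) h3
    omega

end FLTAgent.TW.GroupLemma
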