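import Fermat.Agent.TW.GroupLemma.Basic
import Mathlib.GroupTheory.Sylow
import Mathlib.GroupTheory.GroupAction.Quotient

/-!
# Stabilizers of points for finite subgroups of `SL₂`
-/

set_option autoImplicit false

noncomputable section

open Matrix

attribute [local instance] Classical.propDecidable

namespace FLTAgent.TW.GroupLemma

variable {k : Type} [Field k]

/-- A finite subgroup of determinant one with eigenvalues in the field. -/
structure IsNiceSL (H : Subgroup (GL (Fin 2) k)) : Prop where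
  det_one : ∀ h ∈ H, (h : Matrix (Fin 2) (Fin 2) k).det = 1
  split : IsSplitGroup H

variable (H : Subgroup (GL (Fin 2) k))

/-- The scalar elements. -/
def scalarSub : Subgroup H where
  carrier := {h | IsScalarMat ((h : GL (Fin 2) k) : Matrix (Fin 2) (Fin 2) k)}
  mul_mem' := by
    rintro a b ⟨x, hx⟩ ⟨y, hy⟩
    exact ⟨x * y, by rw [Subgroup.coe_mul, Units.val_mul, hx, hy, smul_mul_smul_comm, mul_one]⟩
  one_mem' := ⟨1, by simp⟩
  inv_mem' := by
    rintro a ⟨x, hx⟩
    refine ⟨x⁻¹, ?_⟩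
    rw [Subgroup.coe_inv, Matrix.coe_units_inv, hx]
    rcases eq_or_ne x 0 with rfl | h
    · simp
    · exact Matrix.inv_eq_left_inv (by rw [smul_mul_smul_comm, inv_mul_cancel₀ h, one_mul, one_smul])

theorem mem_scalarSub {h : H} :
    h ∈ scalarSub H ↔ IsScalarMat ((h : GL (Fin 2) k) : Matrix (Fin 2) (Fin 2) k) := Iff.rfl

/-- The order of the scalar part. -/
def zCard : ℕ := Nat.card (scalarSub H)

/-- The order of a stabilizer. -/
def stabCard (x : OnePoint k) : ℕ := Nat.card (MulAction.stabilizer H x)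

/-- The parabolic elements fixing a point. -/
abbrev ParAt (x : OnePoint k) : Type :=
  {h : H // h • x = x ∧ (h : GL (Fin 2) k).IsParabolic}

/-- The points fixed by some nonscalar element. -/
def omega : Set (OnePoint k) := {x | ∃ h : H, h ∉ scalarSub H ∧ h • x = x}

theorem smul_def' (h : H) (x : OnePoint k) : h • x = (h : GL (Fin 2) k) • x := rfl

theorem scalarSub_le_stabilizer (x : OnePoint k) : scalarSub H ≤ MulAction.stabilizer H x :=
  fun _ hh => smul_eq_self_of_isScalarMat hh x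

theorem zCard_dvd_stabCard (x : OnePoint k) : zCard H ∣ stabCard H x :=
  Subgroup.card_dvd_of_le (scalarSub_le_stabilizer H x)

theorem zCard_dvd_card : zCard H ∣ Nat.card H := Subgroup.card_subgroup_dvd_card _

theorem zCard_pos [Finite H] : 0 < zCard H := Nat.card_pos

variable {H}

theorem two_zCard_le_stabCard [Finite H] {x : OnePoint k} (hx : x ∈ omega H) :
    2 * zCard H ≤ stabCard H x := by
  obtain ⟨h, hns, hfix⟩ := hx
  obtain ⟨d, hd⟩ := zCard_dvd_stabCard H x
  have hne : d ≠ 0 := by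
    rintro rfl
    rw [mul_zero] at hd
    exact (Nat.card_pos : 0 < stabCard H x).ne' hd
  have hne1 : d ≠ 1 := by
    rintro rfl
    rw [mul_one] at hd
    exact hns ((Subgroup.eq_of_le_of_card_ge (scalarSub_le_stabilizer H x) hd.le).ge hfix)
  rw [hd, mul_comm 2]
  exact Nat.mul_le_mul le_rfl (by omega)

theorem card_orbit_mul_stabCard (x : OnePoint k) :
    Nat.card (MulAction.orbit H x) * stabCard H x = Nat.card H := by
  rw [stabCard, Nat.card_coe_set_eq, ← MulAction.index_stabilizer, Subgroup.index_mul_card]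

theorem smul_mem_omega {h : H} {x : OnePoint k} (hx : x ∈ omega H) : h • x ∈ omega H := by
  obtain ⟨a, ha, hfix⟩ := hx
  refine ⟨h * a * h⁻¹, fun hs => ha ?_, by rw [mul_smul, mul_smul, inv_smul_smul, hfix]⟩
  obtain ⟨c, hc⟩ := (mem_scalarSub H).1 hs
  refine (mem_scalarSub H).2 ⟨c, ?_⟩
  have e : ((a : GL (Fin 2) k) : Matrix (Fin 2) (Fin 2) k)
      = (((h : GL (Fin 2) k)⁻¹ : GL (Fin 2) k) : Matrix (Fin 2) (Fin 2) k)
        * ((h * a * h⁻¹ : H) : GL (Fin 2) k).val * (h : GL (Fin 2) k).val := by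
    rw [← Units.val_mul, ← Units.val_mul]
    simp [mul_assoc]
  rw [e, hc, mul_smul_comm, mul_one, smul_mul_assoc, ← Units.val_mul, inv_mul_cancel,
    Units.val_one]

theorem stabCard_smul (h : H) (x : OnePoint k) : stabCard H (h • x) = stabCard H x := by
  rw [stabCard, stabCard, MulAction.stabilizer_smul_eq_stabilizer_map_conj]
  exact (Nat.card_congr ((MulAction.stabilizer H x).equivMapOfInjective _
    (MulAut.conj h).injective).toEquiv).symm

theorem card_parAt_smul (h : H) (x : OnePoint k) :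
    Nat.card (ParAt H (h • x)) = Nat.card (ParAt H x) := by
  refine (Nat.card_congr (Equiv.subtypeEquiv (MulAut.conj h).toEquiv fun a => ?_)).symm
  show a • x = x ∧ (a : GL (Fin 2) k).IsParabolic ↔
    (h * a * h⁻¹) • h • x = h • x ∧ ((h * a * h⁻¹ : H) : GL (Fin 2) k).IsParabolic
  rw [mul_smul, mul_smul, inv_smul_smul, smul_left_cancel_iff, Subgroup.coe_mul, Subgroup.coe_mul,
    Subgroup.coe_inv, Matrix.GeneralLinearGroup.isParabolic_conj_iff]

namespace IsNiceSL

variable (hH : IsNiceSL H)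

include hH

theorem exists_roots' (h : H) : ∃ α β : k,
    α + β = ((h : GL (Fin 2) k) : Matrix (Fin 2) (Fin 2) k).trace ∧
      α * β = ((h : GL (Fin 2) k) : Matrix (Fin 2) (Fin 2) k).det :=
  exists_roots hH.split h.2

theorem fixed_finset (h : H) (hh : h ∉ scalarSub H) :
    ∃ F : Finset (OnePoint k), (∀ x, x ∈ F ↔ h • x = x) ∧
      F.card = if (h : GL (Fin 2) k).IsParabolic then 1 else 2 := by
  obtain ⟨α, β, ht, hd⟩ := hH.exists_roots' h
  obtain ⟨F, hF, hcard⟩ := exists_fixed_finset hh ht hd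
  refine ⟨F, hF, hcard.trans ?_⟩
  by_cases hdz : ((h : GL (Fin 2) k) : Matrix (Fin 2) (Fin 2) k).discr = 0
  · rw [if_pos hdz, if_pos (isParabolic_iff.2 ⟨hh, hdz⟩)]
  · rw [if_neg hdz, if_neg fun hp => hdz (isParabolic_iff.1 hp).2]

theorem omega_finite [Finite H] : (omega H).Finite := by
  choose! F hF using fun (h : H) (hh : h ∉ scalarSub H) => hH.fixed_finset h hh
  refine (Set.finite_iUnion fun h : H => (F h).finite_toSet).subset ?_
  rintro x ⟨h, hh, hfix⟩
  exact Set.mem_iUnion.2 ⟨h, ((hF h hh).1 x).2 hfix⟩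

theorem not_isParabolic_of_fix_two {h : H} {x y : OnePoint k} (hxy : x ≠ y) (hx : h • x = x)
    (hy : h • y = y) : ¬ (h : GL (Fin 2) k).IsParabolic := by
  intro hp
  rw [isParabolic_iff] at hp
  obtain ⟨α, β, ht, hd⟩ := hH.exists_roots' h
  exact hp.1 (isScalarMat_of_fix_two ht hd hp.2 hxy hx hy)

/-- Scalar elements are `±1`. -/
theorem eq_one_or_neg_one {h : H} (hh : h ∈ scalarSub H) :
    ((h : GL (Fin 2) k) : Matrix (Fin 2) (Fin 2) k) = 1 ∨
      ((h : GL (Fin 2) k) : Matrix (Fin 2) (Fin 2) k) = -1 := by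
  obtain ⟨a, ha⟩ := hh
  have h1 := hH.det_one h h.2
  rw [ha, Matrix.det_smul, Matrix.det_one, mul_one, Fintype.card_fin, sq_eq_one_iff] at h1
  rcases h1 with rfl | rfl
  · exact Or.inl (by rw [ha, one_smul])
  · exact Or.inr (by rw [ha, neg_one_smul])

variable (h2 : (2 : k) ≠ 0)

include h2

omit h2 in
theorem isParabolic_iff_trace {h : H} :
    (h : GL (Fin 2) k).IsParabolic ↔ h ∉ scalarSub H ∧
      (((h : GL (Fin 2) k) : Matrix (Fin 2) (Fin 2) k).trace = 2 ∨
        ((h : GL (Fin 2) k) : Matrix (Fin 2) (Fin 2) k).trace = -2) := by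
  rw [isParabolic_iff, Matrix.discr_fin_two, hH.det_one h h.2]
  refine and_congr Iff.rfl ?_
  rw [← sq_eq_sq_iff_eq_or_eq_neg, sub_eq_zero]
  norm_num

theorem eq_one_of_trace_two {h : H} (hh : h ∈ scalarSub H)
    (ht : ((h : GL (Fin 2) k) : Matrix (Fin 2) (Fin 2) k).trace = 2) : h = 1 := by
  refine Subtype.ext (Units.ext ?_)
  rcases hH.eq_one_or_neg_one hh with e | e
  · exact e
  · rw [e, Matrix.trace_neg, Matrix.trace_one, Fintype.card_fin] at ht
    refine absurd (mul_self_eq_zero.1 (?_ : (2 : k) * 2 = 0)) h2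
    push_cast at ht
    linear_combination -ht

/-- An element whose square is one is a scalar. -/
theorem isScalar_of_sq_eq_one {h : H} (hsq : h * h = 1) : h ∈ scalarSub H := by
  set A := ((h : GL (Fin 2) k) : Matrix (Fin 2) (Fin 2) k) with hA
  have hsq' : A * A = 1 := by
    have := congrArg (fun z : H => ((z : GL (Fin 2) k) : Matrix (Fin 2) (Fin 2) k)) hsq
    simpa [hA] using this
  have h1 := mul_self_eq A
  rw [hsq', hH.det_one h h.2, one_smul, eq_sub_iff_add_eq] at h1
  by_cases ht : A.trace = 0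
  · rw [ht, zero_smul, ← two_smul k (1 : Matrix (Fin 2) (Fin 2) k)] at h1
    simp [h2] at h1
  · refine ⟨A.trace⁻¹ * 2, ?_⟩
    rw [← smul_smul, two_smul, h1, smul_smul, inv_mul_cancel₀ ht, one_smul]

theorem exists_neg_one [Finite H] (heven : 2 ∣ Nat.card H) :
    ∃ e : H, ((e : GL (Fin 2) k) : Matrix (Fin 2) (Fin 2) k) = -1 := by
  obtain ⟨e, he⟩ := exists_prime_orderOf_dvd_card' 2 heven
  have h1 : e * e = 1 := by simpa [he, sq] using pow_orderOf_eq_one e
  rcases hH.eq_one_or_neg_one (hH.isScalar_of_sq_eq_one h2 h1) with h | h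
  · have : e = 1 := Subtype.ext (Units.ext h)
    rw [this, orderOf_one] at he
    omega
  · exact ⟨e, h⟩

theorem zCard_eq_two [Finite H] (heven : 2 ∣ Nat.card H) : zCard H = 2 := by
  obtain ⟨e, he⟩ := hH.exists_neg_one h2 heven
  have hes : e ∈ scalarSub H := ⟨-1, by rw [he, neg_one_smul]⟩
  have hne : (⟨e, hes⟩ : scalarSub H) ≠ 1 := by
    intro h
    have h' := congrArg (fun z : scalarSub H => (((z : H) : GL (Fin 2) k) :
      Matrix (Fin 2) (Fin 2) k) 0 0) h
    simp [he] at h'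
    exact h2 (by linear_combination -h')
  rw [zCard, Nat.card_eq_two_iff]
  refine ⟨1, ⟨e, hes⟩, hne.symm, Set.eq_univ_of_forall fun z => ?_⟩
  rcases hH.eq_one_or_neg_one z.2 with h | h
  · exact Or.inl (Subtype.ext (Subtype.ext (Units.ext h)))
  · exact Or.inr (Subtype.ext (Subtype.ext (Units.ext (h.trans he.symm))))

/-- A stabilizer of order divisible by twice the scalars contains a square root of `-1`. -/
theorem exists_sq_neg_one [Finite H] (S : Subgroup H) (hd : 2 * zCard H ∣ Nat.card S) :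
    ∃ s : H, s ∈ S ∧ ((s : GL (Fin 2) k) : Matrix (Fin 2) (Fin 2) k) *
      ((s : GL (Fin 2) k) : Matrix (Fin 2) (Fin 2) k) = -1 := by
  have heven : 2 ∣ Nat.card H :=
    ((dvd_mul_right 2 _).trans hd).trans (Subgroup.card_subgroup_dvd_card S)
  rw [hH.zCard_eq_two h2 heven] at hd
  have := Fact.mk Nat.prime_two
  obtain ⟨W, hW⟩ := Sylow.exists_subgroup_card_pow_prime 2 (G := S) (n := 2) (by simpa using hd)
  obtain ⟨g, hg⟩ : ∃ g : W, g * g ≠ 1 := by
    by_contra! hall
    have hle : Nat.card W ≤ zCard H := by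
      refine Nat.card_le_card_of_injective
        (fun g : W => (⟨((g : S) : H), hH.isScalar_of_sq_eq_one h2 (by
          have := congrArg (fun z : W => ((z : S) : H)) (hall g)
          simpa using this)⟩ : scalarSub H)) fun a b h => ?_
      exact Subtype.ext (Subtype.ext (congrArg Subtype.val h :))
    rw [hW, hH.zCard_eq_two h2 heven] at hle
    norm_num at hle
  refine ⟨((g : S) : H), (g : S).2, ?_⟩
  have h4 : g ^ 4 = 1 := by
    have := pow_card_eq_one' (x := g)
    rwa [hW] at this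
  have hsq : ((g : S) : H) * ((g : S) : H) ∈ scalarSub H := by
    refine hH.isScalar_of_sq_eq_one h2 ?_
    have := congrArg (fun z : W => ((z : S) : H)) h4
    simpa [pow_succ, pow_zero, mul_assoc] using this
  rcases hH.eq_one_or_neg_one hsq with h | h
  · refine absurd ?_ hg
    exact Subtype.ext (Subtype.ext (Subtype.ext (Units.ext h)))
  · simpa using h

omit hH h2 in
theorem trace_commutator {a b : H} {x : OnePoint k} (ha : a • x = x) (hb : b • x = x) :
    ((((a * b) * (b * a)⁻¹ : H) : GL (Fin 2) k) : Matrix (Fin 2) (Fin 2) k).trace = 2 := by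
  obtain ⟨c, hc⟩ := exists_map_infty x
  have hup : ∀ u : H, u • x = x →
      ((c * (u : GL (Fin 2) k) * c⁻¹ : GL (Fin 2) k) : Matrix (Fin 2) (Fin 2) k) 1 0 = 0 := by
    intro u hu
    rw [← OnePoint.smul_infty_eq_self_iff, mul_smul, mul_smul, ← hc, inv_smul_smul]
    exact congrArg (c • ·) hu
  set A := c * (a : GL (Fin 2) k) * c⁻¹
  set B := c * (b : GL (Fin 2) k) * c⁻¹
  have e : (((a * b) * (b * a)⁻¹ : H) : GL (Fin 2) k) = c⁻¹ * ((A * B) * (B * A)⁻¹) * c := by
    simp [A, B, mul_assoc]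
  have hA : (A : Matrix (Fin 2) (Fin 2) k) 1 0 = 0 := hup a ha
  have hB : (B : Matrix (Fin 2) (Fin 2) k) 1 0 = 0 := hup b hb
  clear_value A B
  rw [e, Units.val_mul, Units.val_mul, Matrix.trace_mul_cycle, ← Units.val_mul, mul_inv_cancel,
    Units.val_one, one_mul]
  have hdA : (A : Matrix (Fin 2) (Fin 2) k) 0 0 * (A : Matrix (Fin 2) (Fin 2) k) 1 1 ≠ 0 := by
    have := A.det_ne_zero
    rw [Matrix.det_fin_two, hA] at this
    simpa using this
  have hdB : (B : Matrix (Fin 2) (Fin 2) k) 0 0 * (B : Matrix (Fin 2) (Fin 2) k) 1 1 ≠ 0 := by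
    have := B.det_ne_zero
    rw [Matrix.det_fin_two, hB] at this
    simpa using this
  rw [Units.val_mul, Matrix.coe_units_inv, Units.val_mul, Units.val_mul, Matrix.inv_def,
    Matrix.adjugate_fin_two, Ring.inverse_eq_inv', Matrix.det_fin_two]
  simp [Matrix.trace_fin_two, Matrix.mul_apply, Fin.sum_univ_two, hA, hB]
  obtain ⟨h1, h3⟩ := mul_ne_zero_iff.1 hdA
  obtain ⟨h4, h5⟩ := mul_ne_zero_iff.1 hdB
  field_simp
  ring

/-- Without parabolic elements a stabilizer is abelian. -/
theorem commute_of_fix {x : OnePoint k} (hx : IsEmpty (ParAt H x)) {a b : H} (ha : a • x = x)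
    (hb : b • x = x) : a * b = b * a := by
  set u := (a * b) * (b * a)⁻¹ with hu
  have hux : u • x = x := by
    rw [hu, _root_.mul_inv_rev, mul_smul, mul_smul, mul_smul, inv_smul_eq_iff.2 hb.symm,
      inv_smul_eq_iff.2 ha.symm, hb, ha]
  have ht := trace_commutator (H := H) ha hb
  have hs : u ∈ scalarSub H := by
    by_contra hns
    exact hx.elim ⟨u, hux, hH.isParabolic_iff_trace.2 ⟨hns, Or.inl ht⟩⟩
  exact mul_inv_eq_one.1 (hH.eq_one_of_trace_two h2 hs ht)

/-- If both fixed points of a square root of `-1` are conjugate there is a quaternion pair. -/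
theorem exists_anticomm {p : ℕ} [Fact p.Prime] [CharP k p] (hp : p ≠ 2) {s : H}
    (hs : ((s : GL (Fin 2) k) : Matrix (Fin 2) (Fin 2) k) *
      ((s : GL (Fin 2) k) : Matrix (Fin 2) (Fin 2) k) = -1)
    {x y : OnePoint k} (hxy : x ≠ y) (hsx : s • x = x) (hsy : s • y = y)
    (g : H) (hg : g • x = y) :
    ∃ t : H, ((t : GL (Fin 2) k) : Matrix (Fin 2) (Fin 2) k) *
        ((t : GL (Fin 2) k) : Matrix (Fin 2) (Fin 2) k) = -1 ∧
      ((s : GL (Fin 2) k) : Matrix (Fin 2) (Fin 2) k) *
          ((t : GL (Fin 2) k) : Matrix (Fin 2) (Fin 2) k)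
        = -(((t : GL (Fin 2) k) : Matrix (Fin 2) (Fin 2) k) *
          ((s : GL (Fin 2) k) : Matrix (Fin 2) (Fin 2) k)) := by
  let val : H → Matrix (Fin 2) (Fin 2) k := fun u => ((u : GL (Fin 2) k) : Matrix (Fin 2) (Fin 2) k)
  have vmul : ∀ u v, val (u * v) = val u * val v := fun _ _ => rfl
  have vone : val 1 = 1 := rfl
  have vinj : ∀ {u v}, val u = val v → u = v := fun h => Subtype.ext (Units.ext h)
  set e := s * s with he
  clear_value e
  have hes : val e = -1 := by rw [he]; exact hs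
  have hee : e * e = 1 := vinj (by rw [vmul, hes, vone, neg_mul_neg, mul_one])
  have hec : ∀ u, e * u = u * e := fun u => vinj (by rw [vmul, vmul, hes]; simp)
  have hefix : ∀ z : OnePoint k, e • z = z := fun z =>
    smul_eq_self_of_isScalarMat ⟨-1, by rw [neg_one_smul]; exact hes⟩ z
  set s' := g * s * g⁻¹ with hs'
  have hs'sq : s' * s' = e := by
    rw [hs', show g * s * g⁻¹ * (g * s * g⁻¹) = g * (s * s) * g⁻¹ by group, ← he, ← hec g,
      mul_inv_cancel_right]
  have hs'y : s' • y = y := by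
    rw [← hg, hs', mul_smul, mul_smul, inv_smul_smul, hsx]
  obtain ⟨c, hc⟩ := exists_map_infty y
  have hup : ∀ u : H, u • y = y → ((c * (u : GL (Fin 2) k) * c⁻¹ : GL (Fin 2) k) :
      Matrix (Fin 2) (Fin 2) k) 1 0 = 0 := fun u hu => by
    rw [← OnePoint.smul_infty_eq_self_iff, mul_smul, mul_smul, ← hc, inv_smul_smul]
    exact congrArg (c • ·) hu
  have hconj : ∀ u : H, ((c * (u : GL (Fin 2) k) * c⁻¹ : GL (Fin 2) k) : Matrix (Fin 2) (Fin 2) k)
      = (c : Matrix (Fin 2) (Fin 2) k) * val u * ((c⁻¹ : GL (Fin 2) k) : Matrix (Fin 2) (Fin 2) k) :=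
    fun _ => rfl
  have hsq : ∀ u : H, u * u = e → u • y = y →
      ((c * (u : GL (Fin 2) k) * c⁻¹ : GL (Fin 2) k) : Matrix (Fin 2) (Fin 2) k) 0 0 ^ 2 = -1 := by
    intro u hu huy
    have hval : ((c * (u : GL (Fin 2) k) * c⁻¹ : GL (Fin 2) k) : Matrix (Fin 2) (Fin 2) k) *
        ((c * (u : GL (Fin 2) k) * c⁻¹ : GL (Fin 2) k) : Matrix (Fin 2) (Fin 2) k) = -1 := by
      rw [← Units.val_mul, show c * (u : GL (Fin 2) k) * c⁻¹ * (c * (u : GL (Fin 2) k) * c⁻¹)
        = c * ((u * u : H) : GL (Fin 2) k) * c⁻¹ by rw [Subgroup.coe_mul]; group, hu, hconj, hes]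
      simp [← Units.val_mul]
    have h00 := congrArg (fun A : Matrix (Fin 2) (Fin 2) k => A 0 0) hval
    simp only [Matrix.mul_apply, Fin.sum_univ_two, hup u huy, mul_zero, add_zero] at h00
    rw [sq, h00]
    simp
  have htr : ∀ u : H, val u = val u → (val (u * s⁻¹)).trace =
      (((c * (u : GL (Fin 2) k) * c⁻¹ : GL (Fin 2) k) * (c * (s : GL (Fin 2) k) * c⁻¹)⁻¹ :
        GL (Fin 2) k) : Matrix (Fin 2) (Fin 2) k).trace := by
    intro u _
    rw [show c * (u : GL (Fin 2) k) * c⁻¹ * (c * (s : GL (Fin 2) k) * c⁻¹)⁻¹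
      = c * ((u * s⁻¹ : H) : GL (Fin 2) k) * c⁻¹ by rw [Subgroup.coe_mul, Subgroup.coe_inv]; group,
      hconj, Matrix.trace_mul_cycle, ← Units.val_mul, inv_mul_cancel, Units.val_one, one_mul]
  -- an element `w` of trace two fixing `y` with `g s g⁻¹ = ± w s`
  obtain ⟨w, hwy, hwt, hw⟩ : ∃ w : H, w • y = y ∧ (val w).trace = 2 ∧
      (s' = w * s ∨ s' = e * (w * s)) := by
    have hA := hup s' hs'y
    have hB := hup s hsy
    have hA2 := hsq s' hs'sq hs'y
    have hB2 := hsq s he.symm hsy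
    set A := c * (s' : GL (Fin 2) k) * c⁻¹
    set B := c * (s : GL (Fin 2) k) * c⁻¹
    have hvy : (s' * s⁻¹) • y = y := by rw [mul_smul, inv_smul_eq_iff.2 hsy.symm, hs'y]
    have hdet : ∀ u : H, ((c * (u : GL (Fin 2) k) * c⁻¹ : GL (Fin 2) k) :
        Matrix (Fin 2) (Fin 2) k).det = 1 := fun u => by
      rw [hconj, Matrix.det_mul, Matrix.det_mul, mul_right_comm, ← Matrix.det_mul, ← Units.val_mul,
        mul_inv_cancel, Units.val_one, Matrix.det_one, one_mul]
      exact hH.det_one u u.2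
    have hdA : (A : Matrix (Fin 2) (Fin 2) k).det = 1 := hdet s'
    have hdB : (B : Matrix (Fin 2) (Fin 2) k).det = 1 := hdet s
    rw [Matrix.det_fin_two, hA, mul_zero, sub_zero] at hdA
    rw [Matrix.det_fin_two, hB, mul_zero, sub_zero] at hdB
    have htv : (val (s' * s⁻¹)).trace = (A : Matrix (Fin 2) (Fin 2) k) 0 0 * (B : Matrix (Fin 2) (Fin 2) k) 1 1
        + (A : Matrix (Fin 2) (Fin 2) k) 1 1 * (B : Matrix (Fin 2) (Fin 2) k) 0 0 := by
      rw [htr s' rfl]
      show ((A * B⁻¹ : GL (Fin 2) k) : Matrix (Fin 2) (Fin 2) k).trace = _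
      clear_value A B
      rw [Units.val_mul, Matrix.coe_units_inv, Matrix.inv_def, Ring.inverse_eq_inv',
        Matrix.det_fin_two, hB, mul_zero, sub_zero, hdB, inv_one, one_smul,
        Matrix.adjugate_fin_two]
      simp [Matrix.trace_fin_two, Matrix.mul_apply, Fin.sum_univ_two, hA, hB]
    rcases sq_eq_sq_iff_eq_or_eq_neg.1 (hA2.trans hB2.symm) with hr | hr
    · refine ⟨s' * s⁻¹, hvy, ?_, Or.inl (inv_mul_cancel_right _ _).symm⟩
      have h11 : (A : Matrix (Fin 2) (Fin 2) k) 1 1 = (B : Matrix (Fin 2) (Fin 2) k) 1 1 := by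
        rw [hr] at hdA
        exact mul_left_cancel₀ (left_ne_zero_of_mul_eq_one hdB) (hdA.trans hdB.symm)
      rw [htv, hr, h11]
      linear_combination 2 * hdB
    · refine ⟨e * (s' * s⁻¹), by rw [mul_smul, hvy, hefix], ?_, Or.inr ?_⟩
      · have h11 : (A : Matrix (Fin 2) (Fin 2) k) 1 1 = -(B : Matrix (Fin 2) (Fin 2) k) 1 1 := by
          rw [hr] at hdA
          refine mul_left_cancel₀ (left_ne_zero_of_mul_eq_one hdB) ?_
          linear_combination -hdA + hdB
        rw [vmul, hes, neg_one_mul, Matrix.trace_neg, htv, hr, h11]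
        linear_combination 2 * hdB
      · rw [← mul_assoc e, ← mul_assoc e, hee, one_mul, inv_mul_cancel_right]
  have hws : w * s * (w * s) = e := by
    rcases hw with h | h
    · rw [← h, hs'sq]
    · have h' := hs'sq
      rwa [h, show e * (w * s) * (e * (w * s)) = e * e * (w * s * (w * s)) by
        rw [mul_assoc e, ← mul_assoc (w * s) e, ← hec (w * s)]; group, hee, one_mul] at h'
  have hwp : w ^ p = 1 := vinj (by
    show ((w ^ p : H) : GL (Fin 2) k).val = 1
    rw [SubgroupClass.coe_pow, Units.val_pow_eq_pow_val]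
    exact pow_eq_one_of_trace_det p hwt (hH.det_one w w.2))
  -- `s` inverts `w`
  have hinv : s * w = w⁻¹ * s := by
    rw [eq_inv_mul_iff_mul_eq, ← mul_assoc]
    refine mul_right_cancel (b := s) ?_
    rw [← he, mul_assoc, mul_assoc, ← mul_assoc w s, hws]
  obtain ⟨j, hj⟩ := (Fact.out : p.Prime).odd_of_ne_two hp
  have hpow : ∀ n : ℕ, w ^ n * (w * s) * (w ^ n)⁻¹ = w ^ (2 * n + 1) * s := fun n => by
    induction n with
    | zero => simp
    | succ n ih =>
      rw [pow_succ', _root_.mul_inv_rev, show w * w ^ n * (w * s) * ((w ^ n)⁻¹ * w⁻¹)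
        = w * (w ^ n * (w * s) * (w ^ n)⁻¹) * w⁻¹ by group, ih]
      have hsw : s * w⁻¹ = w * s := by
        rw [mul_inv_eq_iff_eq_mul, mul_assoc, hinv, mul_inv_cancel_left]
      rw [mul_assoc, mul_assoc, hsw, ← mul_assoc, ← mul_assoc, ← pow_succ', ← pow_succ,
        show 2 * (n + 1) + 1 = 2 * n + 1 + 1 + 1 by omega]
  set a := w ^ j * g with ha
  have hax : a • x = y := by
    rw [ha, mul_smul, hg]
    exact (MulAction.stabilizer H y).pow_mem hwy j
  have has : a * s * a⁻¹ = s ∨ a * s * a⁻¹ = e * s := by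
    rw [ha, show w ^ j * g * s * (w ^ j * g)⁻¹ = w ^ j * s' * (w ^ j)⁻¹ by rw [hs']; group]
    rcases hw with h | h
    · exact Or.inl (by rw [h, hpow, ← hj, hwp, one_mul])
    · refine Or.inr ?_
      rw [h, ← mul_assoc, ← hec, mul_assoc e, mul_assoc e, hpow, ← hj, hwp, one_mul]
  rcases has with has | has
  · -- commuting with `s` would fix the eigenline
    exfalso
    obtain ⟨d, hd⟩ := exists_map_infty x
    have hS : ((d * (s : GL (Fin 2) k) * d⁻¹ : GL (Fin 2) k) : Matrix (Fin 2) (Fin 2) k) 1 0 = 0 := by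
      rw [← OnePoint.smul_infty_eq_self_iff, mul_smul, mul_smul, ← hd, inv_smul_smul]
      exact congrArg (d • ·) hsx
    have hA : ((d * (a : GL (Fin 2) k) * d⁻¹ : GL (Fin 2) k) : Matrix (Fin 2) (Fin 2) k) 1 0 ≠ 0 := by
      rw [Ne, ← OnePoint.smul_infty_eq_self_iff, mul_smul, mul_smul, ← hd, inv_smul_smul,
        smul_left_cancel_iff]
      exact fun h => hxy (h.symm.trans hax)
    have hcm : (d * (a : GL (Fin 2) k) * d⁻¹) * (d * (s : GL (Fin 2) k) * d⁻¹)
        = (d * (s : GL (Fin 2) k) * d⁻¹) * (d * (a : GL (Fin 2) k) * d⁻¹) := by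
      rw [show a * s * a⁻¹ = s ↔ a * s = s * a from mul_inv_eq_iff_eq_mul] at has
      have := congrArg (Subtype.val (p := (· ∈ H))) has
      simp only [Subgroup.coe_mul] at this
      calc _ = d * ((a : GL (Fin 2) k) * s) * d⁻¹ := by group
        _ = d * ((s : GL (Fin 2) k) * a) * d⁻¹ := by rw [this]
        _ = _ := by group
    have hSq : ((d * (s : GL (Fin 2) k) * d⁻¹ : GL (Fin 2) k) : Matrix (Fin 2) (Fin 2) k) *
        ((d * (s : GL (Fin 2) k) * d⁻¹ : GL (Fin 2) k) : Matrix (Fin 2) (Fin 2) k) = -1 := by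
      rw [Units.val_mul, Units.val_mul]
      calc _ = (d : Matrix (Fin 2) (Fin 2) k) * (val s * ((((d⁻¹ : GL (Fin 2) k) : Matrix (Fin 2)
            (Fin 2) k)) * (d : Matrix (Fin 2) (Fin 2) k)) * val s) * ((d⁻¹ : GL (Fin 2) k) :
            Matrix (Fin 2) (Fin 2) k) := by simp only [mul_assoc]; rfl
        _ = _ := by
          rw [← Units.val_mul, inv_mul_cancel, Units.val_one, mul_one, ← vmul, ← he, hes, mul_neg,
            mul_one, neg_mul, ← Units.val_mul, mul_inv_cancel, Units.val_one]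
    have hSd : ((d * (s : GL (Fin 2) k) * d⁻¹ : GL (Fin 2) k) : Matrix (Fin 2) (Fin 2) k).det = 1 := by
      rw [Units.val_mul, Units.val_mul, Matrix.det_mul, Matrix.det_mul, mul_right_comm,
        ← Matrix.det_mul, ← Units.val_mul, mul_inv_cancel, Units.val_one, Matrix.det_one, one_mul]
      exact hH.det_one s s.2
    set S := d * (s : GL (Fin 2) k) * d⁻¹
    set A := d * (a : GL (Fin 2) k) * d⁻¹
    have htr0 := trace_eq_zero_of_mul_self hSd hSq
    have h10 := congrArg (fun u : GL (Fin 2) k => (u : Matrix (Fin 2) (Fin 2) k) 1 0) hcm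
    simp only [Units.val_mul, Matrix.mul_apply, Fin.sum_univ_two, hS, mul_zero, add_zero,
      zero_mul, zero_add] at h10
    have heq : (S : Matrix (Fin 2) (Fin 2) k) 0 0 = (S : Matrix (Fin 2) (Fin 2) k) 1 1 :=
      mul_left_cancel₀ hA (by linear_combination h10)
    rw [Matrix.trace_fin_two, ← heq, ← two_mul, mul_eq_zero] at htr0
    have h00 := congrArg (fun M : Matrix (Fin 2) (Fin 2) k => M 0 0) hSq
    simp [Matrix.mul_apply, Fin.sum_univ_two, hS, htr0.resolve_left h2] at h00
  · have hrel : val a * val s = -(val s * val a) := by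
      rw [mul_inv_eq_iff_eq_mul] at has
      rw [← vmul, has, vmul, vmul, hes]
      simp
    refine ⟨a, mul_self_eq_neg_one (hH.det_one a a.2) ?_, ?_⟩
    · show (val a).trace = 0
      have e1 : val s * val a * val s = val a := by
        rw [eq_neg_iff_add_eq_zero] at hrel
        rw [show val s * val a = -(val a * val s) by rw [eq_neg_iff_add_eq_zero, add_comm, hrel],
          neg_mul, mul_assoc, hs, mul_neg, mul_one, neg_neg]
      have h' := Matrix.trace_mul_cycle (val s) (val a) (val s)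
      rw [e1, hs, neg_mul, one_mul, Matrix.trace_neg, eq_neg_iff_add_eq_zero,
        ← two_mul] at h'
      exact (mul_eq_zero.1 h').resolve_left h2
    · show val s * val a = -(val a * val s)
      rw [hrel, neg_neg]

end IsNiceSL

end FLTAgent.TW.GroupLemma
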