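import Fermat.Agent.TW.GroupLemma.Counting
import Fermat.Agent.TW.GroupLemma.Unipotent

/-!
# The fixed point count when `p` divides the order

With `z` scalars, `q` unipotents and a torus image of order `c`, the stabilizer of `∞` has order
`z * q * c`.  Besides the orbit of `∞` there is exactly one orbit of special points, with
stabilizers of order `z * m` where `c < m` and `m * (q - 2) < q * c`.
-/

set_option autoImplicit false

noncomputable section

open Matrix Matrix.GeneralLinearGroup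

attribute [local instance] Classical.propDecidable

namespace FLTAgent.TW.GroupLemma

variable {k : Type} [Field k]

theorem upper_conj {h : GL (Fin 2) k} (h10 : (h : Matrix (Fin 2) (Fin 2) k) 1 0 = 0) (x : k) :
    h * upperRightHom x * h⁻¹ = upperRightHom
      ((h : Matrix (Fin 2) (Fin 2) k) 0 0 / (h : Matrix (Fin 2) (Fin 2) k) 1 1 * x) := by
  have h11 : (h : Matrix (Fin 2) (Fin 2) k) 1 1 ≠ 0 := fun e => h.det_ne_zero (by
    simp [Matrix.det_fin_two, h10, e])
  rw [mul_inv_eq_iff_eq_mul]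
  refine Units.ext (ext_fin_two ?_ ?_ ?_ ?_) <;>
    simp [Matrix.mul_apply, Fin.sum_univ_two, h10]
  field_simp
  ring

theorem diag_ne_zero {h : GL (Fin 2) k} (h10 : (h : Matrix (Fin 2) (Fin 2) k) 1 0 = 0) :
    (h : Matrix (Fin 2) (Fin 2) k) 0 0 ≠ 0 ∧ (h : Matrix (Fin 2) (Fin 2) k) 1 1 ≠ 0 :=
  ⟨fun e => h.det_ne_zero (by simp [Matrix.det_fin_two, h10, e]),
    fun e => h.det_ne_zero (by simp [Matrix.det_fin_two, h10, e])⟩

variable (G : Subgroup (GL (Fin 2) k))

/-- The stabilizer of `∞` in the determinant one part. -/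
abbrev borelOne : Subgroup (detOne G) :=
  MulAction.stabilizer (detOne G) (OnePoint.infty : OnePoint k)

theorem borelOne_zero {G : Subgroup (GL (Fin 2) k)} (h : borelOne G) :
    (((h : detOne G) : GL (Fin 2) k) : Matrix (Fin 2) (Fin 2) k) 1 0 = 0 :=
  OnePoint.smul_infty_eq_self_iff.1 h.2

/-- The ratio of the diagonal entries. -/
def chiHom : borelOne G →* k where
  toFun h := (((h : detOne G) : GL (Fin 2) k) : Matrix (Fin 2) (Fin 2) k) 0 0 /
    (((h : detOne G) : GL (Fin 2) k) : Matrix (Fin 2) (Fin 2) k) 1 1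
  map_one' := by simp
  map_mul' a b := by
    have ha := borelOne_zero a
    have hb := borelOne_zero b
    simp [Matrix.mul_apply, Fin.sum_univ_two, ha, hb, mul_div_mul_comm]

/-- The image of the torus. -/
def torusImage : Subgroup kˣ := (chiHom G).toHomUnits.range

variable {G}

theorem mem_torusImage {c : kˣ} : c ∈ torusImage G ↔ ∃ h ∈ detOne G,
    (h : Matrix (Fin 2) (Fin 2) k) 1 0 = 0 ∧
      (c : k) = (h : Matrix (Fin 2) (Fin 2) k) 0 0 / (h : Matrix (Fin 2) (Fin 2) k) 1 1 := by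
  constructor
  · rintro ⟨h, rfl⟩
    exact ⟨_, h.1.2, borelOne_zero h, rfl⟩
  · rintro ⟨h, hH, h10, hc⟩
    exact ⟨⟨⟨h, hH⟩, OnePoint.smul_infty_eq_self_iff.2 h10⟩, Units.ext hc.symm⟩

variable (p : ℕ) [Fact p.Prime] [CharP k p] [Finite G]

variable (hp : p ≠ 2) (hs : IsSplitGroup G) (hu : ∃ u ∈ unipPart G, u ≠ 1)

include hp hs hu

/-- A parabolic element fixes a point in the orbit of `∞`. -/
theorem parabolic_mem_orbit {h : detOne G} (hpar : (h : GL (Fin 2) k).IsParabolic)
    {x : OnePoint k} (hx : h • x = x) :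
    x ∈ MulAction.orbit (detOne G) (OnePoint.infty : OnePoint k) := by
  have h2 := two_ne_zero_of_ne_two (k := k) p hp
  have hH := isNiceSL_detOne hs
  have hhh : ((h * h : detOne G) : GL (Fin 2) k) ∈ G := (mem_detOne.1 (h * h).2).1
  have hd : (((h * h : detOne G) : GL (Fin 2) k) : Matrix (Fin 2) (Fin 2) k).det = 1 :=
    hH.det_one _ (h * h).2
  have htr : (((h * h : detOne G) : GL (Fin 2) k) : Matrix (Fin 2) (Fin 2) k).trace = 2 := by
    rw [Subgroup.coe_mul, Units.val_mul, mul_self_eq, hH.det_one _ h.2, Matrix.trace_sub,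
      Matrix.trace_smul, one_smul, Matrix.trace_one, Fintype.card_fin, smul_eq_mul]
    rcases (hH.isParabolic_iff_trace.1 hpar).2 with e | e <;> rw [e] <;> norm_num
  obtain ⟨a, ha, hau⟩ := exists_conj_mem p hu hhh htr hd
  obtain ⟨-, y, hy⟩ := mem_unipPart_iff.1 hau
  have hy0 : y ≠ 0 := by
    intro h0
    rw [h0, AddChar.map_zero_eq_one, conj_eq_one_iff] at hy
    exact (isParabolic_iff.1 hpar).1 (hH.isScalar_of_sq_eq_one h2 (Subtype.ext hy))
  have hfix : (upperRightHom y : GL (Fin 2) k) • a • x = a • x := by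
    rw [← hy, mul_smul, mul_smul, inv_smul_smul]
    refine congrArg (a • ·) ?_
    rw [Subgroup.coe_mul, mul_smul]
    rw [smul_def'] at hx
    rw [hx, hx]
  have hax := fixed_upper hy0 hfix
  have := smul_infty_mem_orbit p hu (inv_mem ha)
  rwa [show a⁻¹ • (OnePoint.infty : OnePoint k) = x by rw [← hax, inv_smul_smul]] at this

theorem isEmpty_parAt {x : OnePoint k}
    (hx : x ∉ MulAction.orbit (detOne G) (OnePoint.infty : OnePoint k)) :
    IsEmpty (ParAt (detOne G) x) :=
  ⟨fun h => hx (parabolic_mem_orbit p hp hs hu h.2.2 h.2.1)⟩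

omit hu hp [Fact p.Prime] [CharP k p] in
theorem card_parAt_infty_add :
    zCard (detOne G) + Nat.card (ParAt (detOne G) (OnePoint.infty : OnePoint k))
      = Nat.card (chiHom G).toHomUnits.ker := by
  have hH := isNiceSL_detOne hs
  rw [zCard, ← Nat.card_sum]
  let φ : (scalarSub (detOne G)) ⊕ ParAt (detOne G) (OnePoint.infty : OnePoint k) →
      (chiHom G).toHomUnits.ker := Sum.elim
    (fun h => ⟨⟨h.1, scalarSub_le_stabilizer _ _ h.2⟩, by
      refine MonoidHom.mem_ker.2 (Units.ext ?_)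
      have := isScalarMat_iff.1 h.2
      show _ / _ = (1 : k)
      rw [this.2.2, div_self]
      exact (diag_ne_zero this.2.1).2⟩)
    (fun h => ⟨⟨h.1, h.2.1⟩, by
      refine MonoidHom.mem_ker.2 (Units.ext ?_)
      have h10 := OnePoint.smul_infty_eq_self_iff.1 h.2.1
      show _ / _ = (1 : k)
      rw [((Matrix.GeneralLinearGroup.isParabolic_iff_of_upperTriangular h10).1 h.2.2).1, div_self]
      exact (diag_ne_zero h10).2⟩)
  refine Nat.card_eq_of_bijective φ ⟨?_, ?_⟩
  · intro a b h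
    have h' := congrArg (fun w : (chiHom G).toHomUnits.ker => ((w : borelOne G) : detOne G)) h
    rcases a with a | a <;> rcases b with b | b
    · exact congrArg Sum.inl (Subtype.ext h')
    · have e : a.1 = b.1 := h'
      exact absurd (e ▸ a.2) (isParabolic_iff.1 b.2.2).1
    · have e : a.1 = b.1 := h'
      exact absurd (e ▸ b.2) (isParabolic_iff.1 a.2.2).1
    · exact congrArg Sum.inr (Subtype.ext h')
  · rintro ⟨⟨h, hfix⟩, hker⟩
    by_cases hsc : h ∈ scalarSub (detOne G)
    · exact ⟨Sum.inl ⟨h, hsc⟩, rfl⟩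
    · refine ⟨Sum.inr ⟨h, hfix, ?_⟩, rfl⟩
      have h10 := OnePoint.smul_infty_eq_self_iff.1 hfix
      have heq := congrArg Units.val (MonoidHom.mem_ker.1 hker)
      change _ / _ = (1 : k) at heq
      rw [div_eq_one_iff_eq (diag_ne_zero h10).2] at heq
      refine (Matrix.GeneralLinearGroup.isParabolic_iff_of_upperTriangular h10).2 ⟨heq, fun h01 => hsc ?_⟩
      exact isScalarMat_iff.2 ⟨h01, h10, heq⟩

omit hu [Finite G] in
theorem card_ker :
    Nat.card (chiHom G).toHomUnits.ker = zCard (detOne G) * Nat.card (unipPart G) := by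
  have h2 := two_ne_zero_of_ne_two (k := k) p hp
  have hH := isNiceSL_detOne hs
  rw [zCard, ← Nat.card_prod]
  symm
  have hmem : ∀ u : unipPart G, ((u : GL (Fin 2) k) ∈ detOne G) := fun u =>
    unipSub_le_detOne G u.2
  let φ : scalarSub (detOne G) × unipPart G → (chiHom G).toHomUnits.ker := fun zu =>
    ⟨⟨zu.1.1 * ⟨_, hmem zu.2⟩, (borelOne G).mul_mem (scalarSub_le_stabilizer _ _ zu.1.2)
      (OnePoint.smul_infty_eq_self_iff.2 zu.2.2.2.1)⟩, by
      refine MonoidHom.mem_ker.2 (Units.ext ?_)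
      obtain ⟨-, h10, h00, h11⟩ := zu.2.2
      obtain ⟨z01, z10, z00⟩ := isScalarMat_iff.1 zu.1.2
      show _ / _ = (1 : k)
      simp [Matrix.mul_apply, Fin.sum_univ_two, h10, h00, h11, z01, z10, z00,
        (diag_ne_zero z10).2]⟩
  refine Nat.card_eq_of_bijective φ ⟨?_, ?_⟩
  · rintro ⟨z, u⟩ ⟨z', u'⟩ h
    have h' : z.1 * ⟨_, hmem u⟩ = z'.1 * ⟨_, hmem u'⟩ :=
      congrArg (fun w : (chiHom G).toHomUnits.ker => ((w : borelOne G) : detOne G)) h
    have hz : z.1 = z'.1 := by
      have hw : z'.1⁻¹ * z.1 = ⟨_, hmem u'⟩ * (⟨_, hmem u⟩ : detOne G)⁻¹ := by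
        rw [eq_mul_inv_iff_mul_eq, mul_assoc, h', inv_mul_cancel_left]
      have hsc : z'.1⁻¹ * z.1 ∈ scalarSub (detOne G) := mul_mem (inv_mem z'.2) z.2
      have ht : (((z'.1⁻¹ * z.1 : detOne G) : GL (Fin 2) k) :
          Matrix (Fin 2) (Fin 2) k).trace = 2 := by
        rw [hw]
        obtain ⟨-, x, hx⟩ := mem_unipPart_iff.1 ((unipSub G).mul_mem u'.2 ((unipSub G).inv_mem u.2))
        have hx' : ((⟨_, hmem u'⟩ * (⟨_, hmem u⟩ : detOne G)⁻¹ : detOne G) : GL (Fin 2) k)
            = upperRightHom x := hx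
        rw [hx', (upper_trace_det x).1]
      exact (inv_mul_eq_one.1 (hH.eq_one_of_trace_two h2 hsc ht)).symm
    rw [hz] at h'
    refine Prod.ext (Subtype.ext hz) (Subtype.ext ?_)
    exact congrArg (Subtype.val (p := (· ∈ detOne G))) (mul_left_cancel h')
  · rintro ⟨⟨h, hfix⟩, hker⟩
    have h10 := OnePoint.smul_infty_eq_self_iff.1 hfix
    have heq := congrArg Units.val (MonoidHom.mem_ker.1 hker)
    change _ / _ = (1 : k) at heq
    rw [div_eq_one_iff_eq (diag_ne_zero h10).2] at heq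
    change ((h : GL (Fin 2) k) : Matrix (Fin 2) (Fin 2) k) 0 0 = _ at heq
    have hd := hH.det_one _ h.2
    have hd' := hd
    rw [Matrix.det_fin_two, h10, mul_zero, sub_zero, heq, ← sq, sq_eq_one_iff] at hd'
    rcases hd' with h1 | h1
    · exact ⟨(1, ⟨h, (mem_detOne.1 h.2).1, h10, heq.trans h1, h1⟩),
        Subtype.ext (Subtype.ext (one_mul _))⟩
    · -- `h ^ p = -1`
      have hneg : (((h ^ p : detOne G) : GL (Fin 2) k) : Matrix (Fin 2) (Fin 2) k) = -1 := by
        rw [SubgroupClass.coe_pow, Units.val_pow_eq_pow_val]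
        have hodd := (Fact.out : p.Prime).odd_of_ne_two hp
        have := pow_eq_one_of_trace_det p (A := -((h : GL (Fin 2) k) : Matrix (Fin 2) (Fin 2) k))
          (by rw [Matrix.trace_neg, Matrix.trace_fin_two, heq, h1]; ring)
          (by rw [Matrix.det_neg, Fintype.card_fin, hd]; norm_num)
        rw [hodd.neg_pow] at this
        exact neg_eq_iff_eq_neg.1 this
      have he : h ^ p ∈ scalarSub (detOne G) := ⟨-1, by rw [hneg, neg_one_smul]⟩
      have hmul : (((h ^ p * h : detOne G) : GL (Fin 2) k) : Matrix (Fin 2) (Fin 2) k)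
          = -((h : GL (Fin 2) k) : Matrix (Fin 2) (Fin 2) k) := by
        rw [Subgroup.coe_mul, Units.val_mul, hneg, neg_one_mul]
      refine ⟨(⟨h ^ p, he⟩, ⟨((h ^ p * h : detOne G) : GL (Fin 2) k),
        (mem_detOne.1 (h ^ p * h).2).1, ?_, ?_, ?_⟩), Subtype.ext (Subtype.ext ?_)⟩
      · rw [hmul]; simp [h10]
      · rw [hmul]; simp [heq, h1]
      · rw [hmul]; simp [h1]
      · show h ^ p * (h ^ p * h) = h
        refine Subtype.ext (Units.ext ?_)
        rw [Subgroup.coe_mul, Units.val_mul, hneg, hmul, neg_mul_neg, one_mul]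

omit hu in
theorem stabCard_infty :
    stabCard (detOne G) (OnePoint.infty : OnePoint k)
      = zCard (detOne G) * Nat.card (unipPart G) * Nat.card (torusImage G) := by
  rw [← card_ker p hp hs, torusImage, ← Subgroup.index_ker, Subgroup.card_mul_index]
  rfl

omit hs in
theorem three_le_card : 3 ≤ Nat.card (unipPart G) := by
  obtain ⟨f, hf0, hf, -⟩ := natCard_unip p hu
  rw [hf]
  have := (Fact.out : p.Prime).two_le
  exact le_trans (by omega) (Nat.le_self_pow hf0.ne' p)

omit hp hs hu in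
omit [Fact p.Prime] [CharP k p] in
/-- The torus acts freely on the nontrivial unipotents. -/
theorem card_torusImage_dvd :
    Nat.card (torusImage G) ∣ Nat.card (unipPart G) - 1 := by
  set X : Set k := {x | x ≠ 0 ∧ upperRightHom x ∈ G}
  have hXfin : X.Finite := by
    have : Finite X := Finite.of_injective (fun x : X => (⟨_, x.2.2⟩ : G))
      fun a b h => Subtype.ext (injective_upperRightHom (congrArg Subtype.val h))
    exact X.toFinite
  have hX : hXfin.toFinset.card = Nat.card (unipPart G) - 1 := by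
    have : Finite (unipPart G) := Finite.of_injective
      (fun u : unipPart G => (⟨_, u.2.1⟩ : G))
      fun a b h => Subtype.ext (congrArg Subtype.val h :)
    have := Fintype.ofFinite (unipPart G)
    rw [← Nat.card_eq_card_finite_toFinset hXfin, Nat.card_eq_fintype_card (α := unipPart G),
      ← Finset.card_univ, ← Finset.card_erase_of_mem
        (Finset.mem_univ (⟨1, (unipSub G).one_mem⟩ : unipPart G))]
    rw [← Nat.card_eq_finsetCard]
    refine Nat.card_congr (Equiv.ofBijective (fun x => ⟨⟨upperRightHom (x : k),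
      mem_unipPart_iff.2 ⟨x.2.2, x, rfl⟩⟩, Finset.mem_erase.2 ⟨fun h => x.2.1
        (upper_eq_one_iff.1 (congrArg Subtype.val h)), Finset.mem_univ _⟩⟩) ⟨?_, ?_⟩)
    · intro a b h
      exact Subtype.ext (injective_upperRightHom (congrArg (fun z => (z.1 : GL (Fin 2) k)) h))
    · rintro ⟨⟨g, hg⟩, hne⟩
      obtain ⟨hG, x, rfl⟩ := mem_unipPart_iff.1 hg
      refine ⟨⟨x, fun h0 => (Finset.mem_erase.1 hne).1 (Subtype.ext ?_), hG⟩, rfl⟩
      exact upper_eq_one_iff.2 h0
  have : Finite (torusImage G) := by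
    have : Finite (borelOne G) := inferInstance
    exact (Set.finite_range (chiHom G).toHomUnits).to_subtype
  rw [← hX, Finset.card_eq_sum_card_image
    (fun x : k => if hx : x = 0 then (1 : kˣ ⧸ torusImage G) else
      QuotientGroup.mk (Units.mk0 x hx)) hXfin.toFinset]
  refine Finset.dvd_sum fun b hb => dvd_of_eq ?_
  obtain ⟨x₀, hx₀, rfl⟩ := Finset.mem_image.1 hb
  obtain ⟨hx0, hxG⟩ := hXfin.mem_toFinset.1 hx₀
  rw [dif_neg hx0, ← Nat.card_eq_finsetCard]
  refine Nat.card_congr (Equiv.ofBijective (fun c => ⟨(c.1 : k) * x₀, ?_⟩) ⟨?_, ?_⟩)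
  · obtain ⟨h, hH, h10, hc⟩ := mem_torusImage.1 c.2
    refine Finset.mem_filter.2 ⟨hXfin.mem_toFinset.2 ⟨mul_ne_zero c.1.ne_zero hx0, ?_⟩, ?_⟩
    · rw [hc, ← upper_conj h10]
      exact mul_mem (mul_mem (mem_detOne.1 hH).1 hxG) (inv_mem (mem_detOne.1 hH).1)
    · rw [dif_neg (mul_ne_zero c.1.ne_zero hx0), QuotientGroup.eq]
      rw [show (Units.mk0 ((c.1 : k) * x₀) (mul_ne_zero c.1.ne_zero hx0))⁻¹ * Units.mk0 x₀ hx0
        = (c.1)⁻¹ by ext; simp]
      exact inv_mem c.2
  · intro a b h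
    exact Subtype.ext (Units.ext (mul_right_cancel₀ hx0 (congrArg Subtype.val h)))
  · rintro ⟨y, hy⟩
    obtain ⟨hy1, hy2⟩ := Finset.mem_filter.1 hy
    obtain ⟨hy0, -⟩ := hXfin.mem_toFinset.1 hy1
    rw [dif_neg hy0, QuotientGroup.eq] at hy2
    refine ⟨⟨_, inv_mem hy2⟩, Subtype.ext ?_⟩
    simp
    field_simp

end FLTAgent.TW.GroupLemma
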