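import Fermat.Agent.TW.GroupLemma.UnipCount

/-!
# The two special orbits when `p` divides the order
-/

set_option autoImplicit false

noncomputable section

open Matrix Matrix.GeneralLinearGroup

attribute [local instance] Classical.propDecidable

namespace FLTAgent.TW.GroupLemma

variable {k : Type} [Field k] {G : Subgroup (GL (Fin 2) k)} [Finite G]
  (p : ℕ) [Fact p.Prime] [CharP k p]

/-- The orbit of `∞`. -/
local notation "O∞" => MulAction.orbit (detOne G) (OnePoint.infty : OnePoint k)

variable (hp : p ≠ 2) (hs : IsSplitGroup G) (hi : IsIrredGroup G) (hu : ∃ u ∈ unipPart G, u ≠ 1)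

include hp hs hi hu

omit [CharP k p] [Fact p.Prime] [Finite G] hp hs hi in
theorem infty_mem_omega : (OnePoint.infty : OnePoint k) ∈ omega (detOne G) := by
  obtain ⟨x, hx0, hxG⟩ := exists_upper_mem hu
  refine ⟨⟨_, unipSub_le_detOne G (mem_unipPart_iff.2 ⟨hxG, x, rfl⟩)⟩, fun h => hx0 ?_,
    upper_smul_infty x⟩
  have := (isScalarMat_iff.1 h).1
  simpa using this

omit hp hs in
include p in
theorem two_le_card_orbit : 2 ≤ Nat.card O∞ := by
  obtain ⟨g, hg, hne⟩ := exists_smul_ne hi (OnePoint.infty : OnePoint k)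
  rw [← card_orbitFinset]
  exact Finset.one_lt_card.2 ⟨_, mem_orbitFinset.2 (smul_infty_mem_orbit p hu hg), _,
    mem_orbitFinset.2 (MulAction.mem_orbit_self _), hne⟩

omit hi hu in
theorem card_eq : Nat.card (detOne G) = Nat.card O∞ *
    (zCard (detOne G) * Nat.card (unipPart G) * Nat.card (torusImage G)) := by
  rw [← stabCard_infty p hp hs, card_orbit_mul_stabCard]

omit hi hu in
theorem wt_infty : wt (detOne G) (OnePoint.infty : OnePoint k) = (zCard (detOne G) : ℤ) *
    ((Nat.card (unipPart G) : ℤ) * Nat.card (torusImage G) + Nat.card (unipPart G) - 2) := by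
  have h := (card_parAt_infty_add hs).trans (card_ker p hp hs)
  have h' : (zCard (detOne G) : ℤ) + Nat.card (ParAt (detOne G) (OnePoint.infty : OnePoint k))
      = zCard (detOne G) * Nat.card (unipPart G) := by exact_mod_cast h
  rw [wt, stabCard_infty p hp hs]
  push_cast
  linear_combination h'

omit hi in
/-- Total weight outside the orbit of `∞`. -/
theorem sum_wt_rest :
    ∑ x ∈ (isNiceSL_detOne hs).omegaFinset \ orbitFinset (H := detOne G) (OnePoint.infty : OnePoint k),
        wt (detOne G) x
      = (zCard (detOne G) : ℤ) * ((Nat.card O∞ : ℤ) * Nat.card (unipPart G) * Nat.card (torusImage G)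
          - Nat.card O∞ * ((Nat.card (unipPart G) : ℤ) - 2) - 2) := by
  have hH := isNiceSL_detOne hs
  have hsum := hH.sum_wt
  rw [← Finset.sum_sdiff (hH.orbitFinset_subset (infty_mem_omega hu)), sum_wt_orbit,
    wt_infty p hp hs, card_eq p hp hs] at hsum
  push_cast at hsum
  linear_combination hsum

omit hi in
/-- Weight of an orbit of the remaining points. -/
theorem sum_wt_other {x : OnePoint k} (hx : x ∉ O∞) {m : ℕ}
    (hm : stabCard (detOne G) x = zCard (detOne G) * m) :
    (∑ y ∈ orbitFinset (H := detOne G) x, wt (detOne G) y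
        = (zCard (detOne G) : ℤ) * Nat.card (MulAction.orbit (detOne G) x) * ((m : ℤ) - 1)) ∧
      Nat.card (MulAction.orbit (detOne G) x) * m
        = Nat.card O∞ * Nat.card (unipPart G) * Nat.card (torusImage G) := by
  have := isEmpty_parAt p hp hs hu hx
  refine ⟨?_, ?_⟩
  · rw [sum_wt_orbit, wt, hm, Nat.card_of_isEmpty (α := ParAt (detOne G) x)]
    push_cast
    ring
  · have h := (card_orbit_mul_stabCard (H := detOne G) x).trans (card_eq p hp hs)
    rw [hm] at h
    refine Nat.eq_of_mul_eq_mul_left (zCard_pos (detOne G)) ?_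
    linarith

theorem exists_other : ∃ x ∈ omega (detOne G), x ∉ O∞ := by
  by_contra! hall
  have h := sum_wt_rest p hp hs hu
  have hn : (2 : ℤ) ≤ Nat.card O∞ := by exact_mod_cast two_le_card_orbit p hi hu
  have hz : (0 : ℤ) < zCard (detOne G) := by exact_mod_cast zCard_pos (detOne G)
  have hc : (1 : ℤ) ≤ Nat.card (torusImage G) := by
    have : Finite (torusImage G) := (Set.finite_range (chiHom G).toHomUnits).to_subtype
    exact_mod_cast Nat.card_pos
  rw [Finset.sum_eq_zero] at h
  · rcases mul_eq_zero.1 h.symm with h0 | h0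
    · exact hz.ne' h0
    · nlinarith [mul_le_mul_of_nonneg_left hc (mul_nonneg (zero_le_two.trans hn)
        (Int.natCast_nonneg (Nat.card (unipPart G))))]
  · intro x hx
    rw [Finset.mem_sdiff, mem_orbitFinset, (isNiceSL_detOne hs).mem_omegaFinset] at hx
    exact absurd (hall x hx.1) hx.2

/-- There is only one further orbit of special points. -/
theorem other_mem_orbit {x y : OnePoint k} (hx : x ∈ omega (detOne G)) (hxO : x ∉ O∞)
    (hy : y ∈ omega (detOne G)) (hyO : y ∉ O∞) : y ∈ MulAction.orbit (detOne G) x := by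
  by_contra hyx
  have hH := isNiceSL_detOne hs
  set Ox := orbitFinset (H := detOne G) x
  set Oy := orbitFinset (H := detOne G) y
  have hdisj : Disjoint Ox Oy := Finset.disjoint_left.2 fun w hw hw' => hyx (by
    rw [mem_orbitFinset] at hw hw'
    rw [← MulAction.orbit_eq_iff.2 hw, MulAction.orbit_eq_iff.2 hw']
    exact MulAction.mem_orbit_self y)
  have hsub : ∀ v : OnePoint k, v ∈ omega (detOne G) → v ∉ O∞ → orbitFinset (H := detOne G) v ⊆
      hH.omegaFinset \ orbitFinset (H := detOne G) (OnePoint.infty : OnePoint k) := by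
    intro v hv hvO w hw
    refine Finset.mem_sdiff.2 ⟨hH.orbitFinset_subset hv hw, fun h => hvO ?_⟩
    rw [mem_orbitFinset] at hw h
    rw [← MulAction.orbit_eq_iff.2 h, MulAction.orbit_eq_iff.2 hw]
    exact MulAction.mem_orbit_self v
  have hle := Finset.sum_le_sum_of_subset_of_nonneg (f := wt (detOne G))
    (Finset.union_subset (hsub x hx hxO) (hsub y hy hyO)) fun v _ _ => wt_nonneg v
  rw [Finset.sum_union hdisj, sum_wt_rest p hp hs hu] at hle
  have hge : ∀ v : OnePoint k, v ∈ omega (detOne G) → v ∉ O∞ →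
      (zCard (detOne G) : ℤ) * (Nat.card O∞ * Nat.card (unipPart G) * Nat.card (torusImage G))
        ≤ 2 * ∑ w ∈ orbitFinset (H := detOne G) v, wt (detOne G) w := by
    intro v hv hvO
    obtain ⟨m, hm⟩ := zCard_dvd_stabCard (detOne G) v
    obtain ⟨h1, h2⟩ := sum_wt_other p hp hs hu hvO hm
    have hm2 : 2 ≤ m := by
      have h3 := two_zCard_le_stabCard hv
      rw [hm, mul_comm 2] at h3
      exact Nat.le_of_mul_le_mul_left h3 (zCard_pos _)
    have h2' : (Nat.card (MulAction.orbit (detOne G) v) : ℤ) * m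
        = Nat.card O∞ * Nat.card (unipPart G) * Nat.card (torusImage G) := by exact_mod_cast h2
    rw [h1, ← h2']
    have : (0 : ℤ) ≤ zCard (detOne G) * Nat.card (MulAction.orbit (detOne G) v) := by positivity
    have hm2' : (2 : ℤ) ≤ m := by exact_mod_cast hm2
    nlinarith
  have hn : (2 : ℤ) ≤ Nat.card O∞ := by exact_mod_cast two_le_card_orbit p hi hu
  have hq : (3 : ℤ) ≤ Nat.card (unipPart G) := by exact_mod_cast three_le_card p hp hu
  have hz : (0 : ℤ) < zCard (detOne G) := by exact_mod_cast zCard_pos (detOne G)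
  have h3 := hge x hx hxO
  have h4 := hge y hy hyO
  have h5 : (0 : ℤ) < (Nat.card O∞ : ℤ) * ((Nat.card (unipPart G) : ℤ) - 2) + 2 := by nlinarith
  nlinarith [mul_pos hz h5]

/-- The other stabilizer order `z * m` satisfies `c < m` and `m (q - 2) < q c`. -/
theorem other_bounds {x : OnePoint k} (hx : x ∈ omega (detOne G)) (hxO : x ∉ O∞) {m : ℕ}
    (hm : stabCard (detOne G) x = zCard (detOne G) * m) :
    Nat.card (torusImage G) < m ∧
      m * (Nat.card (unipPart G) - 2) < Nat.card (unipPart G) * Nat.card (torusImage G) := by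
  have hH := isNiceSL_detOne hs
  obtain ⟨h1, h2⟩ := sum_wt_other p hp hs hu hxO hm
  have heq : orbitFinset (H := detOne G) x
      = hH.omegaFinset \ orbitFinset (H := detOne G) (OnePoint.infty : OnePoint k) := by
    ext w
    rw [mem_orbitFinset, Finset.mem_sdiff, mem_orbitFinset, hH.mem_omegaFinset]
    constructor
    · intro hw
      refine ⟨orbit_subset_omega hx hw, fun h => hxO ?_⟩
      rw [← MulAction.orbit_eq_iff.2 h, MulAction.orbit_eq_iff.2 hw]
      exact MulAction.mem_orbit_self x
    · exact fun hw => other_mem_orbit p hp hs hi hu hx hxO hw.1 hw.2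
  rw [heq, sum_wt_rest p hp hs hu] at h1
  have hz : (zCard (detOne G) : ℤ) ≠ 0 := by exact_mod_cast (zCard_pos (detOne G)).ne'
  have h1' := mul_left_cancel₀ hz (h1.trans (mul_assoc _ _ _))
  set n := Nat.card O∞
  set n' := Nat.card (MulAction.orbit (detOne G) x)
  set q := Nat.card (unipPart G)
  set c := Nat.card (torusImage G)
  have hn : 2 ≤ n := two_le_card_orbit p hi hu
  have hq : 3 ≤ q := three_le_card p hp hu
  have h2' : (n' : ℤ) * m = n * q * c := by exact_mod_cast h2
  have hn' : n' = n * (q - 2) + 2 := by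
    zify [show 2 ≤ q by omega]
    linear_combination h1' + h2'
  constructor
  · by_contra! hmc
    have hlt : n' < n * q := by
      rw [hn', Nat.mul_sub]
      have : n * 2 ≤ n * q := Nat.mul_le_mul_left n (by omega)
      omega
    have hc : 0 < c := by
      have : Finite (torusImage G) := (Set.finite_range (chiHom G).toHomUnits).to_subtype
      exact Nat.card_pos
    have := (Nat.mul_le_mul_left n' hmc).trans_lt (Nat.mul_lt_mul_of_pos_right hlt hc)
    omega
  · refine Nat.lt_of_mul_lt_mul_left (a := n) ?_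
    rw [← mul_assoc n q c, ← h2, hn']
    have hm0 : 0 < m := by
      rcases Nat.eq_zero_or_pos m with h | h
      · rw [h, mul_zero] at hm
        exact absurd hm (Nat.card_pos : 0 < stabCard (detOne G) x).ne'
      · exact h
    nlinarith

/-- `q ≤ 2 c + 1`. -/
theorem card_le_two_mul_add_one :
    Nat.card (unipPart G) ≤ 2 * Nat.card (torusImage G) + 1 := by
  obtain ⟨x, hx, hxO⟩ := exists_other p hp hs hi hu
  obtain ⟨m, hm⟩ := zCard_dvd_stabCard (detOne G) x
  obtain ⟨h1, h2⟩ := other_bounds p hp hs hi hu hx hxO hm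
  have hq := three_le_card p hp hu
  set q := Nat.card (unipPart G)
  set c := Nat.card (torusImage G)
  have h3 := (Nat.mul_le_mul_right (q - 2) (Nat.succ_le_of_lt h1)).trans_lt h2
  obtain ⟨r, hr⟩ : ∃ r, q = r + 2 := ⟨q - 2, by omega⟩
  rw [hr, Nat.add_sub_cancel] at h3
  rw [hr]
  nlinarith

/-- A quaternion pair in the determinant one part. -/
theorem exists_anticomm_of_unip :
    ∃ s ∈ detOne G, ∃ t ∈ detOne G,
      (s : Matrix (Fin 2) (Fin 2) k) * s = -1 ∧ (t : Matrix (Fin 2) (Fin 2) k) * t = -1 ∧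
      (s : Matrix (Fin 2) (Fin 2) k) * t = -((t : Matrix (Fin 2) (Fin 2) k) * s) := by
  have h2 := two_ne_zero_of_ne_two (k := k) p hp
  have hH := isNiceSL_detOne hs
  obtain ⟨x₁, hx₁, hx₁O⟩ := exists_other p hp hs hi hu
  obtain ⟨m, hm⟩ := zCard_dvd_stabCard (detOne G) x₁
  obtain ⟨hcm, hmq⟩ := other_bounds p hp hs hi hu hx₁ hx₁O hm
  have hq := three_le_card p hp hu
  have hqle := card_le_two_mul_add_one p hp hs hi hu
  have hdvd := card_torusImage_dvd (G := G)
  -- `c` or `m` is even
  have heven : 2 ∣ Nat.card (torusImage G) ∨ 2 ∣ m := by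
    obtain ⟨f, hf0, hf, -⟩ := natCard_unip p hu
    have hqodd : Odd (Nat.card (unipPart G)) := by
      rw [hf]
      exact ((Fact.out : p.Prime).odd_of_ne_two hp).pow
    set q := Nat.card (unipPart G)
    set c := Nat.card (torusImage G)
    by_contra! hcon
    obtain ⟨hc, hm'⟩ := hcon
    obtain ⟨a, ha⟩ := hqodd
    obtain ⟨j, hj⟩ := hdvd
    have hj2 : j ≤ 2 := by
      by_contra! hj3
      have : c * 3 ≤ c * j := Nat.mul_le_mul_left c hj3
      omega
    interval_cases j
    · omega
    · omega
    · -- `q = 2 c + 1`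
      have hqc : q - 2 = 2 * c - 1 := by omega
      rw [hqc, show q = 2 * c + 1 by omega] at hmq
      obtain ⟨d, hd⟩ : ∃ d, c = d + 1 := ⟨c - 1, by omega⟩
      rw [hd] at hmq hcm hc
      have hm2 : d + 3 ≤ m := by omega
      rw [show 2 * (d + 1) - 1 = 2 * d + 1 by omega] at hmq
      have hlow := Nat.mul_le_mul_right (2 * d + 1) hm2
      nlinarith
  obtain ⟨x₀, hx₀, hS⟩ : ∃ x₀ ∈ omega (detOne G),
      2 * zCard (detOne G) ∣ Nat.card (MulAction.stabilizer (detOne G) x₀) := by
    rcases heven with ⟨d, hd⟩ | ⟨d, hd⟩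
    · refine ⟨_, infty_mem_omega hu, Nat.card (unipPart G) * d, ?_⟩
      rw [show Nat.card (MulAction.stabilizer (detOne G) (OnePoint.infty : OnePoint k))
        = stabCard (detOne G) (OnePoint.infty : OnePoint k) from rfl, stabCard_infty p hp hs, hd]
      ring
    · refine ⟨x₁, hx₁, d, ?_⟩
      rw [show Nat.card (MulAction.stabilizer (detOne G) x₁) = stabCard (detOne G) x₁ from rfl, hm, hd]
      ring
  obtain ⟨s, hsmem, hss⟩ := hH.exists_sq_neg_one h2 _ hS
  have hns : s ∉ scalarSub (detOne G) := by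
    intro h
    rcases hH.eq_one_or_neg_one h with e | e <;> rw [e] at hss <;>
      · have h00 := congrArg (fun A : Matrix (Fin 2) (Fin 2) k => A 0 0) hss
        simp at h00
        exact h2 (by linear_combination h00)
  have hnp : ¬ (s : GL (Fin 2) k).IsParabolic := by
    intro hpar
    have ht := trace_eq_zero_of_mul_self (hH.det_one _ s.2) hss
    rcases (hH.isParabolic_iff_trace.1 hpar).2 with e | e <;> rw [ht] at e
    · exact h2 e.symm
    · exact h2 (by linear_combination e)
  obtain ⟨F, hF, hFcard⟩ := hH.fixed_finset s hns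
  rw [if_neg hnp] at hFcard
  obtain ⟨x, y, hxy, rfl⟩ := Finset.card_eq_two.1 hFcard
  have hsx : s • x = x := (hF x).1 (by simp)
  have hsy : s • y = y := (hF y).1 (by simp)
  -- both fixed points lie in the same orbit
  have key : ∀ a b : OnePoint k, a ≠ b → s • a = a → s • b = b →
      (∀ w, s • w = w → w = a ∨ w = b) → a ∈ O∞ → b ∈ O∞ := by
    intro a b hab ha hb hw haO
    by_contra hbO
    have hbΩ : b ∈ omega (detOne G) := ⟨s, hns, hb⟩
    obtain ⟨mb, hmb⟩ := zCard_dvd_stabCard (detOne G) b
    have hcmb := (other_bounds p hp hs hi hu hbΩ hbO hmb).1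
    have hemp := isEmpty_parAt p hp hs hu hbO
    have hle : ∀ h : detOne G, h • b = b → h • a = a := by
      intro h hh
      have hcomm := hH.commute_of_fix h2 hemp hh hb
      rcases hw (h • a) (by rw [← mul_smul, ← hcomm, mul_smul, ha]) with e | e
      · exact e
      · exact absurd (MulAction.injective h (e.trans hh.symm)) hab
    obtain ⟨g, hga⟩ := haO
    replace hga : g • (OnePoint.infty : OnePoint k) = a := hga
    subst hga
    have hmem : ∀ u : unipPart G, g * ⟨u, unipSub_le_detOne G u.2⟩ * g⁻¹ ∈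
        MulAction.stabilizer (detOne G) (g • (OnePoint.infty : OnePoint k)) := fun u => by
      rw [MulAction.mem_stabilizer_iff, mul_smul, mul_smul, inv_smul_smul]
      exact congrArg (g • ·) (OnePoint.smul_infty_eq_self_iff.2 u.2.2.1)
    let ψ : unipPart G × MulAction.stabilizer (detOne G) b →
        MulAction.stabilizer (detOne G) (g • (OnePoint.infty : OnePoint k)) :=
      fun uh => ⟨g * ⟨uh.1, unipSub_le_detOne G uh.1.2⟩ * g⁻¹ * (uh.2 : detOne G),
        (MulAction.stabilizer (detOne G) (g • (OnePoint.infty : OnePoint k))).mul_mem (hmem uh.1)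
          (MulAction.mem_stabilizer_iff.2 (hle _ (MulAction.mem_stabilizer_iff.1 uh.2.2)))⟩
    have hψ : Function.Injective ψ := by
      rintro ⟨u, h⟩ ⟨u', h'⟩ he
      have he' : g * ⟨u, unipSub_le_detOne G u.2⟩ * g⁻¹ * (h : detOne G)
          = g * ⟨u', unipSub_le_detOne G u'.2⟩ * g⁻¹ * (h' : detOne G) := congrArg Subtype.val he
      set w : detOne G := (h' : detOne G) * (h : detOne G)⁻¹ with hwdef
      have hw' : w = g * ((⟨u', unipSub_le_detOne G u'.2⟩ : detOne G)⁻¹
          * ⟨u, unipSub_le_detOne G u.2⟩) * g⁻¹ := by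
        rw [hwdef, mul_inv_eq_iff_eq_mul]
        calc (h' : detOne G)
            = (g * ⟨u', unipSub_le_detOne G u'.2⟩ * g⁻¹)⁻¹
                * (g * ⟨u', unipSub_le_detOne G u'.2⟩ * g⁻¹ * (h' : detOne G)) :=
              (inv_mul_cancel_left _ _).symm
          _ = _ := by rw [← he']; group
      have hwb : w • b = b := (MulAction.stabilizer (detOne G) b).mul_mem h'.2
        ((MulAction.stabilizer (detOne G) b).inv_mem h.2)
      obtain ⟨-, x, hx⟩ := mem_unipPart_iff.1
        ((unipSub G).mul_mem ((unipSub G).inv_mem u'.2) u.2)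
      have htr : (((w : detOne G) : GL (Fin 2) k) : Matrix (Fin 2) (Fin 2) k).trace = 2 := by
        rw [hw', Subgroup.coe_mul, Subgroup.coe_mul, Units.val_mul, Units.val_mul,
          Matrix.trace_mul_cycle, ← Units.val_mul, Subgroup.coe_inv, inv_mul_cancel, Units.val_one,
          one_mul]
        have hx' : ((((⟨u', unipSub_le_detOne G u'.2⟩ : detOne G)⁻¹
          * ⟨u, unipSub_le_detOne G u.2⟩ : detOne G)) : GL (Fin 2) k) = upperRightHom x := hx
        rw [hx', (upper_trace_det x).1]
      have hw1 : w = 1 := by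
        refine hH.eq_one_of_trace_two h2 ?_ htr
        by_contra hns'
        exact hemp.elim ⟨w, hwb, hH.isParabolic_iff_trace.2 ⟨hns', Or.inl htr⟩⟩
      have hhh : (h : detOne G) = h' := (mul_inv_eq_one.1 (hwdef ▸ hw1 :
        (h' : detOne G) * (h : detOne G)⁻¹ = 1)).symm
      rw [hhh] at he'
      have hu' := mul_left_cancel (mul_right_cancel (mul_right_cancel he'))
      exact Prod.ext (Subtype.ext (congrArg Subtype.val hu' :)) (Subtype.ext hhh)
    have hcard := Nat.card_le_card_of_injective ψ hψ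
    rw [Nat.card_prod] at hcard
    have e1 : Nat.card (MulAction.stabilizer (detOne G) b) = zCard (detOne G) * mb := hmb
    have e2 : Nat.card (MulAction.stabilizer (detOne G) (g • (OnePoint.infty : OnePoint k)))
        = zCard (detOne G) * Nat.card (unipPart G) * Nat.card (torusImage G) :=
      (stabCard_smul g _).trans (stabCard_infty p hp hs)
    rw [e1, e2] at hcard
    have hz := zCard_pos (detOne G)
    have := Nat.mul_lt_mul_of_pos_left hcmb (show 0 < Nat.card (unipPart G) * zCard (detOne G) by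
      positivity)
    nlinarith
  have hfix2 : ∀ w, s • w = w → w = x ∨ w = y := fun w hw => by simpa using (hF w).2 hw
  have horb : y ∈ MulAction.orbit (detOne G) x := by
    by_cases hxO : x ∈ O∞
    · rw [MulAction.orbit_eq_iff.2 hxO]
      exact key x y hxy hsx hsy hfix2 hxO
    · refine other_mem_orbit p hp hs hi hu ⟨s, hns, hsx⟩ hxO ⟨s, hns, hsy⟩ fun hyO => hxO ?_
      exact key y x hxy.symm hsy hsx (fun w hw => (hfix2 w hw).symm) hyO
  obtain ⟨g, hg⟩ := horb
  obtain ⟨t, ht, hst⟩ := hH.exists_anticomm h2 hp hss hxy hsx hsy g hg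
  exact ⟨_, s.2, _, t.2, hss, ht, hst⟩

end FLTAgent.TW.GroupLemma
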